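import Mathlib

/-!
# S27, char-0 half, leaf VAL (helper57): core (Mathlib only)

For an algebraically closed field `K` of characteristic `0`, a finite set `I ⊆ K` and `m > 0`
there are a prime `p ∤ m` and a valuation ring `O` of `K` in which the nonzero elements of `I`
are units, `p` is a non-unit and whose residue field is algebraic over `𝔽_p`
(`∀ a ∈ O, ∃ n > 0, a^(p^n) - a ∈ m_O`).

Route: `A := ℤ[I, I⁻¹, 1/m]`, a maximal ideal `m0` of `A` (`A / m0` is a finite field by the
Nullstellensatz over `ℤ`), and a valuation ring `O ⊇ A` with `m0 ⊆ m_O` which is MINIMAL with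
these properties (Zorn: the intersection of a chain of valuation rings is a valuation ring).
If the residue field of a minimal `O` had an element `ā` which is not absolutely algebraic, then
the residue field has a valuation ring `V` with `ā⁻¹ ∉ V`, and the composite
`{x ∈ O : x mod m_O ∈ V}` is a strictly smaller valuation ring with the same properties.
-/

set_option autoImplicit false
set_option linter.style.haveILetI false

noncomputable section

namespace Fermat.Agent.S27.Char0.H57

universe u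

open IsLocalRing

section ResField

variable {k : Type u} [Field k]

/-- An element with `z ^ q = z` (`q ≥ 2`) lies in every valuation subring. -/
theorem mem_of_pow_eq (V : ValuationSubring k) {z : k} {q : ℕ} (hq : 2 ≤ q) (hz : z ^ q = z) :
    z ∈ V := by
  rcases V.mem_or_inv_mem z with h | h
  · exact h
  · by_cases hz0 : z = 0
    · rw [hz0]; exact V.zero_mem
    · obtain ⟨r, rfl⟩ : ∃ r, q = r + 2 := ⟨q - 2, by omega⟩
      have h2 : z ^ r * z = 1 := by
        have h3 : z ^ r * z * z = 1 * z := by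
          rw [one_mul]
          calc z ^ r * z * z = z ^ (r + 2) := by ring
            _ = z := hz
        exact mul_right_cancel₀ hz0 h3
      have h4 : z = (z⁻¹) ^ r := by
        rw [inv_pow]
        exact eq_inv_of_mul_eq_one_right h2
      rw [h4]
      exact pow_mem h r

/-- An element algebraic over `𝔽_p` satisfies `y ^ (p ^ n) = y` for some `n > 0`. -/
theorem exists_pow_eq_of_isAlgebraic (p : ℕ) [Fact p.Prime] [CharP k p]
    (alg : Algebra (ZMod p) k) {y : k} (hy : IsAlgebraic (ZMod p) y) :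
    ∃ n : ℕ, 0 < n ∧ y ^ (p ^ n) = y := by
  have hint : IsIntegral (ZMod p) y := hy.isIntegral
  haveI : FiniteDimensional (ZMod p) (IntermediateField.adjoin (ZMod p) {y}) :=
    IntermediateField.adjoin.finiteDimensional hint
  haveI : Finite (IntermediateField.adjoin (ZMod p) {y}) := Module.finite_of_finite (ZMod p)
  haveI : Fintype (IntermediateField.adjoin (ZMod p) {y}) := Fintype.ofFinite _
  haveI : CharP (IntermediateField.adjoin (ZMod p) {y}) p :=
    charP_of_injective_algebraMap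
      (algebraMap (ZMod p) (IntermediateField.adjoin (ZMod p) {y})).injective p
  obtain ⟨n, -, hn⟩ := FiniteField.card (IntermediateField.adjoin (ZMod p) {y}) p
  refine ⟨n, n.pos, ?_⟩
  have h := FiniteField.pow_card
    (⟨y, IntermediateField.mem_adjoin_simple_self _ y⟩ : IntermediateField.adjoin (ZMod p) {y})
  rw [hn] at h
  exact congrArg Subtype.val h

/-- If `y` is not absolutely algebraic, some valuation subring does not contain `y⁻¹`. -/
theorem exists_valuationSubring_inv_notMem (p : ℕ) [Fact p.Prime] [CharP k p] {y : k}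
    (hy : ∀ n : ℕ, 0 < n → y ^ (p ^ n) ≠ y) : ∃ V : ValuationSubring k, y⁻¹ ∉ V := by
  have hy0 : y ≠ 0 := by
    rintro rfl
    exact hy 1 one_pos (zero_pow (pow_ne_zero _ (Fact.out : p.Prime).ne_zero))
  letI alg : Algebra (ZMod p) k := ZMod.algebra k p
  let B : Subring k := (Algebra.adjoin (ZMod p) {y}).toSubring
  have hyB : y ∈ B := Algebra.self_mem_adjoin_singleton _ y
  have hI : Ideal.span {(⟨y, hyB⟩ : B)} ≠ ⊤ := by
    intro htop
    rw [Ideal.span_singleton_eq_top] at htop
    obtain ⟨⟨b, hb⟩, hmul⟩ := isUnit_iff_exists_inv.mp htop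
    have hmul' : y * b = 1 := congrArg Subtype.val hmul
    have hb' : b ∈ Algebra.adjoin (ZMod p) {y} := hb
    rw [Algebra.adjoin_singleton_eq_range_aeval] at hb'
    obtain ⟨G, rfl⟩ := hb'
    have halg : IsAlgebraic (ZMod p) y := by
      refine ⟨Polynomial.X * G - 1, ?_, ?_⟩
      · intro h0
        have := congrArg (fun f => Polynomial.coeff f 0) h0
        simp at this
      · have h5 : (Polynomial.aeval y) G = (Polynomial.aeval y).toRingHom G := rfl
        rw [map_sub, map_mul, Polynomial.aeval_X, map_one, h5, hmul', sub_self]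
    obtain ⟨n, hn, hpow⟩ := exists_pow_eq_of_isAlgebraic p alg halg
    exact hy n hn hpow
  obtain ⟨V, -, hV⟩ := Ideal.image_subset_nonunits_valuationSubring _ hI
  refine ⟨V, ?_⟩
  have hyV : y ∈ V.nonunits := hV ⟨⟨y, hyB⟩, Ideal.subset_span rfl, rfl⟩
  rw [ValuationSubring.mem_nonunits_iff_or] at hyV
  exact hyV.resolve_left hy0

/-- `ℤ` is a Jacobson ring. -/
theorem isJacobsonRing_int : IsJacobsonRing ℤ := by
  rw [isJacobsonRing_iff_prime_eq]
  intro P hP
  by_cases hbot : P = ⊥
  · subst hbot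
    rw [eq_bot_iff]
    intro n hn
    rw [Ideal.mem_bot]
    by_contra hn0
    obtain ⟨p, hpn, hp⟩ := Nat.exists_infinite_primes (n.natAbs + 1)
    have hmax : (Ideal.span {(p : ℤ)}).IsMaximal :=
      PrincipalIdealRing.isMaximal_of_irreducible (Nat.prime_iff_prime_int.mp hp).irreducible
    have hmem : n ∈ Ideal.span {(p : ℤ)} := (Ideal.mem_sInf.mp hn) ⟨bot_le, hmax⟩
    rw [Ideal.mem_span_singleton] at hmem
    have h2 : p ∣ n.natAbs := Int.natCast_dvd.mp hmem
    have h3 := Nat.le_of_dvd (Int.natAbs_pos.mpr hn0) h2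
    omega
  · haveI : P.IsMaximal := Ideal.IsPrime.isMaximal hP hbot
    exact Ideal.jacobson_eq_self_of_isMaximal

/-- A field which is a finitely generated abelian group is finite. -/
theorem finite_of_moduleFinite_int (F : Type*) [Field F] [Module.Finite ℤ F] : Finite F := by
  have hchar : ¬ CharZero F := by
    intro h0
    haveI : Algebra.IsIntegral ℤ F := Algebra.IsIntegral.of_finite ℤ F
    have hinj : Function.Injective (algebraMap ℤ F) := by
      intro a b hab
      have : ((a : ℤ) : F) = (b : F) := by simpa using hab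
      exact_mod_cast this
    exact Int.not_isField (isField_of_isIntegral_of_isField hinj (Field.toIsField F))
  obtain ⟨r, hr⟩ := CharP.exists F
  have hr0 : r ≠ 0 := by
    rintro rfl
    exact hchar (CharP.charP_to_charZero F)
  refine Module.finite_of_fg_torsion F ?_
  intro x
  refine ⟨⟨(r : ℤ), mem_nonZeroDivisors_of_ne_zero (by exact_mod_cast hr0)⟩, ?_⟩
  show ((r : ℤ) : ℤ) • x = 0
  rw [natCast_zsmul, nsmul_eq_mul, CharP.cast_eq_zero F r, zero_mul]

end ResField

section Val

variable {K : Type u} [Field K]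

/-- The intersection of a chain of valuation subrings. -/
def chainInf (c : Set (ValuationSubring K))
    (htot : ∀ O₁ ∈ c, ∀ O₂ ∈ c, O₁ ≤ O₂ ∨ O₂ ≤ O₁) : ValuationSubring K :=
  ValuationSubring.ofSubring (⨅ O ∈ c, O.toSubring) (by
    intro x
    by_cases h : ∀ O ∈ c, x ∈ O
    · left
      simp only [Subring.mem_iInf]
      exact fun O hO => h O hO
    · right
      push Not at h
      obtain ⟨O₁, hO₁, hx⟩ := h
      simp only [Subring.mem_iInf]
      intro O hO
      rcases htot O hO O₁ hO₁ with h | h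
      · exact (O.mem_or_inv_mem x).resolve_left (fun hxO => hx (h hxO))
      · exact h ((O₁.mem_or_inv_mem x).resolve_left hx))

theorem mem_chainInf {c : Set (ValuationSubring K)}
    {htot : ∀ O₁ ∈ c, ∀ O₂ ∈ c, O₁ ≤ O₂ ∨ O₂ ≤ O₁} {x : K} :
    x ∈ chainInf c htot ↔ ∀ O ∈ c, x ∈ O := by
  show x ∈ (⨅ O ∈ c, O.toSubring) ↔ _
  simp only [Subring.mem_iInf]
  rfl

/-- The residue class of `x ∈ O` vanishes iff `x = 0` or `x⁻¹ ∉ O`. -/
theorem residue_eq_zero_iff_or (O : ValuationSubring K) {x : K} (hx : x ∈ O) :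
    residue O ⟨x, hx⟩ = 0 ↔ x = 0 ∨ x⁻¹ ∉ O := by
  rw [IsLocalRing.residue_eq_zero_iff, ← ValuationSubring.mem_nonunits_iff_or,
    ValuationSubring.mem_nonunits_iff_exists_mem_maximalIdeal]
  constructor
  · intro h; exact ⟨hx, h⟩
  · rintro ⟨_, h⟩; exact h

theorem residue_inv (O : ValuationSubring K) {x : K} (hx : x ∈ O) (hx' : x⁻¹ ∈ O)
    (hx0 : x ≠ 0) : residue O ⟨x⁻¹, hx'⟩ = (residue O ⟨x, hx⟩)⁻¹ := by
  have h1 : (⟨x, hx⟩ : O) * ⟨x⁻¹, hx'⟩ = 1 := Subtype.ext (mul_inv_cancel₀ hx0)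
  have h2 : residue O ⟨x, hx⟩ * residue O ⟨x⁻¹, hx'⟩ = 1 := by
    rw [← map_mul, h1, map_one]
  exact eq_inv_of_mul_eq_one_right h2

/-- The composite of a valuation ring `O` of `K` and a valuation ring `V` of its residue
field. -/
def compVal (O : ValuationSubring K) (V : ValuationSubring (ResidueField O)) :
    ValuationSubring K :=
  ValuationSubring.ofSubring ((V.toSubring.comap (residue O)).map O.subtype) (by
    intro x
    by_cases hx : x ∈ O
    · by_cases hr : residue O ⟨x, hx⟩ = 0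
      · left
        refine ⟨⟨x, hx⟩, ?_, rfl⟩
        show residue O ⟨x, hx⟩ ∈ V
        rw [hr]; exact V.zero_mem
      · have h1 := (not_iff_not.mpr (residue_eq_zero_iff_or O hx)).mp hr
        push Not at h1
        obtain ⟨hx0, hx'⟩ := h1
        rcases V.mem_or_inv_mem (residue O ⟨x, hx⟩) with h | h
        · left
          exact ⟨⟨x, hx⟩, h, rfl⟩
        · right
          refine ⟨⟨x⁻¹, hx'⟩, ?_, rfl⟩
          show residue O ⟨x⁻¹, hx'⟩ ∈ V
          rw [residue_inv O hx hx' hx0]
          exact h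
    · right
      have hx' : x⁻¹ ∈ O := (O.mem_or_inv_mem x).resolve_left hx
      refine ⟨⟨x⁻¹, hx'⟩, ?_, rfl⟩
      show residue O ⟨x⁻¹, hx'⟩ ∈ V
      have h0 : residue O ⟨x⁻¹, hx'⟩ = 0 := by
        rw [residue_eq_zero_iff_or]
        right
        rw [inv_inv]
        exact hx
      rw [h0]; exact V.zero_mem)

theorem mem_compVal {O : ValuationSubring K} {V : ValuationSubring (ResidueField O)} {x : K} :
    x ∈ compVal O V ↔ ∃ h : x ∈ O, residue O ⟨x, h⟩ ∈ V := by
  constructor
  · rintro ⟨⟨y, hy⟩, hyV, rfl⟩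
    exact ⟨hy, hyV⟩
  · rintro ⟨h, hV⟩
    exact ⟨⟨x, h⟩, hV, rfl⟩

theorem compVal_le (O : ValuationSubring K) (V : ValuationSubring (ResidueField O)) :
    compVal O V ≤ O := fun _ hx => (mem_compVal.mp hx).1

/-- Zorn: a minimal valuation subring containing a subring `A` in which the elements of a set
`M0` are non-units. -/
theorem exists_minimal_valuationSubring (A : Subring K) (M0 : Set K)
    (hne : ∃ O : ValuationSubring K, A ≤ O.toSubring ∧ M0 ⊆ O.nonunits) :
    ∃ O : ValuationSubring K, (A ≤ O.toSubring ∧ M0 ⊆ O.nonunits) ∧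
      ∀ O' : ValuationSubring K, A ≤ O'.toSubring → M0 ⊆ O'.nonunits → O' ≤ O → O ≤ O' := by
  obtain ⟨O₀, hO₀⟩ := hne
  obtain ⟨m, hm⟩ := zorn_le₀ (α := (ValuationSubring K)ᵒᵈ)
    {O | A ≤ (OrderDual.ofDual O).toSubring ∧ M0 ⊆ (OrderDual.ofDual O).nonunits} (by
      intro c hc hchain
      by_cases hemp : c = ∅
      · refine ⟨OrderDual.toDual O₀, hO₀, ?_⟩
        intro z hz
        rw [hemp] at hz
        exact absurd hz (Set.notMem_empty z)
      · obtain ⟨O₁, hO₁⟩ := Set.nonempty_iff_ne_empty.mpr hemp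
        have htot : ∀ P₁ ∈ (OrderDual.ofDual '' c : Set (ValuationSubring K)),
            ∀ P₂ ∈ (OrderDual.ofDual '' c : Set (ValuationSubring K)), P₁ ≤ P₂ ∨ P₂ ≤ P₁ := by
          rintro _ ⟨P₁, hP₁, rfl⟩ _ ⟨P₂, hP₂, rfl⟩
          rcases hchain.total hP₁ hP₂ with h | h
          · exact Or.inr h
          · exact Or.inl h
        refine ⟨OrderDual.toDual (chainInf _ htot), ⟨?_, ?_⟩, ?_⟩
        · intro x hx
          show x ∈ chainInf _ htot
          rw [mem_chainInf]
          rintro _ ⟨P, hP, rfl⟩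
          exact (hc hP).1 hx
        · intro x hx
          show x ∈ (chainInf _ htot).nonunits
          rw [ValuationSubring.mem_nonunits_iff_or]
          have h1 : x ∈ (OrderDual.ofDual O₁).nonunits := (hc hO₁).2 hx
          rw [ValuationSubring.mem_nonunits_iff_or] at h1
          rcases h1 with h1 | h1
          · exact Or.inl h1
          · right
            intro h2
            rw [mem_chainInf] at h2
            exact h1 (h2 _ ⟨O₁, hO₁, rfl⟩)
        · intro z hz
          show chainInf _ htot ≤ OrderDual.ofDual z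
          intro x hx
          rw [mem_chainInf] at hx
          exact hx _ ⟨z, hz, rfl⟩)
  refine ⟨OrderDual.ofDual m, hm.1, ?_⟩
  intro O' hA hM hle
  exact hm.2 (y := OrderDual.toDual O') ⟨hA, hM⟩ hle

end Val

/-- **VAL**, core form. -/
theorem val_core (K : Type u) [Field K] [CharZero K] (I : Finset K) (m : ℕ) (hm : 0 < m) :
    ∃ (p : ℕ) (O : ValuationSubring K), p.Prime ∧ ¬ p ∣ m ∧
      (∀ a ∈ I, a ∈ O) ∧ (∀ a ∈ I, a ≠ 0 → a⁻¹ ∈ O) ∧
      (p : K) ∈ O ∧ ((p : K))⁻¹ ∉ O ∧
      ∀ a ∈ O, ∃ n : ℕ, 0 < n ∧ (a ^ (p ^ n) - a = 0 ∨ (a ^ (p ^ n) - a)⁻¹ ∉ O) := by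
  classical
  -- the finitely generated ring `A`
  let S : Finset K := I ∪ I.image (fun a => a⁻¹) ∪ {((m : K))⁻¹}
  let A₀ : Subalgebra ℤ K := Algebra.adjoin ℤ (S : Set K)
  let A : Subring K := A₀.toSubring
  have hSA : ∀ s ∈ S, s ∈ A := fun s hs => Algebra.subset_adjoin (Finset.mem_coe.mpr hs)
  haveI hft₀ : Algebra.FiniteType ℤ A₀ :=
    (Subalgebra.fg_iff_finiteType A₀).mp (Subalgebra.fg_adjoin_finset S)
  obtain ⟨m0, hm0⟩ := Ideal.exists_maximal A
  letI : Field (A ⧸ m0) := Ideal.Quotient.field m0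
  -- `A / m0` is a finite field
  let ι : A₀ →+* A := (A₀.val : A₀ →+* K).codRestrict A (fun x => x.2)
  have hι : Function.Surjective ι := fun x => ⟨⟨x.1, x.2⟩, Subtype.ext rfl⟩
  let g : A₀ →ₐ[ℤ] (A ⧸ m0) := ((Ideal.Quotient.mk m0).comp ι).toIntAlgHom
  have hg : Function.Surjective g := by
    intro y
    obtain ⟨x, rfl⟩ := Ideal.Quotient.mk_surjective y
    obtain ⟨x', rfl⟩ := hι x
    exact ⟨x', rfl⟩
  haveI : Algebra.FiniteType ℤ (A ⧸ m0) := Algebra.FiniteType.of_surjective g hg
  haveI : IsJacobsonRing ℤ := isJacobsonRing_int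
  haveI : Module.Finite ℤ (A ⧸ m0) := finite_of_finite_type_of_isJacobsonRing ℤ (A ⧸ m0)
  haveI : Finite (A ⧸ m0) := finite_of_moduleFinite_int (A ⧸ m0)
  haveI : Fintype (A ⧸ m0) := Fintype.ofFinite _
  set q : ℕ := Fintype.card (A ⧸ m0) with hq
  have hq2 : 2 ≤ q := Fintype.one_lt_card
  obtain ⟨p, hpchar⟩ := CharP.exists (A ⧸ m0)
  haveI := hpchar
  have hp : p.Prime := (CharP.char_is_prime_or_zero (A ⧸ m0) p).resolve_right
    (fun h0 => by
      subst h0
      haveI : CharZero (A ⧸ m0) := CharP.charP_to_charZero _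
      exact not_finite (A ⧸ m0))
  haveI : Fact p.Prime := ⟨hp⟩
  -- `p ∈ m0`
  have hpm0 : ((p : ℕ) : A) ∈ m0 := by
    rw [← Ideal.Quotient.eq_zero_iff_mem, map_natCast]
    exact CharP.cast_eq_zero (A ⧸ m0) p
  -- `x ^ q - x ∈ m0`
  have hfrob : ∀ x : A, x ^ q - x ∈ m0 := by
    intro x
    rw [← Ideal.Quotient.eq_zero_iff_mem, map_sub, map_pow, hq, FiniteField.pow_card, sub_self]
  have hmK : (m : K) ≠ 0 := Nat.cast_ne_zero.mpr hm.ne'
  have hpK : (p : K) ≠ 0 := Nat.cast_ne_zero.mpr hp.ne_zero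
  have hminv : ((m : K))⁻¹ ∈ A := hSA _ (by simp [S])
  have hpm : ¬ p ∣ m := by
    rintro ⟨c, rfl⟩
    have h1 : ((⟨((p * c : ℕ) : K)⁻¹, hminv⟩ : A) * ((c : ℕ) : A)) * ((p : ℕ) : A) = 1 := by
      apply Subtype.ext
      push_cast
      push_cast at hmK
      have hcK : (c : K) ≠ 0 := right_ne_zero_of_mul hmK
      field_simp
    have h2 : (1 : A) ∈ m0 := by
      rw [← h1]
      exact m0.mul_mem_left _ hpm0
    exact hm0.ne_top ((Ideal.eq_top_iff_one m0).mpr h2)
  -- the set `M0`
  let M0 : Set K := A.subtype '' (m0 : Set A)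
  obtain ⟨O, ⟨hAO, hMO⟩, hmin⟩ := exists_minimal_valuationSubring A M0
    (Ideal.image_subset_nonunits_valuationSubring m0 hm0.ne_top)
  have hM0 : ∀ x : A, x ∈ m0 → (x : K) = 0 ∨ ((x : K))⁻¹ ∉ O := by
    intro x hx
    have h1 : (x : K) ∈ O.nonunits := hMO ⟨x, hx, rfl⟩
    exact (O.mem_nonunits_iff_or).mp h1
  have hpO : ((p : K))⁻¹ ∉ O := by
    have h1 := hM0 _ hpm0
    have h2 : (((p : ℕ) : A) : K) = (p : K) := by push_cast; rfl
    rw [h2] at h1
    exact h1.resolve_left hpK
  refine ⟨p, O, hp, hpm, ?_, ?_, natCast_mem O p, hpO, ?_⟩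
  · intro a ha
    exact hAO (hSA a (by simp [S, ha]))
  · intro a ha _
    refine hAO (hSA _ ?_)
    simp only [S, Finset.mem_union, Finset.mem_image, Finset.mem_singleton]
    exact Or.inl (Or.inr ⟨a, ha, rfl⟩)
  -- the residue field is absolutely algebraic
  intro a ha
  by_contra hcon
  push Not at hcon
  -- characteristic of the residue field
  have hpres : ((p : ℕ) : ResidueField O) = 0 := by
    have h1 : residue O ⟨(p : K), natCast_mem O p⟩ = 0 := by
      rw [residue_eq_zero_iff_or]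
      exact Or.inr hpO
    have h2 : (⟨(p : K), natCast_mem O p⟩ : O) = ((p : ℕ) : O) := Subtype.ext (by push_cast; rfl)
    rw [h2, map_natCast] at h1
    exact h1
  haveI : CharP (ResidueField O) p := by
    obtain ⟨r, hr⟩ := CharP.exists (ResidueField O)
    have hdvd : r ∣ p := (CharP.cast_eq_zero_iff (ResidueField O) r p).mp hpres
    rcases (Nat.dvd_prime hp).mp hdvd with h1 | h1
    · exact absurd h1 (CharP.char_ne_one (ResidueField O) r)
    · rw [← h1]; exact hr
  have hres : ∀ n : ℕ, 0 < n →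
      (residue O ⟨a, ha⟩) ^ (p ^ n) ≠ residue O ⟨a, ha⟩ := by
    intro n hn h
    have h1 : residue O ⟨a ^ (p ^ n) - a, O.sub_mem (O.pow_mem ha _) ha⟩ = 0 := by
      have h2 : (⟨a ^ (p ^ n) - a, O.sub_mem (O.pow_mem ha _) ha⟩ : O)
          = (⟨a, ha⟩ : O) ^ (p ^ n) - ⟨a, ha⟩ := Subtype.ext rfl
      rw [h2, map_sub, map_pow, h, sub_self]
    rw [residue_eq_zero_iff_or] at h1
    rcases h1 with h1 | h1
    · exact (hcon n hn).1 h1
    · exact h1 (hcon n hn).2
  obtain ⟨V, hV⟩ := exists_valuationSubring_inv_notMem p hres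
  -- the composite is smaller
  have hA' : A ≤ (compVal O V).toSubring := by
    intro x hx
    show x ∈ compVal O V
    rw [mem_compVal]
    refine ⟨hAO hx, mem_of_pow_eq V hq2 ?_⟩
    have h1 := hM0 _ (hfrob ⟨x, hx⟩)
    have h2 : residue O ⟨x ^ q - x, O.sub_mem (O.pow_mem (hAO hx) _) (hAO hx)⟩ = 0 := by
      rw [residue_eq_zero_iff_or]
      exact h1
    have h3 : (⟨x ^ q - x, O.sub_mem (O.pow_mem (hAO hx) _) (hAO hx)⟩ : O)
        = (⟨x, hAO hx⟩ : O) ^ q - ⟨x, hAO hx⟩ := Subtype.ext rfl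
    rw [h3, map_sub, map_pow, sub_eq_zero] at h2
    exact h2
  have hM' : M0 ⊆ (compVal O V).nonunits := by
    rintro _ ⟨x, hx, rfl⟩
    show (x : K) ∈ (compVal O V).nonunits
    rw [ValuationSubring.mem_nonunits_iff_or]
    rcases hM0 x hx with h | h
    · exact Or.inl h
    · exact Or.inr fun h' => h (compVal_le O V h')
  have hle := hmin (compVal O V) hA' hM' (compVal_le O V)
  -- `a⁻¹ ∈ O` but `a⁻¹ ∉ compVal O V`
  have ha0 : residue O ⟨a, ha⟩ ≠ 0 := by
    intro h
    apply hres 1 one_pos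
    rw [h, zero_pow (pow_ne_zero _ hp.ne_zero)]
  have h1 := (not_iff_not.mpr (residue_eq_zero_iff_or O ha)).mp ha0
  push Not at h1
  obtain ⟨ha0', hainv⟩ := h1
  have h2 := hle hainv
  rw [mem_compVal] at h2
  obtain ⟨h3, h4⟩ := h2
  rw [residue_inv O ha h3 ha0'] at h4
  exact hV h4

end Fermat.Agent.S27.Char0.H57
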