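import Fermat.Agent.S27.Char0.RedExDefs
import Fermat.Agent.S27.REDu.H34_Chart

/-!
# S27 (row 26), characteristic-0 half, package RED-EX, leaf BRANCH-FIN (helper38)

`stmt_BranchFin : Stmt_BranchFin` : a chart `x` of a function field `F / K` (`K` algebraically
closed of characteristic `0`, `x` transcendental, `[F : K(x)] = n` finite) has finitely many
branch values.

Proof.  `R = K[x]`, `B` the integral closure of `R` in `F`, `c` an `R`-basis of `B` (`n` elements),
`disc = disc(c) ≠ 0`.  If fewer than `n` maximal ideals of `B` contain `π = x - ρ`, the `K`-linear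
map `Kⁿ → K^r`, `k ↦ (Σ k_i c_i (P))_P` has a nonzero kernel vector; the corresponding
`w = Σ k_i c_i` lies in all points over `ρ`, so it is nilpotent modulo `π`, but `π ∤ w`.  Then the
trace form of `B / π B` is degenerate (`bf_dvd_discr`), i.e. `π ∣ disc`: `ρ` is a root of the
nonzero polynomial `disc`.
-/

set_option autoImplicit false

universe u v

noncomputable section

open Polynomial IntermediateField Module
open scoped IntermediateField.algebraAdjoinAdjoin

namespace Fermat.Agent.S27.Char0.H38

open Fermat.Agent.S27.REDu Fermat.Agent.S27.REDu.H34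

section Abstract

variable {R B ι : Type*} [CommRing R] [IsDomain R] [IsPrincipalIdealRing R] [CommRing B]
  [Algebra R B] [Fintype ι] [DecidableEq ι]

/-- An element of `B` that is nilpotent modulo `π` but not divisible by `π` forces `π ∣ disc`
(the trace form of `B / π B` is degenerate). -/
theorem bf_dvd_discr (c : Module.Basis ι R B) (π : R) (hπ : Prime π) (w : B)
    (hnil : ∃ k, algebraMap R B π ∣ w ^ k) (hw : ¬ algebraMap R B π ∣ w) :
    π ∣ Algebra.discr R c := by
  have hmax : (Ideal.span {π}).IsMaximal :=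
    PrincipalIdealRing.isMaximal_of_irreducible hπ.irreducible
  let _ := Ideal.Quotient.field (Ideal.span {π})
  have hmkπ : Ideal.Quotient.mk (Ideal.span {π}) π = 0 :=
    Ideal.Quotient.eq_zero_iff_mem.2 (Ideal.mem_span_singleton_self π)
  set φ : B →+* Matrix ι ι (R ⧸ Ideal.span {π}) :=
    (Ideal.Quotient.mk (Ideal.span {π})).mapMatrix.comp (Algebra.leftMulMatrix c).toRingHom
    with hφ
  have htr : ∀ x : B, (φ x).trace = Ideal.Quotient.mk (Ideal.span {π}) (Algebra.trace R B x) := by
    intro x
    rw [Algebra.trace_eq_matrix_trace c, AddMonoidHom.map_trace]; rfl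
  have hφπ0 : φ (algebraMap R B π) = 0 := by
    have h1 : (Algebra.leftMulMatrix c) (algebraMap R B π) = algebraMap R (Matrix ι ι R) π :=
      AlgHom.commutes _ π
    ext i j
    simp only [hφ, RingHom.coe_comp, Function.comp_apply, AlgHom.toRingHom_eq_coe,
      RingHom.coe_coe, h1, RingHom.mapMatrix_apply, Matrix.map_apply, Matrix.zero_apply,
      Matrix.algebraMap_matrix_apply]
    split_ifs
    · simp [hmkπ]
    · simp
  obtain ⟨k, b', hk⟩ := hnil
  have htrace : ∀ b : B, Ideal.Quotient.mk (Ideal.span {π}) (Algebra.trace R B (w * b)) = 0 := by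
    intro b
    rw [← htr]
    have hn : IsNilpotent (φ (w * b)) := by
      refine ⟨k, ?_⟩
      rw [← map_pow, mul_pow, hk, mul_assoc, map_mul, hφπ0, zero_mul]
    exact (Matrix.isNilpotent_trace_of_isNilpotent hn).eq_zero
  -- the kernel vector of the reduced trace matrix
  set a : ι → R ⧸ Ideal.span {π} := fun i => Ideal.Quotient.mk (Ideal.span {π}) (c.repr w i)
    with ha
  have ha0 : a ≠ 0 := by
    intro h0
    apply hw
    refine H82.h82_dvd_of_repr c π w fun i => ?_
    have := congrFun h0 i
    rw [ha] at this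
    simp only [Pi.zero_apply] at this
    rwa [Ideal.Quotient.eq_zero_iff_mem, Ideal.mem_span_singleton] at this
  have hvec : Matrix.vecMul a ((Ideal.Quotient.mk (Ideal.span {π})).mapMatrix
      (Algebra.traceMatrix R c)) = 0 := by
    ext j
    rw [Pi.zero_apply, ← htrace (c j)]
    simp only [Matrix.vecMul, dotProduct, ha, RingHom.mapMatrix_apply, Matrix.map_apply,
      Algebra.traceMatrix_apply, Algebra.traceForm_apply]
    have hwj : w * c j = ∑ i, c.repr w i • (c i * c j) := by
      conv_lhs => rw [← c.sum_repr w, Finset.sum_mul]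
      exact Finset.sum_congr rfl fun i _ => smul_mul_assoc _ _ _
    rw [hwj, map_sum, map_sum]
    refine Finset.sum_congr rfl fun i _ => ?_
    rw [map_smul, smul_eq_mul, RingHom.map_mul]
  have hdet := (Matrix.exists_vecMul_eq_zero_iff (M := (Ideal.Quotient.mk (Ideal.span {π})).mapMatrix
      (Algebra.traceMatrix R c))).1 ⟨a, ha0, hvec⟩
  rw [← RingHom.map_det, ← Algebra.discr_def, Ideal.Quotient.eq_zero_iff_mem,
    Ideal.mem_span_singleton] at hdet
  exact hdet

end Abstract

section Chart

variable {K : Type u} {F : Type v} [Field K] [Field F] [Algebra K F] {x : F}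

theorem bf_evAt_algebraMap (hx : Transcendental K x) (ρ a : K) :
    evAt hx ρ (algebraMap K ↥(Algebra.adjoin K {x}) a) = a := by
  rw [← polyEquiv_C hx, evAt_polyEquiv, Polynomial.eval_C]

/-- If fewer than `n` points lie over `ρ`, some element of `B` lies in all of them without being
divisible by `x - ρ`. -/
theorem bf_exists_w [IsAlgClosed K] (hx : Transcendental K x) {n : ℕ}
    (c : Module.Basis (Fin n) ↥(Algebra.adjoin K {x}) ↥(Bx (C := K) x)) (ρ : K)
    (hlt : (ptsOver x ρ).ncard < n) :
    ∃ w : ↥(Bx (C := K) x), (∀ P ∈ ptsOver x ρ, w ∈ P) ∧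
      ¬ algebraMap ↥(Algebra.adjoin K {x}) ↥(Bx (C := K) x) (piRho x ρ) ∣ w := by
  classical
  have hpid : IsPrincipalIdealRing ↥(Algebra.adjoin K {x}) := isPrincipalIdealRing_adjoin hx
  have hfin := finite_ptsOver hx c ρ
  let _ : Fintype ↥(ptsOver x ρ) := hfin.fintype
  let Φ : (Fin n → K) →ₗ[K] (↥(ptsOver x ρ) → K) :=
    { toFun := fun k P => ∑ i, k i * evP P.2 (c i)
      map_add' := by
        intro k k'
        ext P
        simp only [Pi.add_apply, add_mul, Finset.sum_add_distrib]
      map_smul' := by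
        intro a k
        ext P
        simp only [Pi.smul_apply, smul_eq_mul, RingHom.id_apply, Finset.mul_sum, mul_assoc] }
  have hninj : ¬ Function.Injective Φ := by
    intro hinj
    have h1 := LinearMap.finrank_le_finrank_of_injective hinj
    rw [Module.finrank_fintype_fun_eq_card, Module.finrank_fintype_fun_eq_card,
      Fintype.card_fin, ← Nat.card_eq_fintype_card, Nat.card_coe_set_eq] at h1
    omega
  obtain ⟨k, hk0, hk⟩ : ∃ k : Fin n → K, k ≠ 0 ∧ Φ k = 0 := by
    by_contra hcon
    push Not at hcon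
    apply hninj
    rw [injective_iff_map_eq_zero]
    intro k hk
    by_contra hk0
    exact hcon k hk0 hk
  refine ⟨∑ i, algebraMap K ↥(Algebra.adjoin K {x}) (k i) • c i, ?_, ?_⟩
  · intro P hP
    rw [← evP_eq_zero_iff hP, map_sum]
    have := congrFun hk ⟨P, hP⟩
    simp only [Pi.zero_apply] at this
    rw [← this]
    refine Finset.sum_congr rfl fun i _ => ?_
    rw [Algebra.smul_def, map_mul]
    congr 1
    exact evP_algebraMap hP (k i)
  · intro hdvd
    apply hk0
    ext i
    have h1 := H82.h82_repr_dvd c (piRho x ρ) _ hdvd i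
    rw [c.repr_sum_self, ← evAt_eq_zero_iff hx, bf_evAt_algebraMap] at h1
    exact h1

end Chart

/-- **BRANCH-FIN**: a chart has finitely many branch values. -/
theorem stmt_BranchFin : Stmt_BranchFin.{u, v} := by
  intro K F _ _ _ _ _ x hx hfin
  classical
  have hfd : FiniteDimensional ↥K⟮x⟯ F := hfin
  have hpid : IsPrincipalIdealRing ↥(Algebra.adjoin K {x}) := isPrincipalIdealRing_adjoin hx
  have hcz : CharZero ↥K⟮x⟯ := charZero_of_injective_algebraMap (algebraMap K ↥K⟮x⟯).injective
  have hsep : Algebra.IsSeparable ↥K⟮x⟯ F := inferInstance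
  have hinj : Function.Injective (algebraMap ↥(Algebra.adjoin K {x}) F) := Subtype.val_injective
  have htf : Module.IsTorsionFree ↥(Algebra.adjoin K {x}) F := by
    rw [Module.isTorsionFree_iff_algebraMap_injective]
    exact hinj
  have hfree : Module.Free ↥(Algebra.adjoin K {x}) ↥(integralClosure ↥(Algebra.adjoin K {x}) F) :=
    IsIntegralClosure.module_free ↥(Algebra.adjoin K {x}) ↥K⟮x⟯ F
      ↥(integralClosure ↥(Algebra.adjoin K {x}) F)
  have hfinB : Module.Finite ↥(Algebra.adjoin K {x})
      ↥(integralClosure ↥(Algebra.adjoin K {x}) F) :=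
    IsIntegralClosure.finite ↥(Algebra.adjoin K {x}) ↥K⟮x⟯ F
      ↥(integralClosure ↥(Algebra.adjoin K {x}) F)
  have hrank : Module.finrank ↥(Algebra.adjoin K {x})
      ↥(integralClosure ↥(Algebra.adjoin K {x}) F) = Module.finrank ↥K⟮x⟯ F :=
    IsIntegralClosure.rank ↥(Algebra.adjoin K {x}) ↥K⟮x⟯ F
      ↥(integralClosure ↥(Algebra.adjoin K {x}) F)
  let c : Module.Basis (Fin (Module.finrank ↥K⟮x⟯ F)) ↥(Algebra.adjoin K {x})
      ↥(Bx (C := K) x) :=
    Module.finBasisOfFinrankEq _ _ hrank
  have hdisc : Algebra.discr ↥(Algebra.adjoin K {x}) c ≠ 0 :=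
    H82.h82_discr_ne_zero ↥(Algebra.adjoin K {x}) ↥K⟮x⟯ F (Fin (Module.finrank ↥K⟮x⟯ F)) c
  obtain ⟨D, hD⟩ := (polyEquiv hx).surjective (Algebra.discr ↥(Algebra.adjoin K {x}) c)
  have hD0 : D ≠ 0 := by
    rintro rfl
    exact hdisc (by rw [← hD, map_zero])
  refine (Polynomial.finite_setOfPred_isRoot hD0).subset ?_
  intro ρ hρ
  obtain ⟨w, hw1, hw2⟩ := bf_exists_w hx c ρ hρ
  obtain ⟨e, he⟩ := pow_mem_of_forall_mem w hw1
  have h1 := bf_dvd_discr c (piRho x ρ) (prime_piRho hx ρ) w
    ⟨e, Ideal.mem_span_singleton.1 he⟩ hw2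
  rw [← hD, dvd_polyEquiv_iff] at h1
  exact h1

end Fermat.Agent.S27.Char0.H38
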