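import Fermat.Agent.S27.Char0.RedExDefs
import Fermat.Agent.S27.Char0.H57_VALCore

/-!
# S27, char-0 half, leaf VAL (helper57): `Stmt_VAL`

See `H57_VALCore.lean` (Mathlib only) for the proof.
-/

set_option autoImplicit false

namespace Fermat.Agent.S27.Char0.H57

universe u

/-- **VAL**. -/
theorem stmt_VAL : Stmt_VAL.{u} := fun K _ _ _ I m hm => val_core K I m hm

end Fermat.Agent.S27.Char0.H57
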