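import Fermat.Agent.S27.Char0.Defs
import Fermat.Agent.S27.REDu.H51_Final

/-!
# S27 char-0 half, leaf FF-H (helper20): the zeros theorem and Riemann's theorem, universe
polymorphic, from the polymorphic copy `S27/REDu` of FF-B / FF-R.
-/

set_option autoImplicit false

noncomputable section

open AlgebraicCurve IntermediateField

namespace Fermat.Agent.S27.Char0.H20

open Fermat.Agent.RED.H17

universe u v

/-- `IsFFu` is the polymorphic `IsFF` of the copy. -/
theorem isFFu_iff (K : Type u) (F : Type v) [Field K] [Field F] [Algebra K F] :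
    IsFFu K F ↔ Fermat.Agent.S27.REDu.IsFF K F := Iff.rfl

/-- FF-B and FF-R for a function field over an algebraically closed field. -/
theorem ffHyp_of_isFFu (K : Type u) (F : Type v) [Field K] [Field F] [Algebra K F]
    [IsAlgClosed K] (hFF : IsFFu K F) : FFHyp K F where
  principal := Fermat.Agent.S27.REDu.H51.stmt_FFB_principal K F hFF
  deg_one := Fermat.Agent.S27.REDu.H51.stmt_FFB_deg K F hFF
  finite := Fermat.Agent.S27.REDu.H51.stmt_FFR_finite K F hFF
  le := fun D hD => (Fermat.Agent.S27.REDu.H51.stmt_FFR_le K F hFF D).2 hD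
  transc := by
    obtain ⟨x, hx, -⟩ := hFF
    exact ⟨x, hx⟩

/-- Riemann's theorem for a function field over an algebraically closed field. -/
theorem exists_isGenus_u (K : Type u) (F : Type v) [Field K] [Field F] [Algebra K F]
    [IsAlgClosed K] (hFF : IsFFu K F) : ∃ (g : ℕ) (c : ℤ), IsGenus K F g c :=
  Fermat.Agent.S27.REDu.H51.stmt_FFR_riemann K F hFF

/-- **FF-H**. -/
theorem stmt_FFH : Stmt_FFH.{u, v} := fun K F _ _ _ _ hFF =>
  ⟨ffHyp_of_isFFu K F hFF, exists_isGenus_u K F hFF⟩

end Fermat.Agent.S27.Char0.H20
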