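import Fermat.Agent.S27.Char0.H20_Final
import Fermat.Agent.S27.Char0.H38_BranchFin
import Fermat.Agent.S27.Char0.H57_VAL
import Fermat.Agent.S27.CharP.H62_CountPu

/-!
# S27: the frozen statement from the last open leaf SOLVE (helper20)
-/

set_option autoImplicit false

noncomputable section

open AlgebraicCurve IntermediateField

namespace Fermat.Agent.S27.Char0.H20

universe u v

/-- **S27** from the leaf SOLVE. -/
theorem s27_of_solve (hSolve : Lift.Stmt_Solve.{u, v, u, v})
    (K : Type u) (F : Type v) [Field K] [Field F] [Algebra K F] [IsAlgClosed K] [CharZero K]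
    [IsCurveOver K F] [Algebra.EssFiniteType K F]
    (ℓ : ℕ) [Fact ℓ.Prime] (j : ℕ) :
    Nat.card (Pic0.torsion K F (ℓ ^ j)) = ℓ ^ (2 * genusFF K F * j) :=
  s27_of_leaves Fermat.Agent.S27.Char0.H38.stmt_BranchFin Fermat.Agent.S27.Char0.H57.stmt_VAL
    hSolve Fermat.Agent.S27.CharP.H62F.stmt_CountPu K F ℓ j

end Fermat.Agent.S27.Char0.H20
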