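import Fermat.Agent.S27.Char0.RedExDefs
import Fermat.Agent.S27.Char0.Lift.H45_Coord

/-!
# S27 char-0 half, leaf EIS-EX (helper20), part A: orders of rational functions of `w` at a place
where `w` vanishes.
-/

set_option autoImplicit false

noncomputable section

open AlgebraicCurve IntermediateField Polynomial

namespace Fermat.Agent.S27.Char0.H20

open Fermat.Agent.RED.H51 Fermat.Agent.S24

universe u v

variable {K : Type u} {F : Type v} [Field K] [Field F] [Algebra K F]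

/-- A polynomial in `w` is regular at `P` when `w` is. -/
theorem ordGe_aeval (P : Place K F) {w : F} (hw : OrdGe P 0 w) (q : K[X]) :
    OrdGe P 0 (aeval w q) := by
  rw [ordGe_zero_iff_mem] at hw ⊢
  rw [aeval_eq_sum_range]
  refine sum_mem fun i _ => ?_
  rw [Algebra.smul_def]
  refine mul_mem ?_ (pow_mem hw i)
  exact (ordGe_zero_iff_mem P _).mp (ordGe_algebraMap P _)

/-- A polynomial with nonzero constant term is a unit at a zero of `w`. -/
theorem ord_aeval_of_eval_ne (P : Place K F) {w : F} (hw : 0 < P.ord w) {q : K[X]}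
    (hq : q.eval 0 ≠ 0) : aeval w q ≠ 0 ∧ P.ord (aeval w q) = 0 := by
  have hw0 : w ≠ 0 := ne_zero_of_ord_ne_zero P hw.ne'
  have h1 : aeval w q = algebraMap K F (q.coeff 0) + w * aeval w q.divX := by
    conv_lhs => rw [← divX_mul_X_add q]
    simp only [map_add, map_mul, aeval_X, aeval_C]
    ring
  have hc : q.coeff 0 ≠ 0 := by rwa [coeff_zero_eq_eval_zero]
  have hc' : algebraMap K F (q.coeff 0) ≠ 0 := by
    simpa using hc
  have hord : P.ord (algebraMap K F (q.coeff 0)) = 0 := ord_algebraMap P _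
  have h2 : OrdGe P (P.ord (algebraMap K F (q.coeff 0)) + 1) (w * aeval w q.divX) := by
    rw [hord]
    have := (ordGe_of_le P (le_refl (P.ord w))).mul (ordGe_aeval P (ordGe_of_le P hw.le) q.divX)
    exact this.mono (by omega)
  have h3 := ord_add_eq P hc' h2
  rw [h1]
  exact ⟨h3.1, h3.2.trans hord⟩

/-- **(A)** the order of a polynomial in `w` at a zero of `w`. -/
theorem ord_aeval_eq (P : Place K F) {w : F} (hw : 0 < P.ord w) {q : K[X]} (hq : q ≠ 0) :
    aeval w q ≠ 0 ∧ P.ord (aeval w q) = P.ord w * q.rootMultiplicity 0 := by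
  have hw0 : w ≠ 0 := ne_zero_of_ord_ne_zero P hw.ne'
  obtain ⟨q₁, hq₁, hnd⟩ := exists_eq_pow_rootMultiplicity_mul_and_not_dvd q hq 0
  have he : q₁.eval 0 ≠ 0 := by
    intro h
    exact hnd (dvd_iff_isRoot.mpr h)
  obtain ⟨h1, h2⟩ := ord_aeval_of_eval_ne P hw he
  have h3 : aeval w q = w ^ q.rootMultiplicity 0 * aeval w q₁ := by
    conv_lhs => rw [hq₁]
    simp
  rw [h3]
  refine ⟨mul_ne_zero (pow_ne_zero _ hw0) h1, ?_⟩
  rw [P.ord_mul (pow_ne_zero _ hw0) h1, h2, ord_pow]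
  ring

/-- **(B')** the shape of a nonzero element of `K(w)` at a zero of `w`. -/
theorem exists_shape (P : Place K F) {w : F} (hw : 0 < P.ord w) {c : F} (hc : c ∈ K⟮w⟯)
    (hc0 : c ≠ 0) :
    ∃ (e : ℤ) (n m : K[X]), n.eval 0 ≠ 0 ∧ m.eval 0 ≠ 0 ∧
      c * aeval w m = w ^ e * aeval w n ∧ P.ord c = P.ord w * e := by
  have hw0 : w ≠ 0 := ne_zero_of_ord_ne_zero P hw.ne'
  obtain ⟨r, s, hrs⟩ := (mem_adjoin_simple_iff K c).mp hc
  have hs0 : aeval w s ≠ 0 := by
    intro h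
    rw [h, div_zero] at hrs
    exact hc0 hrs
  have hr0 : aeval w r ≠ 0 := by
    intro h
    rw [h, zero_div] at hrs
    exact hc0 hrs
  have hs : s ≠ 0 := by
    rintro rfl
    simp at hs0
  have hr : r ≠ 0 := by
    rintro rfl
    simp at hr0
  obtain ⟨r₁, hr₁, hndr⟩ := exists_eq_pow_rootMultiplicity_mul_and_not_dvd r hr 0
  obtain ⟨s₁, hs₁, hnds⟩ := exists_eq_pow_rootMultiplicity_mul_and_not_dvd s hs 0
  have her : r₁.eval 0 ≠ 0 := fun h => hndr (dvd_iff_isRoot.mpr h)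
  have hes : s₁.eval 0 ≠ 0 := fun h => hnds (dvd_iff_isRoot.mpr h)
  have h3 : aeval w r = w ^ r.rootMultiplicity 0 * aeval w r₁ := by
    conv_lhs => rw [hr₁]
    simp
  have h4 : aeval w s = w ^ s.rootMultiplicity 0 * aeval w s₁ := by
    conv_lhs => rw [hs₁]
    simp
  obtain ⟨hr1, hr2⟩ := ord_aeval_of_eval_ne P hw her
  obtain ⟨hs1, hs2⟩ := ord_aeval_of_eval_ne P hw hes
  refine ⟨(r.rootMultiplicity 0 : ℤ) - s.rootMultiplicity 0, r₁, s₁, her, hes, ?_, ?_⟩
  · rw [hrs, h3, h4, zpow_sub₀ hw0, zpow_natCast, zpow_natCast]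
    field_simp
  · rw [hrs, ord_div P hr0 hs0, (ord_aeval_eq P hw hr).2, (ord_aeval_eq P hw hs).2]
    ring

/-- **(C)** an element of `K(w)` vanishing at the zero of `w` is `w n(w) / m(w)`. -/
theorem exists_num_den (P : Place K F) {w : F} (hw : 0 < P.ord w) {c : F} (hc : c ∈ K⟮w⟯)
    (hord : c = 0 ∨ P.ord w ≤ P.ord c) :
    ∃ (n m : K[X]), m.eval 0 ≠ 0 ∧ c * aeval w m = w * aeval w n ∧
      (c ≠ 0 → P.ord c = P.ord w → n.eval 0 ≠ 0) := by
  rcases eq_or_ne c 0 with rfl | hc0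
  · exact ⟨0, 1, by simp, by simp, fun h => absurd rfl h⟩
  have hle := hord.resolve_left hc0
  have hw0 : w ≠ 0 := ne_zero_of_ord_ne_zero P hw.ne'
  obtain ⟨e, n, m, hn, hm, hrel, he⟩ := exists_shape P hw hc hc0
  have he1 : 1 ≤ e := by
    by_contra h
    have h0 : e ≤ 0 := by omega
    have : P.ord w * e ≤ 0 := mul_nonpos_of_nonneg_of_nonpos hw.le h0
    omega
  obtain ⟨j, rfl⟩ : ∃ j : ℕ, e = (j : ℤ) + 1 := ⟨(e - 1).toNat, by omega⟩
  refine ⟨X ^ j * n, m, hm, ?_, fun _ h1 => ?_⟩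
  · rw [hrel, zpow_add₀ hw0, zpow_natCast, zpow_one]
    simp only [map_mul, map_pow, aeval_X]
    ring
  · have hj : j = 0 := by
      rw [he] at h1
      have h2 : P.ord w * ((j : ℤ) + 1) = P.ord w * 1 := by rw [mul_one]; exact h1
      have h3 := mul_left_cancel₀ hw.ne' h2
      omega
    subst hj
    simpa using hn

end Fermat.Agent.S27.Char0.H20
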