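import Fermat.Agent.RED.H17_Main
import Fermat.Prelude.Def_AlgebraicCurve_IsCurveOver
import Fermat.Prelude.Def_AlgebraicCurve_Repartitions

/-!
# S27 (row 26), characteristic-0 half: interface statements (planner: helper20)

Plan: `NOTES/plan/S27_char0.md`.  The characteristic-`p` half (exact count over `F̄_p`) is
helper62's (`Fermat/Agent/S27/Defs.lean`, `S27/CharP/`).

Everything here is UNIVERSE POLYMORPHIC (frozen S27 is `Type*`).  The reduction toolkit of
helper17 (`RED/H17_*.lean`: `RedSetup`, `FFHyp`, `IsGenus`, `GenusLE'`, `ticore`) is polymorphic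
and is the common language.  All `Stmt_*` are `Prop`s; owners prove them in their own files
`Fermat/Agent/S27/Char0/H<seat>_<Name>.lean`, namespace `Fermat.Agent.S27.Char0.H<seat>`.
This file contains no unproved statement.
-/

set_option autoImplicit false

noncomputable section

open AlgebraicCurve IntermediateField

namespace Fermat.Agent.S27.Char0

open Fermat.Agent.RED.H17

universe u v u' v'

/-- `F / K` is a function field of one variable (universe polymorphic form of `RED.IsFF`). -/
def IsFFu (K : Type u) (F : Type v) [Field K] [Field F] [Algebra K F] : Prop :=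
  ∃ x : F, Transcendental K x ∧ Module.Finite K⟮x⟯ F

/-- `k` is algebraic over the prime field `𝔽_p` (stated without instances). -/
def IsAlgOverFp (k : Type u) [Field k] (p : ℕ) : Prop :=
  ∀ a : k, ∃ n : ℕ, 0 < n ∧ a ^ (p ^ n) = a

/-! ## FFu: the function field toolkit for the frozen hypotheses -/

/-- **FF-X**: the frozen hypotheses give a function field of one variable. -/
def Stmt_FFX : Prop :=
  ∀ (K : Type u) (F : Type v) [Field K] [Field F] [Algebra K F] [IsAlgClosed K] [CharZero K]
    [IsCurveOver K F] [Algebra.EssFiniteType K F], IsFFu K F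

/-- **FF-H**: the zeros theorem and Riemann's theorem, universe polymorphic
(any characteristic; the proofs of `RED/H42_*`, `H12_*`, `H51_*` are polymorphic inside). -/
def Stmt_FFH : Prop :=
  ∀ (K : Type u) (F : Type v) [Field K] [Field F] [Algebra K F] [IsAlgClosed K],
    IsFFu K F → FFHyp K F ∧ ∃ (g : ℕ) (c : ℤ), IsGenus K F g c

/-- **GFF**: the genus of the prelude (`genusFF`, dimension of `H1 0` of repartitions) is
Riemann's genus. -/
def Stmt_GFF : Prop :=
  ∀ (K : Type u) (F : Type v) [Field K] [Field F] [Algebra K F] [IsAlgClosed K],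
    FFHyp K F → ∀ (g : ℕ) (c : ℤ), IsGenus K F g c → genusFF K F = g

/-! ## Good reduction data -/

/-- A good reduction of `F / K` to `Ft / k`: helper17's reduction data with the divisor identity,
a chart `x` of the same degree on both sides, and "the genus does not drop". -/
structure GoodRed (K : Type u) (F : Type v) (k : Type u') (Ft : Type v') [Field K] [Field F]
    [Algebra K F] [Field k] [Field Ft] [Algebra k Ft] where
  /-- the reduction data (valuation ring, reduction map, map on places, divisor identity) -/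
  S : RedSetup K F k Ft
  /-- the chart -/
  x : F
  hx : x ∈ S.V
  transc : Transcendental k (S.rd x)
  fin : Module.Finite K⟮x⟯ F
  fin' : Module.Finite k⟮S.rd x⟯ Ft
  deg : Module.finrank k⟮S.rd x⟯ Ft = Module.finrank K⟮x⟯ F
  sep' : Algebra.IsSeparable k⟮S.rd x⟯ Ft
  genusLE : S.GenusLE'

/-- **RED-EX**: every function field over an algebraically closed field of characteristic `0`
has a good reduction to a function field over an algebraic closure of `𝔽_p`, for some prime
`p` different from `ℓ`. -/
def Stmt_REDEX : Prop :=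
  ∀ (K : Type u) (F : Type v) [Field K] [Field F] [Algebra K F] [IsAlgClosed K] [CharZero K],
    IsFFu K F → ∀ ℓ : ℕ,
    ∃ (p : ℕ) (k : Type u) (Ft : Type v) (_ : Field k) (_ : Field Ft) (_ : Algebra k Ft)
      (_ : IsAlgClosed k) (_ : CharP k p),
      p.Prime ∧ p ≠ ℓ ∧ IsAlgOverFp k p ∧ Nonempty (GoodRed K F k Ft)

/-! ## Torsion: injectivity and lifting -/

/-- The push-forward of a divisor of degree `0` has degree `0` (all places have degree one). -/
def Stmt_DegPush : Prop :=
  ∀ (K : Type u) (F : Type v) (k : Type u') (Ft : Type v') [Field K] [Field F] [Algebra K F]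
    [Field k] [Field Ft] [Algebra k Ft] (S : RedSetup K F k Ft),
    FFHyp K F → FFHyp k Ft → ∀ D : Divisor K F,
      Divisor.degree (Finsupp.mapDomain S.r D) = Divisor.degree D

/-- **TI-PIC**: the reduction of divisors induces a surjective homomorphism `Pic0 F → Pic0 Ft`
which is injective on the torsion prime to the residue characteristic. -/
def Stmt_TIPic : Prop :=
  ∀ (K : Type u) (F : Type v) (k : Type u') (Ft : Type v') [Field K] [Field F] [Algebra K F]
    [Field k] [Field Ft] [Algebra k Ft] [IsAlgClosed K] [IsAlgClosed k]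
    (S : RedSetup K F k Ft), FFHyp K F → FFHyp k Ft →
    ∀ (g : ℕ) (c : ℤ) (g' : ℕ) (c' : ℤ), IsGenus K F g c → IsGenus k Ft g' c' → S.GenusLE' →
    ∃ ρ : Pic0 K F →+ Pic0 k Ft,
      (∀ (D : Divisor K F) (hD : D ∈ Divisor.degZero (K := K) (F := F)),
        ∃ hD' : Finsupp.mapDomain S.r D ∈ Divisor.degZero (K := k) (F := Ft),
          ρ (Pic0.mk ⟨D, hD⟩) = Pic0.mk ⟨Finsupp.mapDomain S.r D, hD'⟩) ∧
      Function.Surjective ρ ∧
      ∀ m : ℕ, (m : k) ≠ 0 → ∀ x : Pic0 K F, (m : ℤ) • x = 0 → ρ x = 0 → x = 0

/-- **LIFT**: under good reduction every torsion class of order prime to the residue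
characteristic is the reduction of a torsion class (divisor form). -/
def Stmt_LIFT : Prop :=
  ∀ (K : Type u) (F : Type v) (k : Type u') (Ft : Type v') [Field K] [Field F] [Algebra K F]
    [Field k] [Field Ft] [Algebra k Ft] [IsAlgClosed K] [CharZero K] [IsAlgClosed k]
    (G : GoodRed K F k Ft), FFHyp K F → FFHyp k Ft →
    ∀ (g : ℕ) (c : ℤ) (c' : ℤ), IsGenus K F g c → IsGenus k Ft g c' →
    ∀ n : ℕ, (n : k) ≠ 0 → ∀ E : Divisor k Ft, Divisor.degree E = 0 →
      (n : ℤ) • E ∈ Divisor.principal (K := k) (F := Ft) →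
      ∃ D : Divisor K F, Divisor.degree D = 0 ∧
        (n : ℤ) • D ∈ Divisor.principal (K := K) (F := F) ∧
        Finsupp.mapDomain G.S.r D - E ∈ Divisor.principal (K := k) (F := Ft)

/-- **GENUS-EQ**: under good reduction the two Riemann genera agree. -/
def Stmt_GenusEq : Prop :=
  ∀ (K : Type u) (F : Type v) (k : Type u') (Ft : Type v') [Field K] [Field F] [Algebra K F]
    [Field k] [Field Ft] [Algebra k Ft] [IsAlgClosed K] [IsAlgClosed k]
    (S : RedSetup K F k Ft), FFHyp K F → FFHyp k Ft →
    ∀ (g : ℕ) (c : ℤ) (g' : ℕ) (c' : ℤ), IsGenus K F g c → IsGenus k Ft g' c' → S.GenusLE' →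
      g' = g

/-! ## The interface with the characteristic-`p` half (helper62) -/

/-- **COUNT-P** (helper62's half, in the form used by the wiring): the exact count of the
`ℓ`-power torsion over an algebraic closure of `𝔽_p`, `ℓ ≠ p`, in terms of Riemann's genus. -/
def Stmt_CountPu : Prop :=
  ∀ (k : Type u) (Ft : Type v) [Field k] [Field Ft] [Algebra k Ft] [IsAlgClosed k]
    (p : ℕ) [CharP k p], p.Prime → IsAlgOverFp k p → IsFFu k Ft →
    ∀ (g : ℕ) (c : ℤ), IsGenus k Ft g c →
    ∀ ℓ : ℕ, ℓ.Prime → ℓ ≠ p → ∀ j : ℕ,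
      Nat.card (Pic0.torsion k Ft (ℓ ^ j)) = ℓ ^ (2 * g * j)

end Fermat.Agent.S27.Char0
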