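import Fermat.Agent.S27.Char0.RedExDefs
import Fermat.Agent.S27.REDu.H34_Gauss

/-!
# S27 char-0 half, leaf BRIDGE (helper20): helper34's `RedSetting` with a conservation law is
helper17's `RedSetup`.
-/

set_option autoImplicit false

noncomputable section

open AlgebraicCurve IntermediateField

namespace Fermat.Agent.S27.Char0.H20

open Fermat.Agent.RED.H17 Fermat.Agent.S27.REDu.H34 Fermat.Agent.S27.REDu.H79

universe u v u' v'

variable {K : Type u} {F : Type v} {k : Type u'} {Ft : Type v'} [Field K] [Field F]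
  [Algebra K F] [Field k] [Field Ft] [Algebra k Ft]

/-- The reduction data of helper17 attached to a `RedSetting` with a conservation law. -/
def redSetupOfSetting (S : RedSetting K F k Ft) (r : Place K F → Place k Ft)
    (hr : IsRedAbs S r) : RedSetup K F k Ft where
  V := S.V
  red := S.red
  red_eq_zero_iff := fun u => by
    rw [S.red_eq_zero_iff, IsLocalRing.mem_maximalIdeal, mem_nonunits_iff]
  red_surj := S.red_surj
  exists_scale := fun f hf => by
    obtain ⟨c, hc, w, hw⟩ := S.scale f hf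
    refine ⟨c⁻¹, inv_ne_zero hc, ?_⟩
    have h1 : algebraMap K F c⁻¹ * f = ((w : ↥S.V) : F) := by
      rw [hw, ← mul_assoc, ← map_mul, inv_mul_cancel₀ hc, map_one, one_mul]
    have h2 : algebraMap K F c⁻¹ * f ∈ S.V := by rw [h1]; exact Subtype.mem _
    refine ⟨h2, ?_⟩
    have h3 : (⟨algebraMap K F c⁻¹ * f, h2⟩ : ↥S.V) = (w : ↥S.V) := Subtype.ext h1
    rw [h3]
    intro h0
    exact ((S.red_eq_zero_iff _).mp h0) w.isUnit
  red_const := fun c h => ⟨S.resO ⟨c, h⟩, S.red_algebraMap ⟨c, h⟩⟩
  const_surj := fun c' => by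
    obtain ⟨a, ha⟩ := S.resO_surj c'
    exact ⟨(a : K), a.2, by rw [← ha]; exact S.red_algebraMap a⟩
  r := r
  DI := fun w hw D hD Q => by
    apply hr w _ D hD Q
    by_contra hu
    exact hw ((S.red_eq_zero_iff _).mpr hu)

/-- **BRIDGE**. -/
theorem stmt_Bridge : Stmt_Bridge.{u, v, u', v'} := by
  intro K F k Ft _ _ _ _ _ _ S r hr
  refine ⟨redSetupOfSetting S r hr, rfl, rfl, fun f hf => ?_⟩
  exact (redSetupOfSetting S r hr).rd_of_mem hf

end Fermat.Agent.S27.Char0.H20
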