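import Fermat.Agent.S27.Char0.H20_EisExB

/-!
# S27 char-0 half, leaf EIS-EX (helper20): every function field over an algebraically closed
field has an Eisenstein model.
-/

set_option autoImplicit false
set_option linter.style.haveILetI false

noncomputable section

open AlgebraicCurve IntermediateField Polynomial

namespace Fermat.Agent.S27.Char0.H20

open Fermat.Agent.RED.H51 Fermat.Agent.S24

universe u v

/-- **EIS-EX**. -/
theorem stmt_EisEx : Stmt_EisEx.{u, v} := by
  classical
  intro K F _ _ _ _ hFF H g c hg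
  obtain ⟨P, w, hwtr, hwfin, hd, hord⟩ := exists_single_zero hFF H hg
  haveI := hwfin
  obtain ⟨θ, hθ0, hθ⟩ := exists_uniformizer P
  obtain ⟨hdeg, hcoef, hc0, hc0ord⟩ := minpoly_eisenstein P hd hord hθ
  set d := Module.finrank K⟮w⟯ F with hd_def
  set μ := minpoly K⟮w⟯ θ with hμ
  have hwpos : 0 < P.ord w := by rw [hord]; exact_mod_cast hd
  have hex : ∀ i : Fin d, ∃ (n m : K[X]), m.eval 0 ≠ 0 ∧
      ((μ.coeff i : K⟮w⟯) : F) * aeval w m = w * aeval w n ∧
      (((μ.coeff i : K⟮w⟯) : F) ≠ 0 → P.ord ((μ.coeff i : K⟮w⟯) : F) = P.ord w →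
        n.eval 0 ≠ 0) :=
    fun i => exists_num_den P hwpos (μ.coeff i).2 (hcoef i i.2)
  choose n m hm hrel hn using hex
  -- the relation
  have hsum : θ ^ d + ∑ i : Fin d, ((μ.coeff i : K⟮w⟯) : F) * θ ^ (i : ℕ) = 0 := by
    have h1 := minpoly.aeval K⟮w⟯ θ
    rw [aeval_eq_sum_range, ← hμ, hdeg, Finset.sum_range_succ] at h1
    have hmonic : μ.Monic := minpoly.monic (IsIntegral.of_finite K⟮w⟯ θ)
    have hlead : μ.coeff d = 1 := by
      rw [← hdeg, coeff_natDegree, hmonic.leadingCoeff]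
    rw [hlead, one_smul, Finset.sum_range (fun i => μ.coeff i • θ ^ i)] at h1
    rw [add_comm]
    rw [← h1]
    congr 1
  refine ⟨{
    w := w
    θ := θ
    d := d
    transc := hwtr
    fin := hwfin
    deg := rfl
    a := fun i => n i * ∏ j ∈ Finset.univ.erase i, m j
    b := ∏ j, m j
    hb := ?_
    ha := ?_
    rel := ?_ }⟩
  · rw [eval_prod]
    exact Finset.prod_ne_zero_iff.mpr fun j _ => hm j
  · intro h
    rw [eval_mul, eval_prod]
    refine mul_ne_zero (hn ⟨0, h⟩ hc0 hc0ord) ?_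
    exact Finset.prod_ne_zero_iff.mpr fun j _ => hm j
  · have hterm : ∀ i : Fin d, w * aeval w (n i * ∏ j ∈ Finset.univ.erase i, m j) * θ ^ (i : ℕ)
        = aeval w (∏ j, m j) * (((μ.coeff i : K⟮w⟯) : F) * θ ^ (i : ℕ)) := by
      intro i
      rw [← Finset.mul_prod_erase Finset.univ m (Finset.mem_univ i)]
      simp only [map_mul]
      have := hrel i
      linear_combination (-(aeval w (∏ j ∈ Finset.univ.erase i, m j)) * θ ^ (i : ℕ)) * this
    rw [Finset.sum_congr rfl fun i _ => hterm i, ← Finset.mul_sum]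
    have h2 : ∑ i : Fin d, ((μ.coeff i : K⟮w⟯) : F) * θ ^ (i : ℕ) = -θ ^ d := by
      linear_combination hsum
    rw [h2]
    ring

end Fermat.Agent.S27.Char0.H20
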