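import Fermat.Agent.S27.Char0.H20_EisExA

/-!
# S27 char-0 half, leaf EIS-EX (helper20), part B: a function with a single zero, and the
minimal polynomial of a uniformizer.
-/

set_option autoImplicit false
set_option linter.style.haveILetI false

noncomputable section

open AlgebraicCurve IntermediateField Polynomial

namespace Fermat.Agent.S27.Char0.H20

open Fermat.Agent.RED.H51 Fermat.Agent.S24

universe u v

variable {K : Type u} {F : Type v} [Field K] [Field F] [Algebra K F]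

local notation "L" => riemannRochSpace

/-- An algebraic element is a constant. -/
theorem mem_range_of_isAlgebraic [IsAlgClosed K] {f : F} (hf : IsAlgebraic K f) :
    ∃ a : K, algebraMap K F a = f := by
  have hint : IsIntegral K f := hf.isIntegral
  have h1 := IsAlgClosed.degree_eq_one_of_irreducible K (minpoly.irreducible hint)
  exact minpoly.mem_range_of_degree_eq_one K f h1

/-- A space `L(D)` of dimension at least `2` contains a transcendental function. -/
theorem exists_transcendental_mem_L [IsAlgClosed K] (D : Divisor K F)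
    (h2 : 2 ≤ Module.finrank K (L D)) : ∃ f ∈ L D, Transcendental K f := by
  by_contra hcon
  push Not at hcon
  have hle : L D ≤ Submodule.span K {(1 : F)} := fun f hf => by
    have hfa : IsAlgebraic K f := by
      by_contra h
      exact hcon f hf h
    obtain ⟨a, rfl⟩ := mem_range_of_isAlgebraic hfa
    exact Submodule.mem_span_singleton.mpr ⟨a, by rw [Algebra.smul_def, mul_one]⟩
  have h1 := Submodule.finrank_mono hle
  rw [finrank_span_singleton (one_ne_zero)] at h1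
  omega

/-- **Step 1**: a function with a single zero `P`, of order `[F : K(w)]`. -/
theorem exists_single_zero [IsAlgClosed K] (hFF : IsFFu K F)
    (H : Fermat.Agent.RED.H17.FFHyp K F) {g : ℕ} {c : ℤ}
    (hg : Fermat.Agent.RED.H17.IsGenus K F g c) :
    ∃ (P : Place K F) (w : F), Transcendental K w ∧ Module.Finite K⟮w⟯ F ∧
      0 < Module.finrank K⟮w⟯ F ∧ P.ord w = Module.finrank K⟮w⟯ F := by
  classical
  obtain ⟨x₀, hx₀, hfin₀⟩ := hFF
  haveI := hfin₀
  have hfinall : ∀ y : F, Transcendental K y → FiniteDimensional K⟮y⟯ F :=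
    fun y hy => ff_finite_of_transcendental x₀ hx₀ y hy
  obtain ⟨P, -⟩ := Fermat.Agent.RED.H12.exists_place_ord_pos hfinall x₀ hx₀
  set D : Divisor K F := Finsupp.single P ((g : ℤ) + 1) with hD
  have hdeg : Divisor.degree D = (g : ℤ) + 1 := by
    rw [hD, Divisor.degree_single, H.deg_one P]
    simp
  have hl := (hg D).1
  rw [hdeg] at hl
  have h2 : 2 ≤ Module.finrank K (L D) := by omega
  obtain ⟨f, hfL, hftr⟩ := exists_transcendental_mem_L D h2
  have hf0 : f ≠ 0 := fun h => hftr (h ▸ isAlgebraic_zero)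
  have hwtr : Transcendental K f⁻¹ := fun h => hftr (IsAlgebraic.inv_iff.mp h)
  haveI hwfin : FiniteDimensional K⟮f⁻¹⟯ F := hfinall _ hwtr
  have hz : H59.ZerosStmt K F := Lift.H45.zerosStmt_u hx₀
  obtain ⟨hSfin, hsum⟩ := hz f⁻¹ hwtr
  have hpos : 0 < Module.finrank K⟮f⁻¹⟯ F := Module.finrank_pos
  have hsub : ∀ v : Place K F, 0 < v.ord f⁻¹ → v = P := by
    intro v hv
    by_contra hne
    have h1 := ((mem_riemannRochSpace_iff.mp hfL) v).resolve_left hf0
    rw [hD, Finsupp.single_apply, if_neg (Ne.symm hne)] at h1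
    rw [Place.ord_inv] at hv
    omega
  have hS : {v : Place K F | 0 < v.ord f⁻¹} = {P} := by
    ext v
    simp only [Set.mem_ofPred_eq, Set.mem_singleton_iff]
    refine ⟨hsub v, ?_⟩
    rintro rfl
    by_contra hv
    have hemp : {v : Place K F | 0 < v.ord f⁻¹} = ∅ := by
      ext v'
      simp only [Set.mem_ofPred_eq, Set.mem_empty_iff_false, iff_false]
      intro hv'
      exact hv (hsub v' hv' ▸ hv')
    rw [hemp, finsum_mem_empty] at hsum
    have : (0 : ℤ) < Module.finrank K⟮f⁻¹⟯ F := by exact_mod_cast hpos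
    omega
  rw [hS, finsum_mem_singleton] at hsum
  exact ⟨P, f⁻¹, hwtr, hwfin, hpos, hsum⟩

/-- **Step 4**: the minimal polynomial of a uniformizer over `K(w)` is an Eisenstein
polynomial. -/
theorem minpoly_eisenstein (P : Place K F) {w θ : F} [Module.Finite K⟮w⟯ F]
    (hd : 0 < Module.finrank K⟮w⟯ F) (hord : P.ord w = Module.finrank K⟮w⟯ F)
    (hθ : P.ord θ = 1) :
    (minpoly K⟮w⟯ θ).natDegree = Module.finrank K⟮w⟯ F ∧
    (∀ i < Module.finrank K⟮w⟯ F, (((minpoly K⟮w⟯ θ).coeff i : K⟮w⟯) : F) = 0 ∨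
      P.ord w ≤ P.ord (((minpoly K⟮w⟯ θ).coeff i : K⟮w⟯) : F)) ∧
    (((minpoly K⟮w⟯ θ).coeff 0 : K⟮w⟯) : F) ≠ 0 ∧
    P.ord (((minpoly K⟮w⟯ θ).coeff 0 : K⟮w⟯) : F) = P.ord w := by
  classical
  set d := Module.finrank K⟮w⟯ F with hd_def
  have hwpos : 0 < P.ord w := by rw [hord]; exact_mod_cast hd
  have hθ0 : θ ≠ 0 := ne_zero_of_ord_ne_zero P (by rw [hθ]; norm_num)
  have hint : IsIntegral K⟮w⟯ θ := IsIntegral.of_finite K⟮w⟯ θ
  set μ := minpoly K⟮w⟯ θ with hμ
  have hmonic : μ.Monic := minpoly.monic hint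
  set r := μ.natDegree with hr_def
  have hr : r ≤ d := minpoly.natDegree_le θ
  let t : ℕ → F := fun i => ((μ.coeff i : K⟮w⟯) : F) * θ ^ i
  have hsum : ∑ i ∈ Finset.range (r + 1), t i = 0 := by
    have h1 := minpoly.aeval K⟮w⟯ θ
    rw [aeval_eq_sum_range] at h1
    rw [← h1]
    refine Finset.sum_congr rfl fun i _ => ?_
    rw [Algebra.smul_def]
    rfl
  have htr : t r = θ ^ r := by
    show ((μ.coeff r : K⟮w⟯) : F) * θ ^ r = θ ^ r
    rw [hr_def, coeff_natDegree, hmonic.leadingCoeff]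
    simp
  have hordpow : ∀ i : ℕ, P.ord (θ ^ i) = i := fun i => by rw [ord_pow, hθ, mul_one]
  -- orders of the terms
  have key : ∀ i, ((μ.coeff i : K⟮w⟯) : F) ≠ 0 →
      ∃ e : ℤ, P.ord (((μ.coeff i : K⟮w⟯) : F)) = d * e ∧ P.ord (t i) = d * e + i := by
    intro i hi
    obtain ⟨e, n, m, -, -, -, he⟩ := exists_shape P hwpos (μ.coeff i).2 hi
    rw [hord] at he
    refine ⟨e, he, ?_⟩
    show P.ord (((μ.coeff i : K⟮w⟯) : F) * θ ^ i) = _
    rw [P.ord_mul hi (pow_ne_zero _ hθ0), he, hordpow]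
  have ht0 : ∀ i, t i ≠ 0 → ((μ.coeff i : K⟮w⟯) : F) ≠ 0 := fun i hi h => hi (by
    show ((μ.coeff i : K⟮w⟯) : F) * θ ^ i = 0
    rw [h, zero_mul])
  have ht0' : ∀ i, ((μ.coeff i : K⟮w⟯) : F) ≠ 0 → t i ≠ 0 := fun i hi =>
    mul_ne_zero hi (pow_ne_zero _ hθ0)
  set I := (Finset.range (r + 1)).filter (fun i => t i ≠ 0) with hI
  have hrI : r ∈ I := by
    rw [hI, Finset.mem_filter]
    exact ⟨Finset.mem_range.mpr (Nat.lt_succ_self r), by rw [htr]; exact pow_ne_zero _ hθ0⟩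
  obtain ⟨i₀, hi₀I, hmin⟩ := Finset.exists_min_image I (fun i => P.ord (t i)) ⟨r, hrI⟩
  have hi₀ := Finset.mem_filter.mp hi₀I
  have h2 : ∃ i₁ ∈ I, i₁ ≠ i₀ ∧ P.ord (t i₁) = P.ord (t i₀) := by
    by_contra hcon
    push Not at hcon
    have hrest : OrdGe P (P.ord (t i₀) + 1) (∑ i ∈ (Finset.range (r + 1)).erase i₀, t i) := by
      refine ordGe_sum P _ _ _ fun i hi => ?_
      rcases eq_or_ne (t i) 0 with h0 | h0
      · exact Or.inl h0
      · have hiI : i ∈ I := Finset.mem_filter.mpr ⟨(Finset.mem_erase.mp hi).2, h0⟩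
        have h1 := hmin i hiI
        have h2 := hcon i hiI (Finset.mem_erase.mp hi).1
        exact Or.inr (by omega)
    have h3 := ord_add_eq P hi₀.2 hrest
    rw [Finset.add_sum_erase _ _ hi₀.1] at h3
    exact h3.1 hsum
  obtain ⟨i₁, hi₁I, hne, heq⟩ := h2
  have hi₁ := Finset.mem_filter.mp hi₁I
  obtain ⟨e₀, -, he₀⟩ := key i₀ (ht0 i₀ hi₀.2)
  obtain ⟨e₁, -, he₁⟩ := key i₁ (ht0 i₁ hi₁.2)
  have hi₀r : i₀ ≤ r := Nat.lt_succ_iff.mp (Finset.mem_range.mp hi₀.1)
  have hi₁r : i₁ ≤ r := Nat.lt_succ_iff.mp (Finset.mem_range.mp hi₁.1)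
  have hdz : (0 : ℤ) < d := by exact_mod_cast hd
  -- the two minimal indices are `0` and `d`
  have hcase : r = d ∧ ((i₀ = 0 ∧ i₁ = d) ∨ (i₀ = d ∧ i₁ = 0)) := by
    have hk : (d : ℤ) * (e₁ - e₀) = (i₀ : ℤ) - i₁ := by
      rw [he₀, he₁] at heq
      linarith
    rcases lt_trichotomy (e₁ - e₀) 0 with hneg | hzero | hpos
    · have h1 : (d : ℤ) * (e₁ - e₀) ≤ d * (-1) :=
        mul_le_mul_of_nonneg_left (by omega) hdz.le
      have h2 : (i₁ : ℤ) - i₀ ≥ d := by linarith
      have h3 : (i₁ : ℤ) ≤ r := by exact_mod_cast hi₁r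
      have h4 : (r : ℤ) ≤ d := by exact_mod_cast hr
      have h5 : (0 : ℤ) ≤ i₀ := by positivity
      refine ⟨by omega, Or.inl ⟨by omega, by omega⟩⟩
    · rw [hzero, mul_zero] at hk
      exact absurd (by omega : i₁ = i₀) hne
    · have h1 : (d : ℤ) * 1 ≤ d * (e₁ - e₀) :=
        mul_le_mul_of_nonneg_left (by omega) hdz.le
      have h2 : (i₀ : ℤ) - i₁ ≥ d := by linarith
      have h3 : (i₀ : ℤ) ≤ r := by exact_mod_cast hi₀r
      have h4 : (r : ℤ) ≤ d := by exact_mod_cast hr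
      have h5 : (0 : ℤ) ≤ i₁ := by positivity
      refine ⟨by omega, Or.inr ⟨by omega, by omega⟩⟩
  obtain ⟨hrd, hcase'⟩ := hcase
  have htd : P.ord (t d) = d := by
    rw [← hrd, htr, hordpow]
  -- the minimum is `d`, attained at `0`
  have hN : P.ord (t i₀) = d ∧ t 0 ≠ 0 ∧ P.ord (t 0) = d := by
    rcases hcase' with ⟨h0, h1⟩ | ⟨h0, h1⟩
    · subst h0
      refine ⟨?_, hi₀.2, ?_⟩
      · rw [← heq, h1, htd]
      · rw [← heq, h1, htd]
    · subst h1
      refine ⟨by rw [h0, htd], hi₁.2, ?_⟩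
      rw [heq, h0, htd]
  obtain ⟨hN0, ht00, hord0⟩ := hN
  have ht0eq : t 0 = ((μ.coeff 0 : K⟮w⟯) : F) := by
    show ((μ.coeff 0 : K⟮w⟯) : F) * θ ^ 0 = _
    rw [pow_zero, mul_one]
  refine ⟨hrd, fun i hi => ?_, ?_, ?_⟩
  · rcases eq_or_ne (((μ.coeff i : K⟮w⟯) : F)) 0 with h0 | h0
    · exact Or.inl h0
    · right
      obtain ⟨e, he, he'⟩ := key i h0
      have hiI : i ∈ I := Finset.mem_filter.mpr
        ⟨Finset.mem_range.mpr (by omega), ht0' i h0⟩
      have h1 := hmin i hiI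
      rw [hN0, he'] at h1
      have he1 : 1 ≤ e := by
        by_contra hcon
        have h0' : e ≤ 0 := by omega
        have : (d : ℤ) * e ≤ 0 := mul_nonpos_of_nonneg_of_nonpos hdz.le h0'
        have hi' : (i : ℤ) < d := by exact_mod_cast hi
        omega
      rw [he, hord]
      have : (d : ℤ) * 1 ≤ d * e := mul_le_mul_of_nonneg_left he1 hdz.le
      linarith
  · rw [← ht0eq]
    exact ht00
  · rw [← ht0eq, hord0, hord]

end Fermat.Agent.S27.Char0.H20
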