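import Fermat.Agent.S27.Char0.Defs
import Mathlib.RingTheory.Smooth.Field
import Mathlib.RingTheory.Etale.Kaehler
import Mathlib.RingTheory.Kaehler.Polynomial
import Mathlib.FieldTheory.FinTrdeg

/-!
# S27 char-0 half, leaf FF-X (helper20): the frozen hypotheses give a function field of one
variable.

`F / K` is finitely generated, `K` has characteristic `0`, so for a finite transcendence basis
`x : ι → F` the extension `F / K[x_i]` is formally étale and `Ω[F/K]` is free on the `d x_i`.
Rank one gives `#ι = 1`.
-/

set_option autoImplicit false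
set_option linter.style.haveILetI false

noncomputable section

open AlgebraicCurve IntermediateField KaehlerDifferential

namespace Fermat.Agent.S27.Char0.H20

universe u v

/-- The rank of the Kähler differentials of a finitely generated extension of fields of
characteristic `0` is the cardinality of a (finite) transcendence basis. -/
theorem finrank_kaehler_eq_card {K : Type u} {F : Type v} [Field K] [Field F] [Algebra K F]
    [CharZero K] {ι : Type v} [Fintype ι] {x : ι → F} (hx : IsTranscendenceBasis K x) :
    Module.finrank F Ω[F⁄K] = Fintype.card ι := by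
  classical
  let S := MvPolynomial ι K
  letI algSF : Algebra S F := (MvPolynomial.aeval x : S →ₐ[K] F).toRingHom.toAlgebra
  have hSF : ∀ s : S, algebraMap S F s = MvPolynomial.aeval x s := fun _ => rfl
  haveI : IsScalarTower K S F :=
    IsScalarTower.of_algebraMap_eq' (MvPolynomial.aeval x : S →ₐ[K] F).comp_algebraMap.symm
  have hinj : Function.Injective (algebraMap S F) := hx.1
  haveI : FaithfulSMul S F := (faithfulSMul_iff_algebraMap_injective S F).mpr hinj
  let L₀ := FractionRing S
  letI algLF : Algebra L₀ F := (IsFractionRing.lift (K := L₀) hinj).toAlgebra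
  haveI : IsScalarTower S L₀ F :=
    IsScalarTower.of_algebraMap_eq fun s => (IsFractionRing.lift_algebraMap hinj s).symm
  -- `F` is algebraic over `S`
  haveI hA₀ : Algebra.IsAlgebraic (Algebra.adjoin K (Set.range x)) F := hx.isAlgebraic
  haveI hSalg : Algebra.IsAlgebraic S F := by
    refine Algebra.IsAlgebraic.of_ringHom_of_comp_eq (R := S)
      (S := Algebra.adjoin K (Set.range x)) (A := F) (B := F)
      (hx.1.aevalEquiv : S ≃+* Algebra.adjoin K (Set.range x)) (RingHom.id F)
      (EquivLike.surjective _) Function.injective_id ?_
    refine RingHom.ext fun p => ?_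
    simp only [RingHom.comp_apply, hSF]
    exact hx.1.algebraMap_aevalEquiv p
  haveI : Algebra.IsAlgebraic L₀ F := IsFractionRing.comap_isAlgebraic_iff.mp hSalg
  haveI : CharZero L₀ := charZero_of_injective_algebraMap (algebraMap K L₀).injective
  haveI : Algebra.IsSeparable L₀ F := inferInstance
  haveI : Algebra.FormallyEtale L₀ F := Algebra.FormallyEtale.of_isSeparable L₀ F
  haveI : Algebra.FormallyEtale S L₀ := Algebra.FormallyEtale.of_isLocalization (nonZeroDivisors S)
  haveI : Algebra.FormallyEtale S F := Algebra.FormallyEtale.comp S L₀ F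
  let e := tensorKaehlerEquivOfFormallyEtale K S F
  let b : Module.Basis ι F Ω[F⁄K] := ((mvPolynomialBasis K ι).baseChange F).map e
  exact Module.finrank_eq_card_basis b

/-- **FF-X**. -/
theorem stmt_FFX : Stmt_FFX.{u, v} := by
  intro K F _ _ _ _ _ _ _
  obtain ⟨s, hs⟩ := exists_finset_isTranscendenceBasis K F
  have h1 : Module.finrank F Ω[F⁄K] = Fintype.card ↥s := finrank_kaehler_eq_card hs
  rw [IsCurveOver.finrank_kaehler] at h1
  have h2 : s.card = 1 := by simpa using h1.symm
  obtain ⟨x₀, rfl⟩ := Finset.card_eq_one.mp h2
  refine ⟨x₀, ?_, ?_⟩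
  · have := hs.1.transcendental ⟨x₀, by simp⟩
    simpa using this
  · have halg := hs.isAlgebraic_field
    have hr : Set.range ((↑) : ↥({x₀} : Finset F) → F) = {x₀} := by
      ext y; simp
    rw [hr] at halg
    haveI := halg
    haveI : Algebra.EssFiniteType K⟮x₀⟯ F := Algebra.EssFiniteType.of_comp K K⟮x₀⟯ F
    exact Algebra.finite_of_essFiniteType_of_isAlgebraic

end Fermat.Agent.S27.Char0.H20
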