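import Fermat.Agent.S27.Char0.RedExDefs
import Fermat.Agent.S27.Char0.H20_FFH
import Fermat.Agent.S27.REDu.DRabs

/-!
# S27 char-0 half, package RED-EX: the assembly (helper20)

* `stmt_ResK` : the residue field of a valuation ring of an algebraically closed field is
  algebraically closed (after helper73's `isAlgClosed_kV`);
* `goodChart_of`, `goodChart_inv_of` : polymorphic copies of helper76's abstract lemmas;
* `redex_of` : `Stmt_REDEX` from the leaves `Stmt_EisEx`, `Stmt_BranchFin`, `Stmt_VAL`,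
  `Stmt_GaussExt`, `Stmt_Bridge`.
-/

set_option autoImplicit false
set_option linter.style.haveILetI false
set_option synthInstance.maxHeartbeats 400000
set_option maxHeartbeats 1000000

noncomputable section

open AlgebraicCurve IntermediateField Polynomial

namespace Fermat.Agent.S27.Char0.H20

open Fermat.Agent.RED.H17 Fermat.Agent.S27.REDu.H34 Fermat.Agent.S27.REDu.H79

universe u v u' v'

/-! ### RES-K -/

/-- **RES-K**. -/
theorem stmt_ResK : Stmt_ResK.{u, u'} := by
  intro K k _ _ _ O res hres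
  apply IsAlgClosed.of_exists_root
  intro p hp hirr
  obtain ⟨q, hq, hqdeg, hqm⟩ := lifts_and_natDegree_eq_and_monic
    (mem_lifts_of_surjective hres p) hp
  have hdeg : (q.map (algebraMap O K)).degree ≠ 0 := by
    rw [degree_map_eq_of_injective (FaithfulSMul.algebraMap_injective O K),
      degree_eq_natDegree hqm.ne_zero, hqdeg]
    have := hirr.natDegree_pos
    exact_mod_cast this.ne'
  obtain ⟨x, hx⟩ := IsAlgClosed.exists_root (q.map (algebraMap O K)) hdeg
  have hxA : x ∈ O := by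
    have hint : IsIntegral O x := ⟨q, hqm, by rw [eval₂_eq_eval_map]; exact hx⟩
    obtain ⟨a, ha⟩ := IsIntegrallyClosed.isIntegral_iff.mp hint
    rw [← ha]
    exact a.2
  refine ⟨res ⟨x, hxA⟩, ?_⟩
  have h1 : q.eval (⟨x, hxA⟩ : O) = 0 := by
    apply FaithfulSMul.algebraMap_injective O K
    rw [map_zero, ← hx, eval_map, ← eval₂_hom]
    rfl
  rw [← hq, eval_map, eval₂_hom, h1, map_zero]

/-! ### Good charts (polymorphic copies of `RED/H76_GoodChartJ.lean`, section `Abs`) -/

theorem adjoin_simple_inv_u {K : Type u} {E : Type v} [Field K] [Field E] [Algebra K E] (x : E) :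
    K⟮x⁻¹⟯ = K⟮x⟯ := by
  apply le_antisymm
  · rw [IntermediateField.adjoin_simple_le_iff]
    exact inv_mem (IntermediateField.mem_adjoin_simple_self K x)
  · rw [IntermediateField.adjoin_simple_le_iff]
    have h := inv_mem (IntermediateField.mem_adjoin_simple_self K x⁻¹)
    rwa [inv_inv] at h

theorem transcendental_inv_u {K : Type u} {E : Type v} [Field K] [Field E] [Algebra K E] {x : E}
    (hx : Transcendental K x) : Transcendental K x⁻¹ := fun h =>
  hx (IsAlgebraic.inv_iff.mp h)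

section Abs

variable {C : Type u} {F : Type v} {k : Type u'} {Ft : Type v'} [Field C] [Field F]
  [Algebra C F] [Field k] [Field Ft] [Algebra k Ft]

theorem red_inv (S : RedSetting C F k Ft) {x : F} (hx : x ∈ S.V) (hx' : x⁻¹ ∈ S.V)
    (hx0 : x ≠ 0) : S.red ⟨x⁻¹, hx'⟩ = (S.red ⟨x, hx⟩)⁻¹ := by
  have h1 : (⟨x, hx⟩ : ↥S.V) * ⟨x⁻¹, hx'⟩ = 1 := Subtype.ext (mul_inv_cancel₀ hx0)
  have h2 := congrArg S.red h1
  rw [map_mul, map_one] at h2
  exact eq_inv_of_mul_eq_one_right h2

theorem ne_zero_of_transcendental_red (S : RedSetting C F k Ft) {x : F} (hx : x ∈ S.V)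
    (h : Transcendental k (S.red ⟨x, hx⟩)) : x ≠ 0 := by
  rintro rfl
  apply h
  have : S.red ⟨0, hx⟩ = 0 := map_zero S.red
  rw [this]
  exact isAlgebraic_zero

theorem finrank_congr_if {K : Type u} {E : Type v} [Field K] [Field E] [Algebra K E]
    {M M' : IntermediateField K E} (h : M = M') :
    Module.finrank ↥M E = Module.finrank ↥M' E := by
  subst h
  rfl

theorem isSeparable_congr_if {K : Type u} {E : Type v} [Field K] [Field E] [Algebra K E]
    {M M' : IntermediateField K E} (h : M = M') (hs : Algebra.IsSeparable ↥M E) :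
    Algebra.IsSeparable ↥M' E := by
  subst h
  exact hs

theorem finite_congr_if {K : Type u} {E : Type v} [Field K] [Field E] [Algebra K E]
    {M M' : IntermediateField K E} (h : M = M') (hs : Module.Finite ↥M E) :
    Module.Finite ↥M' E := by
  subst h
  exact hs

/-- `GoodChart` from the five "pre" fields and the distinctness of the branch values. -/
theorem goodChart_of [IsAlgClosed C] [CharZero C] [IsAlgClosed k] (S : RedSetting C F k Ft)
    {x : F} (hx : x ∈ S.V)
    (h1 : Transcendental k (S.red ⟨x, hx⟩))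
    (h2 : FiniteDimensional C⟮x⟯ F)
    (h3 : Algebra.IsSeparable C⟮x⟯ F)
    (h4 : Module.finrank k⟮S.red ⟨x, hx⟩⟯ Ft = Module.finrank C⟮x⟯ F)
    (h5 : Algebra.IsSeparable k⟮S.red ⟨x, hx⟩⟯ Ft)
    (hD : ∀ ρ ρ' : ↥(S.V.comap (algebraMap C F)), IsBranchValue x (ρ : C) →
      IsBranchValue x (ρ' : C) → S.resO ρ = S.resO ρ' → ρ = ρ') :
    GoodChart S x hx :=
  ⟨h1, h2, h3, h4, h5,
    Fermat.Agent.S27.REDu.H82.stmt_chartNormal C F k Ft S x hx h1 h2 h4 h5 hD⟩

/-- `GoodChart` for the chart `x⁻¹` from the five "pre" fields of the chart `x` and the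
distinctness of the branch values of `x⁻¹`. -/
theorem goodChart_inv_of [IsAlgClosed C] [CharZero C] [IsAlgClosed k] (S : RedSetting C F k Ft)
    {x : F} (hx : x ∈ S.V) (hx' : x⁻¹ ∈ S.V)
    (h1 : Transcendental k (S.red ⟨x, hx⟩))
    (h2 : FiniteDimensional C⟮x⟯ F)
    (h3 : Algebra.IsSeparable C⟮x⟯ F)
    (h4 : Module.finrank k⟮S.red ⟨x, hx⟩⟯ Ft = Module.finrank C⟮x⟯ F)
    (h5 : Algebra.IsSeparable k⟮S.red ⟨x, hx⟩⟯ Ft)
    (hD : ∀ ρ ρ' : ↥(S.V.comap (algebraMap C F)), IsBranchValue x⁻¹ (ρ : C) →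
      IsBranchValue x⁻¹ (ρ' : C) → S.resO ρ = S.resO ρ' → ρ = ρ') :
    GoodChart S x⁻¹ hx' := by
  have hx0 : x ≠ 0 := ne_zero_of_transcendental_red S hx h1
  have hred : S.red ⟨x⁻¹, hx'⟩ = (S.red ⟨x, hx⟩)⁻¹ := red_inv S hx hx' hx0
  have hC : C⟮x⁻¹⟯ = C⟮x⟯ := adjoin_simple_inv_u x
  have hk : k⟮S.red ⟨x⁻¹, hx'⟩⟯ = k⟮S.red ⟨x, hx⟩⟯ := by
    rw [hred]
    exact adjoin_simple_inv_u _
  refine goodChart_of S hx' ?_ ?_ ?_ ?_ ?_ hD
  · rw [hred]
    exact transcendental_inv_u h1
  · exact finite_congr_if hC.symm h2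
  · exact isSeparable_congr_if hC.symm h3
  · rw [finrank_congr_if hk, finrank_congr_if hC]
    exact h4
  · exact isSeparable_congr_if hk.symm h5

/-- A constant which is a unit of `O` has nonzero reduction. -/
theorem resO_ne_zero_of_inv_mem (S : RedSetting C F k Ft) (a : ↥S.O) (ha0 : (a : C) ≠ 0)
    (ha : (a : C)⁻¹ ∈ S.O) : S.resO a ≠ 0 := by
  intro h0
  have h1 : a * ⟨(a : C)⁻¹, ha⟩ = 1 := Subtype.ext (mul_inv_cancel₀ ha0)
  have h2 := congrArg S.resO h1
  rw [map_mul, h0, zero_mul, map_one] at h2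
  exact zero_ne_one h2

/-- A constant whose inverse is not in `O` has zero reduction. -/
theorem resO_eq_zero_of_inv_not_mem (S : RedSetting C F k Ft) (a : ↥S.O)
    (ha : (a : C)⁻¹ ∉ S.O) : S.resO a = 0 := by
  rw [S.resO_eq_zero_iff]
  rintro ⟨w, hw⟩
  apply ha
  have h1 : ((w : ↥S.O) : C) * (((w⁻¹ : (↥S.O)ˣ) : ↥S.O) : C) = 1 :=
    congrArg Subtype.val w.mul_inv
  rw [hw] at h1
  have h2 : (a : C)⁻¹ = (((w⁻¹ : (↥S.O)ˣ) : ↥S.O) : C) := inv_eq_of_mul_eq_one_right h1
  rw [h2]
  exact Subtype.mem _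

end Abs

/-! ### The assembly -/

/-- The characteristic of a field in which the prime `p` vanishes. -/
theorem charP_of_prime_cast_eq_zero (k : Type u) [Field k] {p : ℕ} (hp : p.Prime)
    (h : (p : k) = 0) : CharP k p := by
  obtain ⟨q, hq⟩ := CharP.exists k
  have hqp : q ∣ p := (CharP.cast_eq_zero_iff k q p).mp h
  rcases (Nat.dvd_prime hp).mp hqp with h1 | h1
  · exfalso
    subst h1
    exact CharP.char_ne_one k 1 rfl
  · subst h1
    exact hq

/-- **RED-EX** from its leaves. -/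
theorem redex_of (hEis : Stmt_EisEx.{u, v}) (hBr : Stmt_BranchFin.{u, v})
    (hVal : Stmt_VAL.{u}) (hGE : Stmt_GaussExt.{u, v}) (hBridge : Stmt_Bridge.{u, v, u, v}) :
    Stmt_REDEX.{u, v} := by
  intro K F _ _ _ _ _ hFF ℓ
  classical
  obtain ⟨H, g, c, hg⟩ := stmt_FFH K F hFF
  obtain ⟨M⟩ := hEis K F hFF H g c hg
  haveI := M.fin
  have hd0 : 0 < M.d := by
    rw [← M.deg]
    exact Module.finrank_pos
  have hw0 : M.w ≠ 0 := fun h0 => M.transc (h0 ▸ isAlgebraic_zero)
  -- the charts `w`, `w⁻¹` over `K`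
  have htr' : Transcendental K M.w⁻¹ := transcendental_inv_u M.transc
  have hKinv : K⟮M.w⁻¹⟯ = K⟮M.w⟯ := adjoin_simple_inv_u M.w
  have hfin' : Module.Finite K⟮M.w⁻¹⟯ F := finite_congr_if hKinv.symm M.fin
  have hB := hBr K F M.w M.transc M.fin
  have hB' := hBr K F M.w⁻¹ htr' hfin'
  -- the finite set of elements which have to be units
  let coeffs : Finset K :=
    ((Finset.univ : Finset (Fin M.d)).biUnion fun i =>
      (M.a i).support.image fun n => (M.a i).coeff n) ∪
      (M.b.support.image fun n => M.b.coeff n)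
  let specials : Finset K := {M.b.eval 0, (M.d : K), (M.a ⟨0, hd0⟩).eval 0}
  let diffs : Finset K :=
    ((hB.toFinset ×ˢ hB.toFinset).image fun q => q.1 - q.2) ∪
      ((hB'.toFinset ×ˢ hB'.toFinset).image fun q => q.1 - q.2)
  let I : Finset K := coeffs ∪ specials ∪ diffs
  let m : ℕ := (if ℓ = 0 then 1 else ℓ) * M.d
  have hm : 0 < m := by
    apply Nat.mul_pos _ hd0
    split_ifs with h
    · exact Nat.one_pos
    · exact Nat.pos_of_ne_zero h
  obtain ⟨p, O, hp, hpm, hI, hIu, hpO, hpinv, halgO⟩ := hVal K I m hm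
  have hpℓ : p ≠ ℓ := by
    rintro rfl
    apply hpm
    have hℓ0 : p ≠ 0 := hp.ne_zero
    show p ∣ (if p = 0 then 1 else p) * M.d
    rw [if_neg hℓ0]
    exact Dvd.intro _ rfl
  have hOtop : O ≠ ⊤ := by
    intro h
    apply hpinv
    rw [h]
    exact ValuationSubring.mem_top _
  -- the model is good
  have hcoeff : ∀ a ∈ coeffs, a ∈ O := fun a ha =>
    hI a (Finset.mem_union_left _ (Finset.mem_union_left _ ha))
  have hspec : ∀ a ∈ specials, a ≠ 0 → a⁻¹ ∈ O := fun a ha =>
    hIu a (Finset.mem_union_left _ (Finset.mem_union_right _ ha))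
  have hdiff : ∀ a ∈ diffs, a ≠ 0 → a⁻¹ ∈ O := fun a ha =>
    hIu a (Finset.mem_union_right _ ha)
  have hGood : M.Good O := by
    refine ⟨?_, ?_, ?_, ?_, ?_⟩
    · intro i n
      by_cases h0 : (M.a i).coeff n = 0
      · rw [h0]; exact O.zero_mem
      · apply hcoeff
        refine Finset.mem_union_left _ (Finset.mem_biUnion.mpr ⟨i, Finset.mem_univ _, ?_⟩)
        exact Finset.mem_image.mpr ⟨n, Polynomial.mem_support_iff.mpr h0, rfl⟩
    · intro n
      by_cases h0 : M.b.coeff n = 0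
      · rw [h0]; exact O.zero_mem
      · apply hcoeff
        refine Finset.mem_union_right _ ?_
        exact Finset.mem_image.mpr ⟨n, Polynomial.mem_support_iff.mpr h0, rfl⟩
    · exact hspec _ (by simp [specials]) M.hb
    · intro h
      exact hspec _ (by simp [specials]) (M.ha h)
    · exact hspec _ (by simp [specials]) (Nat.cast_ne_zero.mpr hd0.ne')
  -- the Gauss valuation ring
  obtain ⟨k, Ft, _, _, _, S, hw, hw', hcomap, htransc, hfint, hdegt, hsept⟩ := hGE K F M O hGood hOtop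
  have hSO : S.O = O := hcomap
  have toO : ∀ a : K, a ∈ S.O → a ∈ O := fun a h => hSO ▸ h
  have ofO : ∀ a : K, a ∈ O → a ∈ S.O := fun a h => hSO.symm ▸ h
  haveI : IsAlgClosed k := stmt_ResK K k S.O S.resO S.resO_surj
  -- the characteristic of `k`
  have hpS : (p : K) ∈ S.O := ofO _ hpO
  have hpk : (p : k) = 0 := by
    have h1 : S.resO ⟨(p : K), hpS⟩ = 0 := by
      apply resO_eq_zero_of_inv_not_mem
      exact fun h => hpinv (toO _ h)
    have h2 : (⟨(p : K), hpS⟩ : ↥S.O) = ((p : ℕ) : ↥S.O) := Subtype.ext (by simp)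
    rw [h2, map_natCast] at h1
    exact h1
  haveI hchar : CharP k p := charP_of_prime_cast_eq_zero k hp hpk
  have halgk : IsAlgOverFp k p := by
    intro y
    obtain ⟨a, rfl⟩ := S.resO_surj y
    have haO : (a : K) ∈ O := toO _ a.2
    obtain ⟨n, hn, hcase⟩ := halgO a haO
    refine ⟨n, hn, ?_⟩
    have h3 : S.resO (a ^ (p ^ n) - a) = 0 := by
      rcases hcase with h0 | h0
      · have : a ^ (p ^ n) - a = 0 := Subtype.ext (by simpa using h0)
        rw [this, map_zero]
      · apply resO_eq_zero_of_inv_not_mem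
        intro h
        apply h0
        have := toO _ h
        simpa using this
    rw [map_sub, map_pow] at h3
    exact sub_eq_zero.mp h3
  -- the charts are good
  have hcz : CharZero ↥K⟮M.w⟯ := charZero_of_injective_algebraMap (algebraMap K ↥K⟮M.w⟯).injective
  have hsepK : Algebra.IsSeparable ↥K⟮M.w⟯ F := inferInstance
  have hdeg' : Module.finrank k⟮S.red ⟨M.w, hw⟩⟯ Ft = Module.finrank K⟮M.w⟯ F := by
    rw [hdegt, M.deg]
  have hbranch : ∀ (x : F) (hBx : {ρ : K | IsBranchValue x ρ}.Finite),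
      (∀ a ∈ (hBx.toFinset ×ˢ hBx.toFinset).image (fun q : K × K => q.1 - q.2),
        a ≠ 0 → a⁻¹ ∈ O) →
      ∀ ρ ρ' : ↥(S.V.comap (algebraMap K F)), IsBranchValue x (ρ : K) →
        IsBranchValue x (ρ' : K) → S.resO ρ = S.resO ρ' → ρ = ρ' := by
    intro x hBx hu ρ ρ' hρ hρ' hres
    by_contra hne
    have hne' : (ρ : K) - ρ' ≠ 0 := fun h => hne (Subtype.ext (sub_eq_zero.mp h))
    have hmem : (ρ : K) - ρ' ∈ (hBx.toFinset ×ˢ hBx.toFinset).image
        (fun q : K × K => q.1 - q.2) := by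
      refine Finset.mem_image.mpr ⟨((ρ : K), (ρ' : K)), ?_, rfl⟩
      rw [Finset.mem_product]
      exact ⟨hBx.mem_toFinset.mpr hρ, hBx.mem_toFinset.mpr hρ'⟩
    have hinv := hu _ hmem hne'
    have hinv' : (((ρ - ρ' : ↥S.O) : K))⁻¹ ∈ S.O := by
      apply ofO
      simpa using hinv
    have := resO_ne_zero_of_inv_mem S (ρ - ρ') (by simpa using hne') hinv'
    apply this
    rw [map_sub, hres, sub_self]
  have GC : GoodChart S M.w hw :=
    goodChart_of S hw htransc M.fin hsepK hdeg' hsept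
      (hbranch M.w hB fun a ha => hdiff a (Finset.mem_union_left _ ha))
  have GC' : GoodChart S M.w⁻¹ hw' :=
    goodChart_inv_of S hw hw' htransc M.fin hsepK hdeg' hsept
      (hbranch M.w⁻¹ hB' fun a ha => hdiff a (Finset.mem_union_right _ ha))
  -- conservation and genus
  have hFFt : IsFFu k Ft := ⟨S.red ⟨M.w, hw⟩, htransc, hfint⟩
  have hxx' : M.w⁻¹ * (M.w - algebraMap K F ((0 : ↥S.O) : K)) = 1 := by
    rw [ZeroMemClass.coe_zero, map_zero, sub_zero, inv_mul_cancel₀ hw0]
  obtain ⟨r, hr⟩ := exists_isRedAbs hFF hFFt S M.w M.w⁻¹ hw hw' 0 hxx' GC GC'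
  haveI : FiniteDimensional ↥K⟮M.w⟯ F := M.fin
  haveI := hsept
  have hGen := Fermat.Agent.S27.REDu.H42.genusLE_of_charts hFF hFFt S hw hw' htransc hdeg'
    GC.normal GC'.normal r
  obtain ⟨S', hS'V, hS'r, hS'rd⟩ := hBridge K F k Ft S r hr
  have hrd : S'.rd M.w = S.red ⟨M.w, hw⟩ := hS'rd M.w hw
  refine ⟨p, k, Ft, inferInstance, inferInstance, inferInstance, inferInstance, hchar,
    hp, hpℓ, halgk, ⟨?_⟩⟩
  refine
    { S := S'
      x := M.w
      hx := by rw [hS'V]; exact hw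
      transc := by rw [hrd]; exact htransc
      fin := M.fin
      fin' := by rw [hrd]; exact hfint
      deg := by rw [hrd]; exact hdeg'
      sep' := by rw [hrd]; exact hsept
      genusLE := ?_ }
  obtain ⟨c₁, hc₁⟩ := hGen
  exact ⟨c₁, fun D hD => by rw [hS'r]; exact hc₁ D hD⟩

end Fermat.Agent.S27.Char0.H20
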