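import Fermat.Agent.S27.Char0.H64_EisAbs

/-!
# S27 / RED-EX, leaf GaussExt (helper64), part 2: the Gauss valuation ring `V = V₀[θ]`

Data `GData`: a valuation ring `O` of `K`, `w ∈ F` transcendental with `[F : K(w)] = d`, and a
root `θ ∈ F` of a monic Eisenstein polynomial `P = T^d + Σ c_i(w) T^i`, `c_i ∈ O[X]`, `X ∣ c_i`,
`c_0 / X` with unit constant term.

`A₂ = O[X][T]`, `evF : A₂ → F` (`X ↦ w`, `T ↦ θ`), `evD : A₂ → D = k[X][T]/(P~)` (a domain).
`V = {evF a / evF b : evD b ≠ 0}` is a valuation ring of `F` with `V ∩ K = O`, of Gauss type.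
-/

set_option autoImplicit false
set_option linter.unusedSectionVars false
set_option linter.style.haveILetI false

noncomputable section

namespace Fermat.Agent.S27.Char0.H64

open Polynomial IntermediateField IsLocalRing

universe u v

/-- In a valuation ring, a finite set with a nonzero element contains a nonzero element dividing
all the others. -/
theorem exists_dvd_all {R : Type u} [CommRing R] [IsDomain R] [ValuationRing R] (s : Finset R)
    (hs : ∃ a ∈ s, a ≠ 0) : ∃ c ∈ s, c ≠ 0 ∧ ∀ a ∈ s, c ∣ a := by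
  classical
  induction s using Finset.induction_on with
  | empty =>
    obtain ⟨a, ha, -⟩ := hs
    exact absurd ha (Finset.notMem_empty a)
  | insert x t _ ih =>
    by_cases ht : ∃ a ∈ t, a ≠ 0
    · obtain ⟨c₀, hc₀t, hc₀, hdiv⟩ := ih ht
      by_cases hx : x = 0
      · refine ⟨c₀, Finset.mem_insert_of_mem hc₀t, hc₀, fun a ha => ?_⟩
        rcases Finset.mem_insert.mp ha with rfl | ha
        · rw [hx]; exact dvd_zero _
        · exact hdiv a ha
      · rcases ValuationRing.dvd_total c₀ x with h | h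
        · refine ⟨c₀, Finset.mem_insert_of_mem hc₀t, hc₀, fun a ha => ?_⟩
          rcases Finset.mem_insert.mp ha with rfl | ha
          · exact h
          · exact hdiv a ha
        · refine ⟨x, Finset.mem_insert_self x t, hx, fun a ha => ?_⟩
          rcases Finset.mem_insert.mp ha with rfl | ha
          · exact dvd_rfl
          · exact h.trans (hdiv a ha)
    · have ht0 : ∀ a ∈ t, a = 0 := fun a ha => by
        by_contra h
        exact ht ⟨a, ha, h⟩
      obtain ⟨a, ha, ha0⟩ := hs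
      have hx : x ≠ 0 := by
        rcases Finset.mem_insert.mp ha with rfl | ha'
        · exact ha0
        · exact absurd (ht0 a ha') ha0
      refine ⟨x, Finset.mem_insert_self x t, hx, fun b hb => ?_⟩
      rcases Finset.mem_insert.mp hb with rfl | hb
      · exact dvd_rfl
      · rw [ht0 b hb]; exact dvd_zero _

/-- The data of an integral Eisenstein model over a valuation ring. -/
structure GData (K : Type u) (F : Type v) [Field K] [Field F] [Algebra K F] where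
  O : ValuationSubring K
  w : F
  θ : F
  d : ℕ
  hd : 0 < d
  c : Fin d → (↥O)[X]
  c0 : ∀ i, (c i).coeff 0 = 0
  c1 : IsUnit ((c ⟨0, hd⟩).coeff 1)
  rel : θ ^ d + ∑ i : Fin d,
    (c i).eval₂ ((algebraMap K F).comp O.subtype) w * θ ^ (i : ℕ) = 0
  transc : Transcendental K w
  fin : Module.Finite K⟮w⟯ F
  deg : Module.finrank K⟮w⟯ F = d

namespace GData

variable {K : Type u} {F : Type v} [Field K] [Field F] [Algebra K F] (G : GData K F)

/-- The residue field of `O`. -/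
abbrev k : Type u := ResidueField ↥G.O

/-- `O → K`. -/
def iO : ↥G.O →+* K := G.O.subtype

/-- `O → F`. -/
def iF : ↥G.O →+* F := (algebraMap K F).comp G.O.subtype

/-- `O → k`. -/
def res : ↥G.O →+* G.k := residue ↥G.O

theorem iO_injective : Function.Injective G.iO := Subtype.val_injective

theorem res_surjective : Function.Surjective G.res := residue_surjective

theorem res_eq_zero_iff (a : ↥G.O) : G.res a = 0 ↔ ¬ IsUnit a := by
  unfold res
  rw [residue_eq_zero_iff, mem_maximalIdeal, mem_nonunits_iff]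

/-- The coefficients over `K`. -/
def cK (i : Fin G.d) : K[X] := (G.c i).map G.iO

/-- The coefficients over `k`. -/
def ck (i : Fin G.d) : G.k[X] := (G.c i).map G.res

theorem cK0 (i : Fin G.d) : (G.cK i).coeff 0 = 0 := by
  unfold cK
  rw [coeff_map, G.c0, map_zero]

theorem ck0 (i : Fin G.d) : (G.ck i).coeff 0 = 0 := by
  unfold ck
  rw [coeff_map, G.c0, map_zero]

theorem cK1 : (G.cK ⟨0, G.hd⟩).coeff 1 ≠ 0 := by
  unfold cK
  rw [coeff_map]
  intro h
  have h2 : (G.c ⟨0, G.hd⟩).coeff 1 = 0 := G.iO_injective (by rw [h, map_zero])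
  have := G.c1
  rw [h2] at this
  exact not_isUnit_zero this

theorem ck1 : (G.ck ⟨0, G.hd⟩).coeff 1 ≠ 0 := by
  unfold ck
  rw [coeff_map]
  intro h
  exact ((G.res_eq_zero_iff _).mp h) G.c1

/-- The Eisenstein polynomial over `O[X]`. -/
def P : (↥G.O)[X][X] := eisP G.d G.c

theorem P_monic : G.P.Monic := eisP_monic _ _

theorem P_natDegree : G.P.natDegree = G.d := eisP_natDegree _ _

theorem P_degree : G.P.degree = (G.d : WithBot ℕ) := by
  rw [degree_eq_natDegree G.P_monic.ne_zero, G.P_natDegree]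

/-- The domain `D = k[X][T]/(P~)`. -/
abbrev D : Type u := AdjoinRoot (eisP G.d G.ck)

instance : IsDomain G.D := AdjoinRoot.isDomain_of_prime (eisP_prime G.hd G.ck G.ck0 G.ck1)

/-- Evaluation `A₂ → F`. -/
def evF : (↥G.O)[X][X] →+* F := eval₂RingHom (eval₂RingHom G.iF G.w) G.θ

/-- Reduction `A₂ → k[X][T]`. -/
def redP : (↥G.O)[X][X] →+* G.k[X][X] := mapRingHom (mapRingHom G.res)

/-- Base change `A₂ → K[X][T]`. -/
def bcK : (↥G.O)[X][X] →+* K[X][X] := mapRingHom (mapRingHom G.iO)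

/-- Evaluation `A₂ → D`. -/
def evD : (↥G.O)[X][X] →+* G.D := (AdjoinRoot.mk (eisP G.d G.ck)).comp G.redP

theorem bcK_injective : Function.Injective G.bcK :=
  Polynomial.map_injective _ (Polynomial.map_injective _ G.iO_injective)

theorem redP_P : G.redP G.P = eisP G.d G.ck := by
  unfold redP P
  rw [coe_mapRingHom, eisP_map]
  rfl

theorem bcK_P : G.bcK G.P = eisP G.d G.cK := by
  unfold bcK P
  rw [coe_mapRingHom, eisP_map]
  rfl

theorem evF_eq (g : (↥G.O)[X][X]) : G.evF g = (G.bcK g).eval₂ (evE G.w) G.θ := by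
  unfold evF bcK
  rw [coe_mapRingHom, eval₂_map, coe_eval₂RingHom]
  congr 1
  refine Polynomial.ringHom_ext (fun a => ?_) ?_
  · simp [evE_apply, iF, iO]
  · simp [evE_apply]

theorem evF_P : G.evF G.P = 0 := by
  unfold evF P
  rw [coe_eval₂RingHom, eisP_eval₂]
  exact G.rel

theorem evD_P : G.evD G.P = 0 := by
  unfold evD
  rw [RingHom.comp_apply, G.redP_P, AdjoinRoot.mk_self]

theorem hyK : (eisP G.d G.cK).eval₂ (evE G.w) G.θ = 0 := by
  rw [← G.bcK_P, ← G.evF_eq, G.evF_P]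

/-! ### Coordinates -/

theorem degree_bcK_le (g : (↥G.O)[X][X]) : (G.bcK g).degree ≤ g.degree := degree_map_le

theorem degree_redP_le (g : (↥G.O)[X][X]) : (G.redP g).degree ≤ g.degree := degree_map_le

/-- **INJ**: `evF` is injective on polynomials of degree `< d`. -/
theorem evF_inj (g : (↥G.O)[X][X]) (hg : g.degree < (G.d : WithBot ℕ)) (h : G.evF g = 0) :
    g = 0 := by
  apply G.bcK_injective
  rw [map_zero]
  refine eis_inj G.hd G.cK G.cK0 G.cK1 G.transc G.hyK _ ((G.degree_bcK_le g).trans_lt hg) ?_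
  rw [← G.evF_eq]
  exact h

/-- **PRIM**: on polynomials of degree `< d`, `evD g = 0` iff all coefficients are non-units. -/
theorem evD_eq_zero_iff (g : (↥G.O)[X][X]) (hg : g.degree < (G.d : WithBot ℕ)) :
    G.evD g = 0 ↔ G.redP g = 0 := by
  constructor
  · intro h
    unfold evD at h
    rw [RingHom.comp_apply, AdjoinRoot.mk_eq_zero] at h
    refine Polynomial.eq_zero_of_dvd_of_degree_lt h ?_
    have : (eisP G.d G.ck).degree = (G.d : WithBot ℕ) := by
      rw [degree_eq_natDegree (eisP_monic _ _).ne_zero, eisP_natDegree]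
    rw [this]
    exact (G.degree_redP_le g).trans_lt hg
  · intro h
    unfold evD
    rw [RingHom.comp_apply, h, map_zero]

theorem redP_eq_zero_iff (g : (↥G.O)[X][X]) :
    G.redP g = 0 ↔ ∀ i j, ¬ IsUnit ((g.coeff i).coeff j) := by
  unfold redP
  rw [coe_mapRingHom]
  constructor
  · intro h i j
    have := congrArg (fun p : G.k[X][X] => (p.coeff i).coeff j) h
    simp only [coeff_map, coe_mapRingHom, coeff_zero] at this
    exact (G.res_eq_zero_iff _).mp this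
  · intro h
    ext i j
    simp only [coeff_map, coe_mapRingHom, coeff_zero]
    exact (G.res_eq_zero_iff _).mpr (h i j)

/-- Reduction modulo `P`. -/
def rem (g : (↥G.O)[X][X]) : (↥G.O)[X][X] := g %ₘ G.P

theorem rem_degree (g : (↥G.O)[X][X]) : (G.rem g).degree < (G.d : WithBot ℕ) := by
  unfold rem
  rw [← G.P_degree]
  exact degree_modByMonic_lt g G.P_monic

theorem evF_rem (g : (↥G.O)[X][X]) : G.evF (G.rem g) = G.evF g := by
  have h := modByMonic_add_div g G.P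
  conv_rhs => rw [← h]
  rw [map_add, map_mul, G.evF_P, zero_mul, add_zero]
  rfl

theorem evD_rem (g : (↥G.O)[X][X]) : G.evD (G.rem g) = G.evD g := by
  have h := modByMonic_add_div g G.P
  conv_rhs => rw [← h]
  rw [map_add, map_mul, G.evD_P, zero_mul, add_zero]
  rfl

/-- `evF g = 0` implies `evD g = 0`. -/
theorem evD_eq_zero_of_evF (g : (↥G.O)[X][X]) (h : G.evF g = 0) : G.evD g = 0 := by
  have h1 : G.rem g = 0 := G.evF_inj _ (G.rem_degree g) (by rw [G.evF_rem]; exact h)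
  rw [← G.evD_rem, h1, map_zero]

theorem evF_ne_zero (g : (↥G.O)[X][X]) (h : G.evD g ≠ 0) : G.evF g ≠ 0 :=
  fun h0 => h (G.evD_eq_zero_of_evF g h0)

/-- Equality of values of `evF` implies equality of values of `evD`. -/
theorem evD_eq_of_evF_eq (a b : (↥G.O)[X][X]) (h : G.evF a = G.evF b) : G.evD a = G.evD b := by
  have e1 : G.evF (a - b) = G.evF a - G.evF b := map_sub G.evF a b
  have e2 : G.evD (a - b) = G.evD a - G.evD b := map_sub G.evD a b
  have := G.evD_eq_zero_of_evF (a - b) (by rw [e1, h, sub_self])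
  rw [e2, sub_eq_zero] at this
  exact this

/-- The constant `c ∈ O` as an element of `A₂`. -/
def CC (c : ↥G.O) : (↥G.O)[X][X] := C (C c)

theorem evF_CC (c : ↥G.O) : G.evF (G.CC c) = algebraMap K F (c : K) := by
  unfold evF CC
  simp [iF]

theorem redP_CC (c : ↥G.O) : G.redP (G.CC c) = C (C (G.res c)) := by
  unfold redP CC
  simp

theorem degree_CC_le (c : ↥G.O) : (G.CC c).degree ≤ 0 := degree_C_le

theorem d_pos' : (0 : WithBot ℕ) < (G.d : WithBot ℕ) := by exact_mod_cast G.hd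

theorem evD_CC_eq_zero_iff (c : ↥G.O) : G.evD (G.CC c) = 0 ↔ ¬ IsUnit c := by
  rw [G.evD_eq_zero_iff _ ((G.degree_CC_le c).trans_lt G.d_pos'), G.redP_CC, C_eq_zero, C_eq_zero,
    G.res_eq_zero_iff]

/-! ### Scaling -/

/-- **SCALE**: a nonzero polynomial is a nonzero constant times a primitive one. -/
theorem exists_scale_poly (g : (↥G.O)[X][X]) (hg0 : g ≠ 0) :
    ∃ (c : ↥G.O) (g₁ : (↥G.O)[X][X]), c ≠ 0 ∧ g = G.CC c * g₁ ∧ G.redP g₁ ≠ 0 := by
  classical
  set s : Finset ↥G.O :=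
    g.support.biUnion (fun i => (g.coeff i).support.image (fun j => (g.coeff i).coeff j)) with hs
  have hmem : ∀ i j, (g.coeff i).coeff j ≠ 0 → (g.coeff i).coeff j ∈ s := by
    intro i j hij
    rw [hs, Finset.mem_biUnion]
    refine ⟨i, ?_, Finset.mem_image.mpr ⟨j, mem_support_iff.mpr hij, rfl⟩⟩
    rw [mem_support_iff]
    intro h
    rw [h, coeff_zero] at hij
    exact hij rfl
  have hne : ∃ a ∈ s, a ≠ 0 := by
    obtain ⟨i, hi⟩ : ∃ i, g.coeff i ≠ 0 := by
      by_contra h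
      push Not at h
      exact hg0 (Polynomial.ext fun i => by rw [h i, coeff_zero])
    obtain ⟨j, hj⟩ : ∃ j, (g.coeff i).coeff j ≠ 0 := by
      by_contra h
      push Not at h
      exact hi (Polynomial.ext fun j => by rw [h j, coeff_zero])
    exact ⟨_, hmem i j hj, hj⟩
  obtain ⟨c, hcs, hc0, hdiv⟩ := exists_dvd_all s hne
  have hdvd : G.CC c ∣ g := by
    unfold CC
    rw [C_dvd_iff_dvd_coeff]
    intro i
    rw [C_dvd_iff_dvd_coeff]
    intro j
    by_cases hij : (g.coeff i).coeff j = 0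
    · rw [hij]; exact dvd_zero _
    · exact hdiv _ (hmem i j hij)
  obtain ⟨g₁, hg₁⟩ := hdvd
  refine ⟨c, g₁, hc0, hg₁, ?_⟩
  rw [Ne, G.redP_eq_zero_iff]
  push Not
  rw [hs, Finset.mem_biUnion] at hcs
  obtain ⟨i, -, hi⟩ := hcs
  obtain ⟨j, -, hj⟩ := Finset.mem_image.mp hi
  refine ⟨i, j, ?_⟩
  have h1 : (g.coeff i).coeff j = c * (g₁.coeff i).coeff j := by
    rw [hg₁]
    unfold CC
    rw [coeff_C_mul, coeff_C_mul]
  rw [hj] at h1
  have h2 : (g₁.coeff i).coeff j = 1 := by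
    have : c * 1 = c * (g₁.coeff i).coeff j := by rw [mul_one]; exact h1
    exact (mul_left_cancel₀ hc0 this).symm
  rw [h2]
  exact isUnit_one

/-- `evD` of a primitive polynomial of degree `< d` is nonzero. -/
theorem evD_ne_zero_of_redP (g : (↥G.O)[X][X]) (hg : g.degree < (G.d : WithBot ℕ))
    (h : G.redP g ≠ 0) : G.evD g ≠ 0 :=
  fun h0 => h ((G.evD_eq_zero_iff g hg).mp h0)

theorem degree_of_CC_mul (c : ↥G.O) (hc : c ≠ 0) (g₁ : (↥G.O)[X][X]) :
    (G.CC c * g₁).degree = g₁.degree := by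
  unfold CC
  rw [degree_mul, degree_C (C_ne_zero.mpr hc), zero_add]

/-- **SCALE**, degree `< d` form. -/
theorem exists_scale (g : (↥G.O)[X][X]) (hg0 : g ≠ 0) (hg : g.degree < (G.d : WithBot ℕ)) :
    ∃ (c : ↥G.O) (g₁ : (↥G.O)[X][X]), c ≠ 0 ∧ g = G.CC c * g₁ ∧ G.evD g₁ ≠ 0 := by
  obtain ⟨c, g₁, hc, hg₁, hred⟩ := G.exists_scale_poly g hg0
  refine ⟨c, g₁, hc, hg₁, G.evD_ne_zero_of_redP g₁ ?_ hred⟩
  rw [← G.degree_of_CC_mul c hc g₁, ← hg₁]
  exact hg

/-! ### Every element of `F` is a quotient -/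

/-- Common denominators: a polynomial over `K` times a nonzero constant of `O` is integral. -/
theorem exists_int_multiple (s : Finset K) :
    ∃ b : ↥G.O, b ≠ 0 ∧ ∀ a ∈ s, (b : K) * a ∈ G.O := by
  obtain ⟨b, hb⟩ := IsLocalization.exist_integer_multiples_of_finset (nonZeroDivisors ↥G.O) s
  refine ⟨b, nonZeroDivisors.coe_ne_zero b, fun a ha => ?_⟩
  obtain ⟨y, hy⟩ := hb a ha
  rw [Algebra.smul_def] at hy
  have : (b : K) * a = (y : K) := hy.symm
  rw [this]
  exact y.2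

theorem exists_lift_poly (q : K[X]) (h : ∀ j, q.coeff j ∈ G.O) :
    ∃ q₀ : (↥G.O)[X], q₀.map G.iO = q := by
  have : q ∈ Polynomial.lifts G.iO := by
    rw [lifts_iff_coeff_lifts]
    intro n
    exact ⟨⟨q.coeff n, h n⟩, rfl⟩
  exact (mem_lifts q).mp this

theorem exists_lift_poly₂ (g : K[X][X]) (h : ∀ i j, (g.coeff i).coeff j ∈ G.O) :
    ∃ g₀ : (↥G.O)[X][X], G.bcK g₀ = g := by
  have : g ∈ Polynomial.lifts (mapRingHom G.iO) := by
    rw [lifts_iff_coeff_lifts]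
    intro n
    obtain ⟨q₀, hq₀⟩ := G.exists_lift_poly (g.coeff n) (h n)
    exact ⟨q₀, hq₀⟩
  exact (mem_lifts g).mp this

/-- **GEN** over `O`: every element of `F` is `evF a / evF b`, `b ≠ 0` of degree `< d`. -/
theorem exists_quot (f : F) :
    ∃ a b : (↥G.O)[X][X], b ≠ 0 ∧ b.degree < (G.d : WithBot ℕ) ∧
      a.degree < (G.d : WithBot ℕ) ∧ f * G.evF b = G.evF a := by
  classical
  haveI := G.fin
  obtain ⟨g, q, hq, hfq⟩ := eis_gen G.hd G.cK G.cK0 G.cK1 G.transc G.hyK G.deg f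
  set s : Finset K :=
    (g.support.biUnion (fun i => (g.coeff i).support.image (fun j => (g.coeff i).coeff j))) ∪
      q.support.image (fun j => q.coeff j) with hs
  obtain ⟨b, hb0, hb⟩ := G.exists_int_multiple s
  have hg : ∀ i j, ((C (C (b : K)) * g).coeff i).coeff j ∈ G.O := by
    intro i j
    rw [coeff_C_mul, coeff_C_mul]
    by_cases hij : (g.coeff i).coeff j = 0
    · rw [hij, mul_zero]; exact zero_mem _
    · apply hb
      rw [hs]
      apply Finset.mem_union_left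
      rw [Finset.mem_biUnion]
      refine ⟨i, ?_, Finset.mem_image.mpr ⟨j, mem_support_iff.mpr hij, rfl⟩⟩
      rw [mem_support_iff]
      intro h
      rw [h, coeff_zero] at hij
      exact hij rfl
  have hq' : ∀ j, (C (b : K) * q).coeff j ∈ G.O := by
    intro j
    rw [coeff_C_mul]
    by_cases hj : q.coeff j = 0
    · rw [hj, mul_zero]; exact zero_mem _
    · apply hb
      rw [hs]
      apply Finset.mem_union_right
      exact Finset.mem_image.mpr ⟨j, mem_support_iff.mpr hj, rfl⟩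
  obtain ⟨g₀, hg₀⟩ := G.exists_lift_poly₂ _ hg
  obtain ⟨q₀, hq₀⟩ := G.exists_lift_poly _ hq'
  have hbK : (b : K) ≠ 0 := fun h => hb0 (Subtype.ext h)
  have hq₀0 : q₀ ≠ 0 := by
    intro h
    rw [h, Polynomial.map_zero] at hq₀
    exact mul_ne_zero (C_ne_zero.mpr hbK) hq hq₀.symm
  have hevq : G.evF (C q₀) = algebraMap K F (b : K) * aeval G.w q := by
    rw [G.evF_eq]
    unfold bcK
    rw [coe_mapRingHom, map_C, eval₂_C, coe_mapRingHom, hq₀, evE_apply, map_mul, aeval_C]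
  have hevg : G.evF g₀ = algebraMap K F (b : K) * g.eval₂ (evE G.w) G.θ := by
    rw [G.evF_eq, hg₀, eval₂_mul, eval₂_C, evE_apply, aeval_C]
  refine ⟨G.rem g₀, C q₀, C_ne_zero.mpr hq₀0, (degree_C_le).trans_lt G.d_pos', G.rem_degree g₀, ?_⟩
  rw [G.evF_rem, hevq, hevg, ← hfq]
  ring

/-! ### The valuation ring -/

/-- The carrier of `V`. -/
def Vset : Set F := {f | ∃ a b : (↥G.O)[X][X], G.evD b ≠ 0 ∧ f * G.evF b = G.evF a}

theorem evF_mem (g : (↥G.O)[X][X]) : G.evF g ∈ G.Vset :=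
  ⟨g, 1, by rw [map_one]; exact one_ne_zero, by rw [map_one, mul_one]⟩

theorem mul_mem_Vset {f₁ f₂ : F} (h₁ : f₁ ∈ G.Vset) (h₂ : f₂ ∈ G.Vset) : f₁ * f₂ ∈ G.Vset := by
  obtain ⟨a₁, b₁, hb₁, e₁⟩ := h₁
  obtain ⟨a₂, b₂, hb₂, e₂⟩ := h₂
  refine ⟨a₁ * a₂, b₁ * b₂, ?_, ?_⟩
  · rw [map_mul]; exact mul_ne_zero hb₁ hb₂
  · rw [map_mul, map_mul, ← e₁, ← e₂]; ring

theorem add_mem_Vset {f₁ f₂ : F} (h₁ : f₁ ∈ G.Vset) (h₂ : f₂ ∈ G.Vset) : f₁ + f₂ ∈ G.Vset := by
  obtain ⟨a₁, b₁, hb₁, e₁⟩ := h₁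
  obtain ⟨a₂, b₂, hb₂, e₂⟩ := h₂
  refine ⟨a₁ * b₂ + a₂ * b₁, b₁ * b₂, ?_, ?_⟩
  · rw [map_mul]; exact mul_ne_zero hb₁ hb₂
  · rw [map_add, map_mul, map_mul, map_mul, ← e₁, ← e₂]; ring

theorem neg_mem_Vset {f : F} (h : f ∈ G.Vset) : -f ∈ G.Vset := by
  obtain ⟨a, b, hb, e⟩ := h
  refine ⟨-a, b, hb, ?_⟩
  have : G.evF (-a) = -G.evF a := map_neg G.evF a
  rw [this, ← e]; ring

/-- Decomposition of a nonzero element: `f · c_b · evF b₁ = c_a · evF a₁` with `a₁, b₁` primitive. -/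
theorem exists_decomp (f : F) (hf : f ≠ 0) :
    ∃ (ca cb : ↥G.O) (a₁ b₁ : (↥G.O)[X][X]), ca ≠ 0 ∧ cb ≠ 0 ∧ G.evD a₁ ≠ 0 ∧ G.evD b₁ ≠ 0 ∧
      f * (algebraMap K F (cb : K) * G.evF b₁) = algebraMap K F (ca : K) * G.evF a₁ := by
  obtain ⟨a, b, hb0, hbd, had, hab⟩ := G.exists_quot f
  have hevb : G.evF b ≠ 0 := fun h => hb0 (G.evF_inj b hbd h)
  have ha0 : a ≠ 0 := by
    intro h
    rw [h, map_zero] at hab
    exact (mul_ne_zero hf hevb) hab
  obtain ⟨ca, a₁, hca, ha₁, hda⟩ := G.exists_scale a ha0 had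
  obtain ⟨cb, b₁, hcb, hb₁, hdb⟩ := G.exists_scale b hb0 hbd
  refine ⟨ca, cb, a₁, b₁, hca, hcb, hda, hdb, ?_⟩
  rw [← G.evF_CC, ← G.evF_CC, ← map_mul, ← map_mul, ← ha₁, ← hb₁]
  exact hab

theorem mem_or_inv_mem_Vset (f : F) : f ∈ G.Vset ∨ f⁻¹ ∈ G.Vset := by
  by_cases hf : f = 0
  · left
    rw [hf, ← map_zero G.evF]
    exact G.evF_mem 0
  obtain ⟨ca, cb, a₁, b₁, hca, hcb, hda, hdb, h⟩ := G.exists_decomp f hf
  rcases ValuationRing.dvd_total cb ca with ⟨e, he⟩ | ⟨e, he⟩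
  · left
    refine ⟨G.CC e * a₁, b₁, hdb, ?_⟩
    have hcbF : algebraMap K F (cb : K) ≠ 0 := by
      rw [Ne, map_eq_zero]
      exact fun h => hcb (Subtype.ext h)
    apply mul_left_cancel₀ hcbF
    rw [map_mul, G.evF_CC]
    have : (ca : K) = (cb : K) * (e : K) := by rw [he]; rfl
    rw [this, map_mul] at h
    rw [← mul_assoc, ← mul_assoc, ← h]
    ring
  · right
    refine ⟨G.CC e * b₁, a₁, hda, ?_⟩
    have hcaF : algebraMap K F (ca : K) ≠ 0 := by
      rw [Ne, map_eq_zero]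
      exact fun h => hca (Subtype.ext h)
    have heva : G.evF a₁ ≠ 0 := G.evF_ne_zero a₁ hda
    have : (cb : K) = (ca : K) * (e : K) := by rw [he]; rfl
    rw [this, map_mul] at h
    rw [map_mul, G.evF_CC]
    apply mul_left_cancel₀ hcaF
    apply mul_left_cancel₀ hf
    rw [← mul_assoc, ← mul_assoc, mul_comm f, mul_assoc _ f, mul_inv_cancel₀ hf, mul_one, ← h]
    ring

/-- The Gauss valuation ring of `F`. -/
def V : ValuationSubring F where
  carrier := G.Vset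
  mul_mem' := G.mul_mem_Vset
  one_mem' := by rw [← map_one G.evF]; exact G.evF_mem 1
  add_mem' := G.add_mem_Vset
  zero_mem' := by rw [← map_zero G.evF]; exact G.evF_mem 0
  neg_mem' := G.neg_mem_Vset
  mem_or_inv_mem' := G.mem_or_inv_mem_Vset

theorem mem_V_iff (f : F) :
    f ∈ G.V ↔ ∃ a b : (↥G.O)[X][X], G.evD b ≠ 0 ∧ f * G.evF b = G.evF a := Iff.rfl

theorem evF_mem_V (g : (↥G.O)[X][X]) : G.evF g ∈ G.V := G.evF_mem g

/-! ### `V ∩ K = O` and the scale property -/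

theorem algebraMap_mem_V_iff (c : K) : algebraMap K F c ∈ G.V ↔ c ∈ G.O := by
  constructor
  · intro h
    by_contra hc
    obtain ⟨a, b, hb, hab⟩ := (G.mem_V_iff _).mp h
    have hc0 : c ≠ 0 := fun h0 => hc (by rw [h0]; exact zero_mem _)
    have hcinv : c⁻¹ ∈ G.O := (G.O.mem_or_inv_mem c).resolve_left hc
    set e : ↥G.O := ⟨c⁻¹, hcinv⟩ with he
    have hnu : ¬ IsUnit e := by
      intro hu
      obtain ⟨u, hu⟩ := hu
      apply hc
      have h' : (u : ↥G.O) * ((u⁻¹ : (↥G.O)ˣ) : ↥G.O) = 1 := u.mul_inv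
      rw [hu] at h'
      have h2 : c⁻¹ * (((u⁻¹ : (↥G.O)ˣ) : ↥G.O) : K) = 1 := congrArg Subtype.val h'
      have h1 : (((u⁻¹ : (↥G.O)ˣ) : ↥G.O) : K) = c := by
        rw [← inv_eq_of_mul_eq_one_right h2, inv_inv]
      rw [← h1]
      exact ((u⁻¹ : (↥G.O)ˣ) : ↥G.O).2
    -- `evF b = evF (CC e * a)`
    have h1 : G.evF (G.rem b) = G.evF (G.rem (G.CC e * a)) := by
      rw [G.evF_rem, G.evF_rem, map_mul, G.evF_CC, ← hab]
      change G.evF b = algebraMap K F c⁻¹ * _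
      rw [← mul_assoc, ← map_mul, inv_mul_cancel₀ hc0, map_one, one_mul]
    have h2 := G.evD_eq_of_evF_eq _ _ h1
    rw [G.evD_rem, G.evD_rem, map_mul, (G.evD_CC_eq_zero_iff e).mpr hnu, zero_mul] at h2
    exact hb h2
  · intro h
    have := G.evF_mem_V (G.CC ⟨c, h⟩)
    rw [G.evF_CC] at this
    exact this

theorem comap_V : G.V.comap (algebraMap K F) = G.O := by
  ext c
  rw [ValuationSubring.mem_comap]
  exact G.algebraMap_mem_V_iff c

/-- Units of `V` among the values of `evF`. -/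
theorem evF_inv_mem_V (g : (↥G.O)[X][X]) (h : G.evD g ≠ 0) : (G.evF g)⁻¹ ∈ G.V := by
  refine (G.mem_V_iff _).mpr ⟨1, g, h, ?_⟩
  rw [map_one, inv_mul_cancel₀ (G.evF_ne_zero g h)]

theorem evD_ne_zero_of_inv_mem (g : (↥G.O)[X][X]) (h0 : G.evF g ≠ 0) (h : (G.evF g)⁻¹ ∈ G.V) :
    G.evD g ≠ 0 := by
  obtain ⟨a, b, hb, hab⟩ := (G.mem_V_iff _).mp h
  intro hg
  have h1 : G.evF b = G.evF (a * g) := by
    rw [map_mul, ← hab, mul_comm _ (G.evF b), mul_assoc, inv_mul_cancel₀ h0, mul_one]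
  have h2 := G.evD_eq_of_evF_eq _ _ h1
  rw [map_mul, hg, mul_zero] at h2
  exact hb h2

/-- The scale property. -/
theorem scale_V (f : F) (hf : f ≠ 0) :
    ∃ c : K, c ≠ 0 ∧ ∃ u : (↥G.V)ˣ, f = algebraMap K F c * ((u : ↥G.V) : F) := by
  obtain ⟨ca, cb, a₁, b₁, hca, hcb, hda, hdb, h⟩ := G.exists_decomp f hf
  have hcaK : (ca : K) ≠ 0 := fun h => hca (Subtype.ext h)
  have hcbK : (cb : K) ≠ 0 := fun h => hcb (Subtype.ext h)
  have heva : G.evF a₁ ≠ 0 := G.evF_ne_zero a₁ hda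
  have hevb : G.evF b₁ ≠ 0 := G.evF_ne_zero b₁ hdb
  have hu1 : G.evF a₁ * (G.evF b₁)⁻¹ ∈ G.V :=
    G.V.mul_mem _ _ (G.evF_mem_V a₁) (G.evF_inv_mem_V b₁ hdb)
  have hu2 : G.evF b₁ * (G.evF a₁)⁻¹ ∈ G.V :=
    G.V.mul_mem _ _ (G.evF_mem_V b₁) (G.evF_inv_mem_V a₁ hda)
  refine ⟨(ca : K) * (cb : K)⁻¹, mul_ne_zero hcaK (inv_ne_zero hcbK),
    ⟨⟨_, hu1⟩, ⟨_, hu2⟩, ?_, ?_⟩, ?_⟩
  · apply Subtype.ext
    change G.evF a₁ * (G.evF b₁)⁻¹ * (G.evF b₁ * (G.evF a₁)⁻¹) = 1
    field_simp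
  · apply Subtype.ext
    change G.evF b₁ * (G.evF a₁)⁻¹ * (G.evF a₁ * (G.evF b₁)⁻¹) = 1
    field_simp
  · change f = algebraMap K F ((ca : K) * (cb : K)⁻¹) * (G.evF a₁ * (G.evF b₁)⁻¹)
    have hcbF : algebraMap K F (cb : K) ≠ 0 := by rw [Ne, map_eq_zero]; exact hcbK
    rw [map_mul, map_inv₀]
    field_simp
    rw [← h]
    ring

/-! ### The residue field -/

/-- The residue field of `V`. -/
abbrev Ft : Type v := ResidueField ↥G.V

/-- `evF` as a map into `V`. -/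
def evV : (↥G.O)[X][X] →+* ↥G.V := G.evF.codRestrict G.V (fun g => G.evF_mem_V g)

theorem coe_evV (g : (↥G.O)[X][X]) : ((G.evV g : ↥G.V) : F) = G.evF g := rfl

theorem isUnit_evV_iff (g : (↥G.O)[X][X]) : IsUnit (G.evV g) ↔ G.evD g ≠ 0 := by
  constructor
  · rintro ⟨u, hu⟩
    have h1 : ((u : ↥G.V) : F) * (((u⁻¹ : (↥G.V)ˣ) : ↥G.V) : F) = 1 :=
      congrArg Subtype.val u.mul_inv
    rw [hu, G.coe_evV] at h1
    have h0 : G.evF g ≠ 0 := fun h => by rw [h, zero_mul] at h1; exact zero_ne_one h1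
    refine G.evD_ne_zero_of_inv_mem g h0 ?_
    rw [inv_eq_of_mul_eq_one_right h1]
    exact ((u⁻¹ : (↥G.V)ˣ) : ↥G.V).2
  · intro h
    have h0 := G.evF_ne_zero g h
    refine ⟨⟨G.evV g, ⟨(G.evF g)⁻¹, G.evF_inv_mem_V g h⟩, ?_, ?_⟩, rfl⟩
    · apply Subtype.ext
      change G.evF g * (G.evF g)⁻¹ = 1
      exact mul_inv_cancel₀ h0
    · apply Subtype.ext
      change (G.evF g)⁻¹ * G.evF g = 1
      exact inv_mul_cancel₀ h0

/-- The reduction `A₂ → Ft`. -/
def redA : (↥G.O)[X][X] →+* G.Ft := (residue ↥G.V).comp G.evV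

theorem redA_eq_zero_iff (g : (↥G.O)[X][X]) : G.redA g = 0 ↔ G.evD g = 0 := by
  unfold redA
  rw [RingHom.comp_apply, residue_eq_zero_iff, mem_maximalIdeal, mem_nonunits_iff,
    G.isUnit_evV_iff, not_not]

/-- `O → V`. -/
def oV : ↥G.O →+* ↥G.V := G.evV.comp ((C : (↥G.O)[X] →+* (↥G.O)[X][X]).comp C)

theorem oV_apply (c : ↥G.O) : G.oV c = G.evV (G.CC c) := rfl

theorem coe_oV (c : ↥G.O) : ((G.oV c : ↥G.V) : F) = algebraMap K F (c : K) := by
  rw [G.oV_apply, G.coe_evV, G.evF_CC]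

instance instAlgebraOV : Algebra ↥G.O ↥G.V := G.oV.toAlgebra

theorem algebraMap_OV (c : ↥G.O) : algebraMap ↥G.O ↥G.V c = G.oV c := rfl

instance instIsLocalHomOV : IsLocalHom (algebraMap ↥G.O ↥G.V) where
  map_nonunit c hc := by
    rw [G.algebraMap_OV, G.oV_apply, G.isUnit_evV_iff] at hc
    by_contra h
    exact hc ((G.evD_CC_eq_zero_iff c).mpr h)

theorem algebraMap_res (c : ↥G.O) :
    algebraMap G.k G.Ft (G.res c) = G.redA (G.CC c) := rfl

/-- The reduction of `w`. -/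
def wt : G.Ft := G.redA (C X)

/-- The reduction of `θ`. -/
def θt : G.Ft := G.redA X

/-- `redA` is reduction of coefficients followed by evaluation at `(wt, θt)`. -/
theorem redA_eq (g : (↥G.O)[X][X]) : G.redA g = (G.redP g).eval₂ (evE G.wt) G.θt := by
  have h : G.redA = (eval₂RingHom (evE (L := G.k) G.wt) G.θt).comp G.redP := by
    refine Polynomial.ringHom_ext (fun a => ?_) ?_
    · have h2 : G.redA.comp C = ((eval₂RingHom (evE (L := G.k) G.wt) G.θt).comp G.redP).comp C := by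
        refine Polynomial.ringHom_ext (fun c => ?_) ?_
        · simp only [RingHom.comp_apply, redP, coe_mapRingHom, map_C, coe_eval₂RingHom, eval₂_C,
            evE_apply, aeval_C]
          exact (G.algebraMap_res c).symm
        · simp only [RingHom.comp_apply, redP, coe_mapRingHom, map_C, map_X, coe_eval₂RingHom,
            eval₂_C, evE_apply, aeval_X]
          rfl
      exact congrArg (fun φ : (↥G.O)[X] →+* G.Ft => φ a) h2
    · simp only [RingHom.comp_apply, redP, coe_mapRingHom, map_X, coe_eval₂RingHom, eval₂_X]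
      rfl
  rw [h]
  rfl

theorem wt_transcendental : Transcendental G.k G.wt := by
  rw [transcendental_iff_injective, injective_iff_map_eq_zero]
  intro pt hpt
  obtain ⟨p, hp⟩ := Polynomial.map_surjective G.res G.res_surjective pt
  have h1 : G.redA (C p) = 0 := by
    rw [G.redA_eq]
    unfold redP
    rw [coe_mapRingHom, map_C, eval₂_C, coe_mapRingHom, hp, evE_apply]
    exact hpt
  have h2 := (G.redA_eq_zero_iff _).mp h1
  have h3 := (G.evD_eq_zero_iff (C p) ((degree_C_le).trans_lt G.d_pos')).mp h2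
  unfold redP at h3
  rw [coe_mapRingHom, map_C, coe_mapRingHom, hp, C_eq_zero] at h3
  exact h3

theorem hyk : (eisP G.d G.ck).eval₂ (evE G.wt) G.θt = 0 := by
  rw [← G.redP_P, ← G.redA_eq, G.redA_eq_zero_iff, G.evD_P]

theorem hgenk (z : G.Ft) : ∃ a b : G.k[X][X], b.eval₂ (evE G.wt) G.θt ≠ 0 ∧
    z * b.eval₂ (evE G.wt) G.θt = a.eval₂ (evE G.wt) G.θt := by
  obtain ⟨v, rfl⟩ := residue_surjective z
  obtain ⟨a, b, hb, hab⟩ := (G.mem_V_iff _).mp v.2
  refine ⟨G.redP a, G.redP b, ?_, ?_⟩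
  · rw [← G.redA_eq, Ne, G.redA_eq_zero_iff]
    exact hb
  · rw [← G.redA_eq, ← G.redA_eq]
    have h1 : v * G.evV b = G.evV a := Subtype.ext hab
    have h2 := congrArg (residue ↥G.V) h1
    rw [map_mul] at h2
    exact h2

theorem adjoin_top : G.k⟮G.wt⟯⟮G.θt⟯ = ⊤ :=
  eis_adjoin_eq_top G.hd G.ck G.ck0 G.ck1 G.wt_transcendental G.hyk G.hgenk

theorem finite_Ft : Module.Finite G.k⟮G.wt⟯ G.Ft :=
  eis_finite_of_top G.hd G.ck G.ck0 G.ck1 G.wt_transcendental G.hyk G.adjoin_top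

theorem finrank_Ft : Module.finrank G.k⟮G.wt⟯ G.Ft = G.d :=
  eis_finrank_of_top G.hd G.ck G.ck0 G.ck1 G.wt_transcendental G.hyk G.adjoin_top

theorem separable_Ft (hdk : (G.d : G.k) ≠ 0) : Algebra.IsSeparable G.k⟮G.wt⟯ G.Ft :=
  eis_sep_of_top G.hd G.ck G.ck0 G.ck1 G.wt_transcendental G.hyk G.adjoin_top hdk

theorem w_eq : G.w = G.evF (C X) := by
  unfold evF
  simp

theorem w_mem_V : G.w ∈ G.V := by
  rw [G.w_eq]
  exact G.evF_mem_V _

theorem evD_CX_ne_zero : G.evD (C X) ≠ 0 := by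
  rw [Ne, G.evD_eq_zero_iff (C X) ((degree_C_le).trans_lt G.d_pos')]
  unfold redP
  rw [coe_mapRingHom, map_C, coe_mapRingHom, map_X, C_eq_zero]
  exact X_ne_zero

theorem w_inv_mem_V : G.w⁻¹ ∈ G.V := by
  rw [G.w_eq]
  exact G.evF_inv_mem_V _ G.evD_CX_ne_zero

theorem residue_w : residue ↥G.V ⟨G.w, G.w_mem_V⟩ = G.wt := by
  unfold wt redA
  rw [RingHom.comp_apply]
  congr 1
  apply Subtype.ext
  rw [G.coe_evV]
  exact G.w_eq

end GData

end Fermat.Agent.S27.Char0.H64
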