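import Fermat.Agent.S27.Char0.RedExDefs
import Fermat.Agent.S27.Char0.H64_GaussRing

/-!
# S27 / RED-EX, leaf GaussExt (helper64), part 3: `Stmt_GaussExt`

From an Eisenstein model `M` and a good valuation ring `O`: `θ' := b(w) θ` is a root of the monic
Eisenstein polynomial `T^d + Σ w a_i(w) b(w)^(d-1-i) T^i` over `O[w]`; the Gauss ring of
`H64_GaussRing.lean` gives the reduction setting.
-/

set_option autoImplicit false
set_option linter.unusedSectionVars false
set_option linter.style.haveILetI false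

noncomputable section

namespace Fermat.Agent.S27.Char0.H64

open Polynomial IntermediateField IsLocalRing AlgebraicCurve

universe u v

namespace GData

variable {K : Type u} {F : Type v} [Field K] [Field F] [Algebra K F] (G : GData K F)

/-- `V ∩ K → O`. -/
def toO : ↥(G.V.comap (algebraMap K F)) →+* ↥G.O :=
  (G.V.comap (algebraMap K F)).subtype.codRestrict G.O
    (fun a => (G.algebraMap_mem_V_iff _).mp a.2)

theorem coe_toO (a : ↥(G.V.comap (algebraMap K F))) : ((G.toO a : ↥G.O) : K) = (a : K) := rfl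

/-- The reduction setting of the Gauss ring. -/
def redSetting : REDu.H34.RedSetting K F G.k G.Ft where
  V := G.V
  red := residue ↥G.V
  red_surj := residue_surjective
  resO := G.res.comp G.toO
  resO_surj := by
    intro z
    obtain ⟨c, rfl⟩ := G.res_surjective z
    exact ⟨⟨(c : K), (G.algebraMap_mem_V_iff _).mpr c.2⟩, rfl⟩
  red_algebraMap := by
    intro a
    rw [RingHom.comp_apply, G.algebraMap_res]
    unfold redA
    rw [RingHom.comp_apply]
    congr 1
    apply Subtype.ext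
    rw [G.coe_evV, G.evF_CC, G.coe_toO]
  scale := G.scale_V

theorem redSetting_V : G.redSetting.V = G.V := rfl

theorem aux_of_eq (x : G.Ft) (hx : x = G.wt) (hdk : (G.d : G.k) ≠ 0) :
    Transcendental G.k x ∧ Module.Finite G.k⟮x⟯ G.Ft ∧ Module.finrank G.k⟮x⟯ G.Ft = G.d ∧
      Algebra.IsSeparable G.k⟮x⟯ G.Ft := by
  subst hx
  exact ⟨G.wt_transcendental, G.finite_Ft, G.finrank_Ft, G.separable_Ft hdk⟩

/-- The conclusion of `Stmt_GaussExt` for a `GData`. -/
theorem gaussExt (hdk : (G.d : G.k) ≠ 0) :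
    ∃ (k : Type u) (Ft : Type v) (_ : Field k) (_ : Field Ft) (_ : Algebra k Ft)
      (S : REDu.H34.RedSetting K F k Ft) (hw : G.w ∈ S.V) (_ : G.w⁻¹ ∈ S.V),
      S.V.comap (algebraMap K F) = G.O ∧
      Transcendental k (S.red ⟨G.w, hw⟩) ∧
      Module.Finite k⟮S.red ⟨G.w, hw⟩⟯ Ft ∧
      Module.finrank k⟮S.red ⟨G.w, hw⟩⟯ Ft = G.d ∧
      Algebra.IsSeparable k⟮S.red ⟨G.w, hw⟩⟯ Ft := by
  obtain ⟨h1, h2, h3, h4⟩ := G.aux_of_eq (residue ↥G.V ⟨G.w, G.w_mem_V⟩) G.residue_w hdk
  exact ⟨G.k, G.Ft, inferInstance, inferInstance, inferInstance, G.redSetting, G.w_mem_V,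
    G.w_inv_mem_V, G.comap_V, h1, h2, h3, h4⟩

end GData

section Model

variable {K : Type u} {F : Type v} [Field K] [Field F] [Algebra K F]

theorem exists_lift_polyO (O : ValuationSubring K) (q : K[X]) (h : ∀ j, q.coeff j ∈ O) :
    ∃ q₀ : (↥O)[X], q₀.map O.subtype = q := by
  have : q ∈ Polynomial.lifts O.subtype := by
    rw [lifts_iff_coeff_lifts]
    intro n
    exact ⟨⟨q.coeff n, h n⟩, rfl⟩
  exact (mem_lifts q).mp this

theorem isUnit_of_inv_mem (O : ValuationSubring K) (a : ↥O) (h0 : (a : K) ≠ 0)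
    (h : (a : K)⁻¹ ∈ O) : IsUnit a := by
  refine ⟨⟨a, ⟨(a : K)⁻¹, h⟩, ?_, ?_⟩, rfl⟩
  · apply Subtype.ext
    change (a : K) * (a : K)⁻¹ = 1
    exact mul_inv_cancel₀ h0
  · apply Subtype.ext
    change (a : K)⁻¹ * (a : K) = 1
    exact inv_mul_cancel₀ h0

theorem eval₂_comp_subtype (O : ValuationSubring K) (w : F) (p : (↥O)[X]) :
    p.eval₂ ((algebraMap K F).comp O.subtype) w = aeval w (p.map O.subtype) := by
  rw [aeval_def, eval₂_map]

variable (M : EisModel K F) (O : ValuationSubring K)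

theorem eisModel_d_pos : 0 < M.d := by
  haveI := M.fin
  rw [← M.deg]
  exact Module.finrank_pos

/-- The `GData` of an Eisenstein model and a good valuation ring. -/
theorem exists_gdata (hG : M.Good O) :
    ∃ G : GData K F, G.O = O ∧ G.w = M.w ∧ G.d = M.d := by
  classical
  have hd := eisModel_d_pos M
  choose a' ha' using fun i : Fin M.d => exists_lift_polyO O (M.a i) (hG.coeff_a i)
  obtain ⟨b', hb'⟩ := exists_lift_polyO O M.b hG.coeff_b
  set B : F := aeval M.w M.b with hB
  have hc : ∀ i : Fin M.d,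
      (X * a' i * b' ^ (M.d - 1 - (i : ℕ))).eval₂ ((algebraMap K F).comp O.subtype) M.w =
        M.w * aeval M.w (M.a i) * B ^ (M.d - 1 - (i : ℕ)) := by
    intro i
    rw [eval₂_comp_subtype, Polynomial.map_mul, Polynomial.map_mul, Polynomial.map_pow, map_X,
      ha', hb', map_mul, map_mul, map_pow, aeval_X]
  refine ⟨{ O := O
            w := M.w
            θ := B * M.θ
            d := M.d
            hd := hd
            c := fun i => X * a' i * b' ^ (M.d - 1 - (i : ℕ))
            c0 := ?_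
            c1 := ?_
            rel := ?_
            transc := M.transc
            fin := M.fin
            deg := M.deg }, rfl, rfl, rfl⟩
  · intro i
    rw [mul_assoc, coeff_X_mul_zero]
  · have h1 : (X * a' ⟨0, hd⟩ * b' ^ (M.d - 1 - ((⟨0, hd⟩ : Fin M.d) : ℕ))).coeff 1 =
        (a' ⟨0, hd⟩).coeff 0 * (b'.coeff 0) ^ (M.d - 1) := by
      rw [mul_assoc, coeff_X_mul, mul_coeff_zero, coeff_zero_eq_eval_zero (b' ^ _), eval_pow,
        ← coeff_zero_eq_eval_zero]
      simp
    rw [h1]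
    refine IsUnit.mul ?_ (IsUnit.pow _ ?_)
    · have e : (((a' ⟨0, hd⟩).coeff 0 : ↥O) : K) = (M.a ⟨0, hd⟩).eval 0 := by
        rw [← coeff_zero_eq_eval_zero, ← ha' ⟨0, hd⟩, coeff_map]
        rfl
      refine isUnit_of_inv_mem O _ ?_ ?_
      · rw [e]; exact M.ha hd
      · rw [e]; exact hG.unit_a hd
    · have e : ((b'.coeff 0 : ↥O) : K) = M.b.eval 0 := by
        rw [← coeff_zero_eq_eval_zero, ← hb', coeff_map]
        rfl
      refine isUnit_of_inv_mem O _ ?_ ?_
      · rw [e]; exact M.hb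
      · rw [e]; exact hG.unit_b
  · simp only [hc]
    have hrel := M.rel
    rw [← hB] at hrel
    have h2 : ∀ i : Fin M.d, M.w * aeval M.w (M.a i) * B ^ (M.d - 1 - (i : ℕ)) *
        (B * M.θ) ^ (i : ℕ) = B ^ (M.d - 1) * (M.w * aeval M.w (M.a i) * M.θ ^ (i : ℕ)) := by
      intro i
      have hi : M.d - 1 - (i : ℕ) + (i : ℕ) = M.d - 1 := by
        have := i.2
        omega
      have hB' : B ^ (M.d - 1) = B ^ (M.d - 1 - (i : ℕ)) * B ^ (i : ℕ) := by
        rw [← pow_add, hi]
      rw [mul_pow, hB']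
      ring
    have h3 : (B * M.θ) ^ M.d = B ^ (M.d - 1) * (B * M.θ ^ M.d) := by
      have hB'' : B ^ M.d = B ^ (M.d - 1) * B := by
        rw [← pow_succ, Nat.sub_add_cancel hd]
      rw [mul_pow, hB'']
      ring
    rw [h3, Finset.sum_congr rfl (fun i _ => h2 i), ← Finset.mul_sum, ← mul_add, hrel, mul_zero]

theorem natCast_res_ne_zero (G : GData K F) (n : ℕ) (h0 : (n : K) ≠ 0) (h : ((n : K))⁻¹ ∈ G.O) :
    (n : G.k) ≠ 0 := by
  have h1 : (n : G.k) = G.res (n : ↥G.O) := (map_natCast G.res n).symm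
  rw [h1, Ne, G.res_eq_zero_iff, not_not]
  have e : (((n : ↥G.O) : ↥G.O) : K) = (n : K) := by
    simp
  refine isUnit_of_inv_mem G.O _ ?_ ?_
  · rw [e]; exact h0
  · rw [e]; exact h

/-- **GAUSS-EXT**. -/
theorem stmt_GaussExt : Stmt_GaussExt.{u, v} := by
  intro K F _ _ _ _ _ M O hG _
  obtain ⟨G, hO, hw, hd⟩ := exists_gdata M O hG
  have hd0 : (M.d : K) ≠ 0 := by
    have := eisModel_d_pos M
    exact_mod_cast this.ne'
  have hdk : (G.d : G.k) ≠ 0 := by
    refine natCast_res_ne_zero G G.d ?_ ?_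
    · rw [hd]; exact hd0
    · rw [hd, hO]; exact hG.unit_d
  have := G.gaussExt hdk
  rw [hO, hw, hd] at this
  exact this

end Model

end Fermat.Agent.S27.Char0.H64
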