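import Fermat.Agent.S27.Char0.H20_Wire
import Fermat.Agent.S27.Char0.H20_RedExAsm
import Fermat.Agent.S27.Char0.H20_Bridge
import Fermat.Agent.S27.Char0.H20_FFX
import Fermat.Agent.S27.Char0.H20_EisEx
import Fermat.Agent.S27.Char0.H64_GaussExt
import Fermat.Agent.S27.Char0.Lift.H45_Final

/-!
# S27 char-0 half: the frozen statement from the last open leaves (helper20)
-/

set_option autoImplicit false

noncomputable section

open AlgebraicCurve IntermediateField

namespace Fermat.Agent.S27.Char0.H20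

universe u v

/-- **S27** from the leaves BRANCH-FIN, VAL, SOLVE and COUNT-P. -/
theorem s27_of_leaves (hBr : Stmt_BranchFin.{u, v}) (hVal : Stmt_VAL.{u})
    (hSolve : Lift.Stmt_Solve.{u, v, u, v}) (hCount : Stmt_CountPu.{u, v})
    (K : Type u) (F : Type v) [Field K] [Field F] [Algebra K F] [IsAlgClosed K] [CharZero K]
    [IsCurveOver K F] [Algebra.EssFiniteType K F]
    (ℓ : ℕ) [Fact ℓ.Prime] (j : ℕ) :
    Nat.card (Pic0.torsion K F (ℓ ^ j)) = ℓ ^ (2 * genusFF K F * j) :=
  s27_of stmt_FFX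
    (redex_of stmt_EisEx hBr hVal Fermat.Agent.S27.Char0.H64.stmt_GaussExt stmt_Bridge)
    (Lift.H45.stmt_LIFT_of_solve hSolve) hCount K F ℓ j

end Fermat.Agent.S27.Char0.H20
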