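import Mathlib
import Fermat.Agent.S27.Char0.Defs
import Fermat.Agent.S27.RR.H52_H1

/-!
# S27, characteristic-0 half, package TI-PIC (helper52)

For abstract reduction data `S : RedSetup K F k Ft` (helper17) between function fields with
`FFHyp`:

* `stmt_DegPush` : the push-forward of divisors preserves the degree;
* `stmt_GenusEq` : the two Riemann genera agree if the genus does not drop;
* `principal_of_torsion` : a divisor `D` with `m D` principal and `r_* D` principal is principal
  (`m` invertible in `k`) -- from `RedSetup.ticore`;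
* `stmt_TIPic` : `r_*` induces a surjective homomorphism `Pic0 F → Pic0 Ft`, injective on the
  torsion prime to the residue characteristic;
* `stmt_GFF` : the genus of the prelude is Riemann's genus.
-/

set_option autoImplicit false
set_option linter.style.haveILetI false
set_option linter.unusedSectionVars false

noncomputable section

open AlgebraicCurve

attribute [local instance] Classical.propDecidable

namespace Fermat.Agent.S27.Char0.H52

open Fermat.Agent.RED Fermat.Agent.RED.H17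

local notation "L" => riemannRochSpace

universe u v u' v'

/-- **GFF**. -/
theorem stmt_GFF : Stmt_GFF.{u, v} := fun _ _ _ _ _ _ H _ _ hg =>
  Fermat.Agent.S27.RR.H52.genusFF_eq H hg

/-- **DEG-PUSH**. -/
theorem stmt_DegPush : Stmt_DegPush.{u, v, u', v'} := fun _ _ _ _ _ _ _ _ _ _ S H H' D =>
  degree_mapDomain H.deg_one H'.deg_one S.r D

section

variable {K : Type u} {F : Type v} {k : Type u'} {Ft : Type v'} [Field K] [Field F]
  [Algebra K F] [Field k] [Field Ft] [Algebra k Ft]

/-- The genus does not drop (the other inequality is `RedSetup.genus_le`). -/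
theorem genus_ge (S : RedSetup K F k Ft) (H : FFHyp K F) (H' : FFHyp k Ft) [Infinite k] {g : ℕ} {c : ℤ}
    (hR : IsGenus K F g c) {g' : ℕ} {c' : ℤ} (hR' : IsGenus k Ft g' c') : g' ≤ g := by
  obtain ⟨P₀⟩ := Fermat.Agent.S27.RR.H52.exists_place H
  set N : ℕ := (max c c').toNat with hN
  set D : Divisor K F := Finsupp.single P₀ (N : ℤ) with hD
  have hdeg : Divisor.degree D = N := by
    rw [hD, Divisor.degree_single, H.deg_one, Nat.cast_one, mul_one]
  have h1 := (hR D).2 (by rw [hdeg]; omega)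
  have h2 := (hR' (Finsupp.mapDomain S.r D)).2 (by
    rw [degree_mapDomain H.deg_one H'.deg_one, hdeg]; omega)
  rw [degree_mapDomain H.deg_one H'.deg_one] at h2
  rw [hdeg] at h1 h2
  have h3 := S.le_finrank_Rsub H H' _ D rfl
  haveI : Module.Finite k (L (Finsupp.mapDomain S.r D)) := H'.finite _
  have h4 := Submodule.finrank_mono (S.Rsub_le H.principal D)
  have h5 : (Module.finrank K (L D) : ℤ) ≤ Module.finrank k (L (Finsupp.mapDomain S.r D)) := by
    exact_mod_cast h3.trans h4
  omega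

/-- **A torsion divisor class with trivial reduction is trivial** (divisor form). -/
theorem principal_of_torsion (S : RedSetup K F k Ft) (H : FFHyp K F) (H' : FFHyp k Ft) [IsAlgClosed K] [Infinite k]
    {g : ℕ} {c : ℤ} (hR : IsGenus K F g c) {g' : ℕ} {c' : ℤ} (hR' : IsGenus k Ft g' c')
    (hG : S.GenusLE') (m : ℕ) (hm : (m : k) ≠ 0) (D : Divisor K F)
    (hD : (m : ℤ) • D ∈ Divisor.principal (K := K) (F := F))
    (hrD : Finsupp.mapDomain S.r D ∈ Divisor.principal (K := k) (F := Ft)) :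
    D ∈ Divisor.principal (K := K) (F := F) := by
  have hP := H.principal
  have hm0 : m ≠ 0 := by
    rintro rfl
    exact hm Nat.cast_zero
  have hmZ : (m : ℤ) ≠ 0 := by exact_mod_cast hm0
  obtain ⟨f, hf0, hf⟩ := hD
  obtain ⟨h', hh'0, hh'⟩ := hrD
  obtain ⟨h, hhV, hrd⟩ := S.exists_rd_eq h'
  have hGU : S.IsGU h := ⟨hhV, by rw [hrd]; exact hh'0⟩
  have hh0 : h ≠ 0 := hGU.ne_zero
  have hf1 : f / h ^ m ≠ 0 := div_ne_zero hf0 (pow_ne_zero _ hh0)
  obtain ⟨c₁, hc₁, huGU⟩ := S.exists_isGU_scale hf1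
  set u : F := algebraMap K F c₁ * (f / h ^ m) with hu
  have hord_u : ∀ P : Place K F, P.ord u = (m : ℤ) * (D P - P.ord h) := by
    intro P
    rw [hu, ord_algebraMap_mul P hc₁, H17.ord_div P hf0 (pow_ne_zero _ hh0), H17.ord_pow, ← hf P,
      Finsupp.smul_apply, smul_eq_mul]
    ring
  -- the reduction of `u` has no zeros and no poles
  have hrdu : ∀ Q : Place k Ft, Q.ord (S.rd u) = 0 := by
    intro Q
    have e1 : dv hP u = (m : ℤ) • (D - dv hP h) := by
      ext P
      rw [dv_apply, hord_u, Finsupp.smul_apply, Finsupp.sub_apply, dv_apply, smul_eq_mul]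
    rw [← S.mapDomain_dv hP huGU Q, e1, Finsupp.mapDomain_smul, Finsupp.smul_apply,
      Finsupp.mapDomain_sub, Finsupp.sub_apply, S.mapDomain_dv hP hGU Q, hh' Q, hrd, sub_self,
      smul_zero]
  obtain ⟨c', hc'⟩ := H'.const_of_regular (fun Q => (hrdu Q).ge)
  obtain ⟨c₀, hc₀V, hc₀⟩ := S.exists_const_lift c'
  have hc₀GU : S.IsGU (algebraMap K F c₀) := ⟨hc₀V, by rw [hc₀, ← hc']; exact huGU.2⟩
  have hc₀0 : c₀ ≠ 0 := by
    rintro rfl
    rw [map_zero] at hc₀GU
    exact hc₀GU.ne_zero rfl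
  set u₁ : F := u / algebraMap K F c₀ with hu₁
  have hu₁GU : S.IsGU u₁ := huGU.div hc₀GU
  have hu₁rd : S.rd u₁ = 1 := by
    rw [hu₁, huGU.rd_div hc₀GU, hc₀, ← hc', div_self huGU.2]
  have hord_u₁ : ∀ P : Place K F, P.ord u₁ = (m : ℤ) * (D P - P.ord h) := by
    intro P
    rw [hu₁, H17.ord_div P huGU.ne_zero hc₀GU.ne_zero, H17.ord_algebraMap, sub_zero, hord_u]
  obtain ⟨t, ht⟩ := S.ticore H H' hR hR' hG m hm u₁ hu₁GU.1 hu₁rd
    (fun P => ⟨_, hord_u₁ P⟩)
  have ht0 : t ≠ 0 := by
    rintro rfl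
    rw [zero_pow hm0] at ht
    exact hu₁GU.ne_zero ht.symm
  refine ⟨t * h, mul_ne_zero ht0 hh0, fun P => ?_⟩
  have h1 := hord_u₁ P
  rw [← ht, H17.ord_pow] at h1
  have h2 : P.ord t = D P - P.ord h := mul_left_cancel₀ hmZ h1
  rw [P.ord_mul ht0 hh0, h2]
  ring

/-- The push-forward of a principal divisor is principal. -/
theorem mapDomain_mem_principal (S : RedSetup K F k Ft) (H : FFHyp K F) {D : Divisor K F}
    (hD : D ∈ Divisor.principal (K := K) (F := F)) :
    Finsupp.mapDomain S.r D ∈ Divisor.principal (K := k) (F := Ft) := by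
  have hP := H.principal
  obtain ⟨f, hf0, hf⟩ := hD
  obtain ⟨c₁, hc₁, huGU⟩ := S.exists_isGU_scale hf0
  have e : D = dv hP (algebraMap K F c₁ * f) := by
    ext P
    rw [dv_apply, ord_algebraMap_mul P hc₁, hf P]
  refine ⟨S.rd (algebraMap K F c₁ * f), huGU.2, fun Q => ?_⟩
  rw [e, S.mapDomain_dv hP huGU Q]

/-- The push-forward on divisors of degree `0`. -/
def pushZero (S : RedSetup K F k Ft) (H : FFHyp K F) (H' : FFHyp k Ft) :
    Divisor.degZero (K := K) (F := F) →+ Divisor.degZero (K := k) (F := Ft) :=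
  ((Finsupp.mapDomain.addMonoidHom S.r).comp
      (Divisor.degZero (K := K) (F := F)).subtype).codRestrict _ (fun D => by
    rw [Divisor.mem_degZero]
    show Divisor.degree (Finsupp.mapDomain S.r (D : Divisor K F)) = 0
    rw [degree_mapDomain H.deg_one H'.deg_one]
    exact D.2)

theorem pushZero_coe (S : RedSetup K F k Ft) (H : FFHyp K F) (H' : FFHyp k Ft)
    (D : Divisor.degZero (K := K) (F := F)) :
    ((pushZero S H H' D : Divisor.degZero (K := k) (F := Ft)) : Divisor k Ft)
      = Finsupp.mapDomain S.r (D : Divisor K F) := rfl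

/-- The push-forward on `Pic0`. -/
def pushPic (S : RedSetup K F k Ft) (H : FFHyp K F) (H' : FFHyp k Ft) :
    Pic0 K F →+ Pic0 k Ft :=
  QuotientAddGroup.map _ _ (pushZero S H H') (by
    intro D hD
    rw [AddSubgroup.mem_comap, AddSubgroup.mem_addSubgroupOf, pushZero_coe]
    exact mapDomain_mem_principal S H (AddSubgroup.mem_addSubgroupOf.mp hD))

theorem pushPic_mk (S : RedSetup K F k Ft) (H : FFHyp K F) (H' : FFHyp k Ft)
    (D : Divisor.degZero (K := K) (F := F)) :
    pushPic S H H' (Pic0.mk D) = Pic0.mk (pushZero S H H' D) := rfl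

theorem pic0_mk_eq_zero_iff {K : Type u} {F : Type v} [Field K] [Field F] [Algebra K F]
    (D : Divisor.degZero (K := K) (F := F)) :
    Pic0.mk D = 0 ↔ (D : Divisor K F) ∈ Divisor.principal (K := K) (F := F) := by
  unfold Pic0.mk
  rw [QuotientAddGroup.eq_zero_iff, AddSubgroup.mem_addSubgroupOf]

theorem pushPic_surjective (S : RedSetup K F k Ft) (H : FFHyp K F) (H' : FFHyp k Ft) :
    Function.Surjective (pushPic S H H') := by
  intro y
  obtain ⟨⟨E, hE⟩, rfl⟩ := Pic0.mk_surjective y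
  have hsur := S.r_surjective H.principal
  choose σ hσ using hsur
  have hrD : Finsupp.mapDomain S.r (Finsupp.mapDomain σ E) = E := by
    rw [← Finsupp.mapDomain_comp]
    have : S.r ∘ σ = id := funext hσ
    rw [this, Finsupp.mapDomain_id]
  have hdeg : Finsupp.mapDomain σ E ∈ Divisor.degZero (K := K) (F := F) := by
    rw [Divisor.mem_degZero, ← degree_mapDomain H.deg_one H'.deg_one S.r, hrD]
    exact hE
  refine ⟨Pic0.mk ⟨Finsupp.mapDomain σ E, hdeg⟩, ?_⟩
  rw [pushPic_mk]
  congr 1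
  exact Subtype.ext hrD

end

/-- **GENUS-EQ**. -/
theorem stmt_GenusEq : Stmt_GenusEq.{u, v, u', v'} := by
  intro K F k Ft _ _ _ _ _ _ _ _ S H H' g c g' c' hR hR' hG
  haveI : Infinite k := IsAlgClosed.instInfinite
  exact le_antisymm (genus_ge S H H' hR hR') (S.genus_le H H' hR hR' hG)

/-- **TI-PIC**. -/
theorem stmt_TIPic : Stmt_TIPic.{u, v, u', v'} := by
  intro K F k Ft _ _ _ _ _ _ _ _ S H H' g c g' c' hR hR' hG
  haveI : Infinite k := IsAlgClosed.instInfinite
  refine ⟨pushPic S H H', ?_, pushPic_surjective S H H', ?_⟩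
  · intro D hD
    exact ⟨(pushZero S H H' ⟨D, hD⟩).2, rfl⟩
  · intro m hm x hx hρ
    obtain ⟨D, rfl⟩ := Pic0.mk_surjective x
    rw [pic0_mk_eq_zero_iff]
    rw [pushPic_mk, pic0_mk_eq_zero_iff, pushZero_coe] at hρ
    have hx' : Pic0.mk ((m : ℤ) • D) = 0 := hx
    rw [pic0_mk_eq_zero_iff] at hx'
    exact principal_of_torsion S H H' hR hR' hG m hm D hx' hρ

end Fermat.Agent.S27.Char0.H52
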