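import Fermat.Agent.S27.Char0.Defs
import Fermat.Agent.S27.Char0.H20_FFH
import Fermat.Agent.S27.Char0.H52_TIPic

/-!
# S27 char-0 half: the wiring (helper20)

`s27_of` : the frozen statement S27 from the four open packages
`Stmt_FFX` (frozen hypotheses ⇒ function field), `Stmt_REDEX` (good reduction exists),
`Stmt_LIFT` (torsion lifts), `Stmt_CountPu` (count over `F̄_p`, helper62's half).
Plugged in: FF-H (`H20.stmt_FFH`), GFF, TI-PIC, GENUS-EQ (helper52).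
-/

set_option autoImplicit false

noncomputable section

open AlgebraicCurve IntermediateField

namespace Fermat.Agent.S27.Char0.H20

open Fermat.Agent.RED.H17

universe u v

/-- A class of `Pic0` killed by `n` is the class of a divisor `E` of degree `0` with `n E`
principal. -/
theorem exists_divisor_of_torsion {K : Type u} {F : Type v} [Field K] [Field F] [Algebra K F]
    (n : ℕ) (y : Pic0 K F) (hy : (n : ℤ) • y = 0) :
    ∃ (E : Divisor K F) (hE : E ∈ Divisor.degZero (K := K) (F := F)),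
      y = Pic0.mk ⟨E, hE⟩ ∧ (n : ℤ) • E ∈ Divisor.principal (K := K) (F := F) := by
  obtain ⟨⟨E, hE⟩, rfl⟩ := Pic0.mk_surjective y
  refine ⟨E, hE, rfl, ?_⟩
  have h1 : Pic0.mk ((n : ℤ) • (⟨E, hE⟩ : Divisor.degZero (K := K) (F := F))) = 0 := hy
  have h2 := (QuotientAddGroup.eq_zero_iff _).mp h1
  exact h2

/-- The class of a divisor of degree `0` is zero iff the divisor is principal. -/
theorem mk_eq_zero_iff' {K : Type u} {F : Type v} [Field K] [Field F] [Algebra K F]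
    (E : Divisor K F) (hE : E ∈ Divisor.degZero (K := K) (F := F)) :
    Pic0.mk ⟨E, hE⟩ = 0 ↔ E ∈ Divisor.principal (K := K) (F := F) :=
  QuotientAddGroup.eq_zero_iff _

/-- **S27** from the open packages. -/
theorem s27_of (hFFX : Stmt_FFX.{u, v}) (hREDEX : Stmt_REDEX.{u, v})
    (hLIFT : Stmt_LIFT.{u, v, u, v}) (hCount : Stmt_CountPu.{u, v})
    (K : Type u) (F : Type v) [Field K] [Field F] [Algebra K F] [IsAlgClosed K] [CharZero K]
    [IsCurveOver K F] [Algebra.EssFiniteType K F]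
    (ℓ : ℕ) [Fact ℓ.Prime] (j : ℕ) :
    Nat.card (Pic0.torsion K F (ℓ ^ j)) = ℓ ^ (2 * genusFF K F * j) := by
  have hℓ : ℓ.Prime := Fact.out
  have hFF : IsFFu K F := hFFX K F
  obtain ⟨H, g, c, hg⟩ := stmt_FFH K F hFF
  have hgenus : genusFF K F = g := Fermat.Agent.S27.Char0.H52.stmt_GFF K F H g c hg
  obtain ⟨p, k, Ft, _, _, _, _, _, hp, hpℓ, halg, ⟨G⟩⟩ := hREDEX K F hFF ℓ
  have hFFt : IsFFu k Ft := ⟨G.S.rd G.x, G.transc, G.fin'⟩
  obtain ⟨H', g', c', hg'⟩ := stmt_FFH k Ft hFFt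
  have hgg : g' = g :=
    Fermat.Agent.S27.Char0.H52.stmt_GenusEq K F k Ft G.S H H' g c g' c' hg hg' G.genusLE
  subst hgg
  obtain ⟨ρ, hρmk, -, hρinj⟩ :=
    Fermat.Agent.S27.Char0.H52.stmt_TIPic K F k Ft G.S H H' g' c g' c' hg hg' G.genusLE
  have hn : ((ℓ ^ j : ℕ) : k) ≠ 0 := by
    intro h0
    have h1 : p ∣ ℓ ^ j := (CharP.cast_eq_zero_iff k p (ℓ ^ j)).mp h0
    have h2 : p ∣ ℓ := hp.dvd_of_dvd_pow h1
    exact hpℓ ((Nat.prime_dvd_prime_iff_eq hp hℓ).mp h2)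
  -- the bijection on torsion
  have hmaps : ∀ x : Pic0 K F, x ∈ Pic0.torsion K F (ℓ ^ j) → ρ x ∈ Pic0.torsion k Ft (ℓ ^ j) := by
    intro x hx
    rw [Pic0.mem_torsion] at hx ⊢
    rw [← map_zsmul, hx, map_zero]
  let φ : Pic0.torsion K F (ℓ ^ j) → Pic0.torsion k Ft (ℓ ^ j) := fun x => ⟨ρ x, hmaps x x.2⟩
  have hφinj : Function.Injective φ := by
    intro x y hxy
    have h1 : ρ (x : Pic0 K F) = ρ (y : Pic0 K F) := congrArg Subtype.val hxy
    have h2 : ρ ((x : Pic0 K F) - y) = 0 := by rw [map_sub, h1, sub_self]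
    have h3 : ((ℓ ^ j : ℕ) : ℤ) • ((x : Pic0 K F) - y) = 0 := by
      have hx := Pic0.mem_torsion.mp x.2
      have hy := Pic0.mem_torsion.mp y.2
      rw [zsmul_sub, hx, hy, sub_self]
    have h4 := hρinj (ℓ ^ j) hn _ h3 h2
    exact Subtype.ext (sub_eq_zero.mp h4)
  have hφsurj : Function.Surjective φ := by
    rintro ⟨y, hy⟩
    rw [Pic0.mem_torsion] at hy
    obtain ⟨E, hE, rfl, hEn⟩ := exists_divisor_of_torsion (ℓ ^ j) y hy
    obtain ⟨D, hD, hDn, hDE⟩ := hLIFT K F k Ft G H H' g' c c' hg hg' (ℓ ^ j) hn E hE hEn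
    have hD' : D ∈ Divisor.degZero (K := K) (F := F) := hD
    have hx : Pic0.mk ⟨D, hD'⟩ ∈ Pic0.torsion K F (ℓ ^ j) := by
      rw [Pic0.mem_torsion]
      have : ((ℓ ^ j : ℕ) : ℤ) • Pic0.mk ⟨D, hD'⟩
          = Pic0.mk (((ℓ ^ j : ℕ) : ℤ) • (⟨D, hD'⟩ : Divisor.degZero (K := K) (F := F))) := rfl
      rw [this]
      exact (QuotientAddGroup.eq_zero_iff _).mpr hDn
    refine ⟨⟨_, hx⟩, Subtype.ext ?_⟩
    show ρ (Pic0.mk ⟨D, hD'⟩) = Pic0.mk ⟨E, hE⟩
    obtain ⟨hD'', hρD⟩ := hρmk D hD'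
    rw [hρD, ← sub_eq_zero]
    have : Pic0.mk ⟨Finsupp.mapDomain G.S.r D, hD''⟩ - Pic0.mk ⟨E, hE⟩
        = Pic0.mk (⟨Finsupp.mapDomain G.S.r D, hD''⟩ - ⟨E, hE⟩) := rfl
    rw [this]
    exact (QuotientAddGroup.eq_zero_iff _).mpr hDE
  have hcard : Nat.card (Pic0.torsion K F (ℓ ^ j)) = Nat.card (Pic0.torsion k Ft (ℓ ^ j)) :=
    Nat.card_congr (Equiv.ofBijective φ ⟨hφinj, hφsurj⟩)
  rw [hcard, hgenus]
  exact hCount k Ft p hp halg hFFt g' c' hg' ℓ hℓ hpℓ.symm j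

end Fermat.Agent.S27.Char0.H20
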