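import Mathlib

/-!
# S27 / RED-EX, leaf GaussExt (helper64), part 1: the abstract Eisenstein lemma

`eisP d c = T^d + Σ_{i<d} c_i T^i`.  If the `c_i ∈ L[X]` are divisible by `X` and `X² ∤ c_0`, then
`eisP d c` is irreducible over `L[X]`, over `RatFunc L` and over `L(x)` for every transcendental
`x` (Eisenstein + Gauss + `RatFunc.algEquivOfTranscendental`).  Consequences for a root `y`:
the minimal polynomial, linear independence of `1, y, …, y^(d-1)` over `L(x)`, generation.
-/

set_option autoImplicit false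
set_option linter.unusedSectionVars false
set_option linter.style.haveILetI false

noncomputable section

namespace Fermat.Agent.S27.Char0.H64

open Polynomial IntermediateField

universe u v

section Poly

variable {R : Type u} [CommRing R] {S : Type v} [CommRing S]

/-- The monic polynomial `T^d + Σ_{i<d} c_i T^i`. -/
def eisP (d : ℕ) (c : Fin d → R) : R[X] := X ^ d + ∑ i : Fin d, C (c i) * X ^ (i : ℕ)

theorem eisP_tail_degree_lt [Nontrivial R] (d : ℕ) (c : Fin d → R) :
    (∑ i : Fin d, C (c i) * X ^ (i : ℕ)).degree < (d : WithBot ℕ) := by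
  exact degree_sum_fin_lt c

theorem eisP_monic [Nontrivial R] (d : ℕ) (c : Fin d → R) : (eisP d c).Monic := by
  unfold eisP
  exact monic_X_pow_add (eisP_tail_degree_lt d c)

theorem eisP_natDegree [Nontrivial R] (d : ℕ) (c : Fin d → R) : (eisP d c).natDegree = d := by
  have h := eisP_tail_degree_lt d c
  unfold eisP
  rw [natDegree_add_eq_left_of_degree_lt, natDegree_X_pow]
  rw [degree_X_pow]
  exact h

theorem eisP_coeff (d : ℕ) (c : Fin d → R) (i : Fin d) : (eisP d c).coeff i = c i := by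
  unfold eisP
  rw [coeff_add, coeff_X_pow, if_neg (ne_of_lt i.2), zero_add, finsetSum_coeff,
    Finset.sum_eq_single i]
  · rw [coeff_C_mul, coeff_X_pow, if_pos rfl, mul_one]
  · intro j _ hj
    rw [coeff_C_mul, coeff_X_pow, if_neg, mul_zero]
    exact fun h => hj (Fin.ext h.symm)
  · intro h
    exact absurd (Finset.mem_univ i) h

theorem eisP_map (f : R →+* S) (d : ℕ) (c : Fin d → R) :
    (eisP d c).map f = eisP d (fun i => f (c i)) := by
  unfold eisP
  simp [Polynomial.map_sum]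

theorem eisP_eval₂ (f : R →+* S) (y : S) (d : ℕ) (c : Fin d → R) :
    (eisP d c).eval₂ f y = y ^ d + ∑ i : Fin d, f (c i) * y ^ (i : ℕ) := by
  unfold eisP
  simp [eval₂_finsetSum]

end Poly

section Eis

variable {L : Type u} [Field L]

/-- **Eisenstein** at the prime `X` of `L[X]`. -/
theorem eisP_irreducible {d : ℕ} (hd : 0 < d) (c : Fin d → L[X]) (h0 : ∀ i, (c i).coeff 0 = 0)
    (h1 : (c ⟨0, hd⟩).coeff 1 ≠ 0) : Irreducible (eisP d c) := by
  have hprime : (Ideal.span {(X : L[X])}).IsPrime := by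
    rw [Ideal.span_singleton_prime X_ne_zero]
    exact prime_X
  have hmon := eisP_monic d c
  have hdeg := eisP_natDegree d c
  refine irreducible_of_eisenstein_criterion hprime ?_ ?_ ?_ ?_ hmon.isPrimitive
  · rw [hmon.leadingCoeff, Ideal.mem_span_singleton]
    exact fun h => not_isUnit_X (isUnit_of_dvd_one h)
  · intro n hn
    rw [degree_eq_natDegree hmon.ne_zero, hdeg] at hn
    have hn' : n < d := by exact_mod_cast hn
    have := eisP_coeff d c ⟨n, hn'⟩
    simp only at this
    rw [this, Ideal.mem_span_singleton, X_dvd_iff]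
    exact h0 _
  · rw [degree_eq_natDegree hmon.ne_zero, hdeg]
    exact_mod_cast hd
  · have := eisP_coeff d c ⟨0, hd⟩
    simp only at this
    rw [this, Ideal.span_singleton_pow, Ideal.mem_span_singleton, X_pow_dvd_iff]
    intro h
    exact h1 (h 1 (by norm_num))

/-- `eisP` is prime in `L[X][T]`. -/
theorem eisP_prime {d : ℕ} (hd : 0 < d) (c : Fin d → L[X]) (h0 : ∀ i, (c i).coeff 0 = 0)
    (h1 : (c ⟨0, hd⟩).coeff 1 ≠ 0) : Prime (eisP d c) :=
  UniqueFactorizationMonoid.irreducible_iff_prime.mp (eisP_irreducible hd c h0 h1)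

/-- Irreducibility over `RatFunc L` (Gauss). -/
theorem eisP_irreducible_ratFunc {d : ℕ} (hd : 0 < d) (c : Fin d → L[X])
    (h0 : ∀ i, (c i).coeff 0 = 0) (h1 : (c ⟨0, hd⟩).coeff 1 ≠ 0) :
    Irreducible ((eisP d c).map (algebraMap L[X] (RatFunc L))) :=
  (Monic.irreducible_iff_irreducible_map_fraction_map (eisP_monic d c)).mp
    (eisP_irreducible hd c h0 h1)

variable {E : Type v} [Field E] [Algebra L E]

/-- The evaluation `L[X] → L(x)`. -/
def evGen (x : E) : L[X] →+* L⟮x⟯ := (aeval (AdjoinSimple.gen L x)).toRingHom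

theorem evGen_apply (x : E) (p : L[X]) : evGen x p = aeval (AdjoinSimple.gen L x) p := rfl

theorem coe_evGen (x : E) (p : L[X]) : ((evGen x p : L⟮x⟯) : E) = aeval x p := by
  rw [evGen_apply, ← IntermediateField.aeval_coe, AdjoinSimple.coe_gen]

theorem evGen_injective {x : E} (hx : Transcendental L x) : Function.Injective (evGen (L := L) x) := by
  intro p q hpq
  have h := congrArg (fun z : L⟮x⟯ => (z : E)) hpq
  simp only [coe_evGen] at h
  exact (transcendental_iff_injective.mp hx) h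

theorem evGen_eq_comp {x : E} (hx : Transcendental L x) :
    evGen x = ((RatFunc.algEquivOfTranscendental x hx : RatFunc L ≃ₐ[L] L⟮x⟯) :
      RatFunc L →+* L⟮x⟯).comp (algebraMap L[X] (RatFunc L)) := by
  refine Polynomial.ringHom_ext (fun a => ?_) ?_
  · apply Subtype.ext
    rw [coe_evGen, aeval_C, RingHom.comp_apply]
    have : algebraMap L[X] (RatFunc L) (C a) = algebraMap L (RatFunc L) a := by
      rw [RatFunc.algebraMap_eq_C, RatFunc.algebraMap_C]
    rw [this]
    change _ = (((RatFunc.algEquivOfTranscendental x hx) (algebraMap L (RatFunc L) a) : L⟮x⟯) : E)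
    rw [AlgEquiv.commutes]
    rfl
  · apply Subtype.ext
    rw [coe_evGen, aeval_X, RingHom.comp_apply, RatFunc.algebraMap_X]
    change _ = (((RatFunc.algEquivOfTranscendental x hx) RatFunc.X : L⟮x⟯) : E)
    rw [RatFunc.algEquivOfTranscendental_X]

/-- Irreducibility over `L(x)`, `x` transcendental. -/
theorem eisP_irreducible_adjoin {d : ℕ} (hd : 0 < d) (c : Fin d → L[X])
    (h0 : ∀ i, (c i).coeff 0 = 0) (h1 : (c ⟨0, hd⟩).coeff 1 ≠ 0) {x : E}
    (hx : Transcendental L x) : Irreducible ((eisP d c).map (evGen x)) := by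
  have h := eisP_irreducible_ratFunc hd c h0 h1
  rw [evGen_eq_comp hx, ← Polynomial.map_map]
  exact (MulEquiv.irreducible_iff (Polynomial.mapEquiv
    (RatFunc.algEquivOfTranscendental x hx).toRingEquiv).toMulEquiv).mpr h

/-- The evaluation `L[X] → E` at `x`. -/
def evE (x : E) : L[X] →+* E := (aeval x).toRingHom

theorem evE_apply (x : E) (p : L[X]) : evE x p = aeval x p := rfl

theorem evE_eq_comp (x : E) : evE (L := L) x = (algebraMap L⟮x⟯ E).comp (evGen x) := by
  ext p <;> simp [evE_apply, ← coe_evGen]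

theorem eval₂_evE (x y : E) (g : L[X][X]) :
    g.eval₂ (evE x) y = aeval y (g.map (evGen x)) := by
  rw [aeval_def, eval₂_map, evE_eq_comp]

section Root

variable {d : ℕ} (hd : 0 < d) (c : Fin d → L[X]) (h0 : ∀ i, (c i).coeff 0 = 0)
  (h1 : (c ⟨0, hd⟩).coeff 1 ≠ 0) {x : E} (hx : Transcendental L x) {y : E}
  (hy : (eisP d c).eval₂ (evE x) y = 0)

include hd h0 h1 hx hy

theorem eis_minpoly : minpoly L⟮x⟯ y = (eisP d c).map (evGen x) := by
  symm
  refine minpoly.eq_of_irreducible_of_monic (eisP_irreducible_adjoin hd c h0 h1 hx) ?_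
    ((eisP_monic d c).map _)
  rw [← eval₂_evE]
  exact hy

theorem eis_isIntegral : IsIntegral L⟮x⟯ y := by
  refine ⟨(eisP d c).map (evGen x), (eisP_monic d c).map _, ?_⟩
  rw [← aeval_def, ← eval₂_evE]
  exact hy

theorem eis_natDegree_minpoly : (minpoly L⟮x⟯ y).natDegree = d := by
  rw [eis_minpoly hd c h0 h1 hx hy, (eisP_monic d c).natDegree_map, eisP_natDegree]

/-- **INJ**: a polynomial of degree `< d` vanishing at `(x, y)` is zero. -/
theorem eis_inj (g : L[X][X]) (hg : g.degree < (d : WithBot ℕ)) (h : g.eval₂ (evE x) y = 0) :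
    g = 0 := by
  by_contra hne
  have hmap : g.map (evGen x) ≠ 0 := by
    intro h0'
    apply hne
    apply Polynomial.map_injective _ (evGen_injective hx)
    rw [h0', Polynomial.map_zero]
  have h2 : aeval y (g.map (evGen x)) = 0 := by rw [← eval₂_evE]; exact h
  have h3 := minpoly.degree_le_of_ne_zero L⟮x⟯ y hmap h2
  rw [degree_eq_natDegree (minpoly.ne_zero (eis_isIntegral hd c h0 h1 hx hy)),
    eis_natDegree_minpoly hd c h0 h1 hx hy] at h3
  have h4 : (g.map (evGen x)).degree ≤ g.degree := degree_map_le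
  exact absurd (h3.trans h4) (not_le.mpr hg)

/-- Separability of the root when `d` is invertible. -/
theorem eis_isSeparable (hdL : (d : L) ≠ 0) : IsSeparable L⟮x⟯ y := by
  unfold IsSeparable
  have hirr : Irreducible (minpoly L⟮x⟯ y) := minpoly.irreducible (eis_isIntegral hd c h0 h1 hx hy)
  rw [Polynomial.separable_iff_derivative_ne_zero hirr]
  intro hder
  have hcoef := congrArg (fun p => p.coeff (d - 1)) hder
  simp only [coeff_zero] at hcoef
  rw [coeff_derivative, Nat.sub_add_cancel hd] at hcoef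
  have hlead : (minpoly L⟮x⟯ y).coeff d = 1 := by
    have := (minpoly.monic (eis_isIntegral hd c h0 h1 hx hy)).coeff_natDegree
    rwa [eis_natDegree_minpoly hd c h0 h1 hx hy] at this
  rw [hlead, one_mul] at hcoef
  have hd1 : ((d - 1 : ℕ) : L⟮x⟯) + 1 = (d : L⟮x⟯) := by
    have : ((d - 1 : ℕ) : L⟮x⟯) + 1 = (((d - 1) + 1 : ℕ) : L⟮x⟯) := by push_cast; ring
    rw [this, Nat.sub_add_cancel hd]
  rw [hd1] at hcoef
  apply hdL
  have : (algebraMap L L⟮x⟯) (d : L) = 0 := by rw [map_natCast]; exact hcoef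
  exact (map_eq_zero _).mp this

theorem eval₂_evE_mem (g : L[X][X]) : g.eval₂ (evE x) y ∈ L⟮x⟯⟮y⟯ := by
  rw [eval₂_evE]
  exact IntermediateField.algebra_adjoin_le_adjoin _ _ (Polynomial.aeval_mem_adjoin_singleton _ _)

/-- If `(x, y)` generate `E` as a field, then `L(x)(y) = E`. -/
theorem eis_adjoin_eq_top
    (hgen : ∀ z : E, ∃ a b : L[X][X], b.eval₂ (evE x) y ≠ 0 ∧
      z * b.eval₂ (evE x) y = a.eval₂ (evE x) y) :
    L⟮x⟯⟮y⟯ = ⊤ := by
  rw [eq_top_iff]
  intro z _
  obtain ⟨a, b, hb, hab⟩ := hgen z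
  have hz : z = a.eval₂ (evE x) y * (b.eval₂ (evE x) y)⁻¹ := by
    rw [← hab, mul_assoc, mul_inv_cancel₀ hb, mul_one]
  rw [hz]
  exact mul_mem (eval₂_evE_mem hd c h0 h1 hx hy a)
    (inv_mem (eval₂_evE_mem hd c h0 h1 hx hy b))

/-- Degree of `E / L(x)` when `(x, y)` generate. -/
theorem eis_finite_of_top (htop : L⟮x⟯⟮y⟯ = ⊤) : Module.Finite L⟮x⟯ E := by
  haveI := IntermediateField.adjoin.finiteDimensional (eis_isIntegral hd c h0 h1 hx hy)
  have e : L⟮x⟯⟮y⟯ ≃ₗ[L⟮x⟯] E :=
    ((IntermediateField.equivOfEq htop).trans IntermediateField.topEquiv).toLinearEquiv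
  exact Module.Finite.equiv e

theorem eis_finrank_of_top (htop : L⟮x⟯⟮y⟯ = ⊤) : Module.finrank L⟮x⟯ E = d := by
  rw [← IntermediateField.finrank_top', ← htop,
    IntermediateField.adjoin.finrank (eis_isIntegral hd c h0 h1 hx hy),
    eis_natDegree_minpoly hd c h0 h1 hx hy]

theorem eis_sep_of_top (htop : L⟮x⟯⟮y⟯ = ⊤) (hdL : (d : L) ≠ 0) :
    Algebra.IsSeparable L⟮x⟯ E := by
  haveI : Algebra.IsSeparable L⟮x⟯ L⟮x⟯⟮y⟯ :=
    (IntermediateField.isSeparable_adjoin_simple_iff_isSeparable _ _).mpr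
      (eis_isSeparable hd c h0 h1 hx hy hdL)
  exact Algebra.IsSeparable.of_algHom L⟮x⟯ L⟮x⟯⟮y⟯
    ((IntermediateField.equivOfEq htop).trans IntermediateField.topEquiv).symm.toAlgHom

/-- If `[E : L(x)] = d`, then `L(x)(y) = E`. -/
theorem eis_adjoin_eq_top_of_finrank [Module.Finite L⟮x⟯ E] (hdeg : Module.finrank L⟮x⟯ E = d) :
    L⟮x⟯⟮y⟯ = ⊤ := by
  haveI : FiniteDimensional L⟮x⟯ (⊤ : IntermediateField L⟮x⟯ E) :=
    Module.Finite.equiv (IntermediateField.topEquiv (F := L⟮x⟯) (E := E)).symm.toLinearEquiv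
  refine IntermediateField.eq_of_le_of_finrank_eq le_top ?_
  rw [IntermediateField.finrank_top', hdeg,
    IntermediateField.adjoin.finrank (eis_isIntegral hd c h0 h1 hx hy),
    eis_natDegree_minpoly hd c h0 h1 hx hy]

/-- **GEN**: if `[E : L(x)] = d`, every element of `E` is `g(x, y) / q(x)`. -/
theorem eis_gen [Module.Finite L⟮x⟯ E] (hdeg : Module.finrank L⟮x⟯ E = d) (f : E) :
    ∃ (g : L[X][X]) (q : L[X]), q ≠ 0 ∧ f * aeval x q = g.eval₂ (evE x) y := by
  have htop := eis_adjoin_eq_top_of_finrank hd c h0 h1 hx hy hdeg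
  have hf : f ∈ L⟮x⟯⟮y⟯ := by rw [htop]; trivial
  have halg : IsAlgebraic L⟮x⟯ y := (eis_isIntegral hd c h0 h1 hx hy).isAlgebraic
  have hf2 : f ∈ (L⟮x⟯⟮y⟯).toSubalgebra := hf
  rw [IntermediateField.adjoin_simple_toSubalgebra_of_isAlgebraic halg,
    Algebra.adjoin_singleton_eq_range_aeval] at hf2
  obtain ⟨r, hr⟩ := hf2
  set e := RatFunc.algEquivOfTranscendental x hx with he
  set r₀ : (RatFunc L)[X] := r.map (e.symm : L⟮x⟯ →+* RatFunc L) with hr₀
  obtain ⟨b, hbM, hb⟩ := IsLocalization.integerNormalization_spec (nonZeroDivisors L[X]) r₀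
  refine ⟨IsLocalization.integerNormalization (nonZeroDivisors L[X]) r₀, b,
    nonZeroDivisors.ne_zero hbM, ?_⟩
  rw [eval₂_evE, evGen_eq_comp hx, ← Polynomial.map_map, hb]
  have h1' : (b • r₀).map ((e : RatFunc L ≃ₐ[L] L⟮x⟯) : RatFunc L →+* L⟮x⟯) = evGen x b • r := by
    rw [Algebra.smul_def, Polynomial.map_mul, hr₀, Polynomial.map_map]
    have hid : ((e : RatFunc L →+* L⟮x⟯).comp (e.symm : L⟮x⟯ →+* RatFunc L)) = RingHom.id _ := by
      ext z
      simp
    rw [hid, Polynomial.map_id, Polynomial.algebraMap_apply, Polynomial.map_C, smul_eq_C_mul]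
    congr 2
    rw [evGen_eq_comp hx]
    rfl
  have hr' : aeval y r = f := hr
  rw [h1', map_smul, hr', Algebra.smul_def, mul_comm]
  congr 1
  exact (coe_evGen x b).symm

end Root

end Eis

end Fermat.Agent.S27.Char0.H64
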