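import Fermat.Agent.S27.Char0.Defs
import Fermat.Agent.S27.REDu.H79_ConsGlueDefs

/-!
# S27 (row 26), characteristic-0 half, package RED-EX: interface statements (planner: helper20)

Plan: `NOTES/plan/S27_char0.md` §RED-EX.  Goal: `Char0.Stmt_REDEX`.

`Fermat/Agent/S27/REDu/*.lean` is a UNIVERSE POLYMORPHIC COPY of the chart machinery of G-RED
(`RED/H34_*` chart theorem, `RED/H10_*`, `RED/H79_*` conservation, `RED/H42_Gen*` genus), made
by script from the landed files (namespace `Fermat.Agent.S27.REDu`).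

Route: an Eisenstein model of `F / K` at a totally ramified point (`EisModel`), a valuation ring
`O` of `K` with residue field algebraic over `𝔽_p` making finitely many elements units (`VAL`),
the Gauss valuation ring `V = V₀[θ]` of `F` (`GaussExt`), the chart theorem for the charts `w`
and `w⁻¹` (branch values distinct modulo the maximal ideal), conservation and genus from `REDu`.
This file contains no unproved statement.
-/

set_option autoImplicit false

noncomputable section

open AlgebraicCurve IntermediateField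

namespace Fermat.Agent.S27.Char0

open Fermat.Agent.RED.H17

universe u v u' v'

/-- An **Eisenstein model** of `F / K`: `w` has a single zero `P`, `θ` is a uniformizer at `P`, and
`b(w) θ^d + Σ_{i<d} w a_i(w) θ^i = 0` with `b(0) ≠ 0`, `a_0(0) ≠ 0`, `d = [F : K(w)]`. -/
structure EisModel (K : Type u) (F : Type v) [Field K] [Field F] [Algebra K F] where
  w : F
  θ : F
  d : ℕ
  transc : Transcendental K w
  fin : Module.Finite K⟮w⟯ F
  deg : Module.finrank K⟮w⟯ F = d
  a : Fin d → Polynomial K
  b : Polynomial K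
  hb : b.eval 0 ≠ 0
  ha : ∀ h : 0 < d, (a ⟨0, h⟩).eval 0 ≠ 0
  rel : Polynomial.aeval w b * θ ^ d +
    ∑ i : Fin d, w * Polynomial.aeval w (a i) * θ ^ (i : ℕ) = 0

/-- **EIS-EX** (RX1 + RX2): every function field over an algebraically closed field has an
Eisenstein model.  (Riemann: a non-constant `f ∈ L((g+1) P)`, `w := 1/f`; `θ` a uniformizer at `P`;
the characteristic polynomial of `θ` over `K(w)` by the local charpoly and norm formulas of FF-B.) -/
def Stmt_EisEx : Prop :=
  ∀ (K : Type u) (F : Type v) [Field K] [Field F] [Algebra K F] [IsAlgClosed K],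
    IsFFu K F → FFHyp K F → ∀ (g : ℕ) (c : ℤ), IsGenus K F g c → Nonempty (EisModel K F)

/-- The valuation ring `O` of `K` is good for the model: integral coefficients, and `b(0)`,
`a_0(0)`, `d` are units. -/
structure EisModel.Good {K : Type u} {F : Type v} [Field K] [Field F] [Algebra K F]
    (M : EisModel K F) (O : ValuationSubring K) : Prop where
  coeff_a : ∀ (i : Fin M.d) (n : ℕ), (M.a i).coeff n ∈ O
  coeff_b : ∀ n : ℕ, M.b.coeff n ∈ O
  unit_b : (M.b.eval 0)⁻¹ ∈ O
  unit_a : ∀ h : 0 < M.d, ((M.a ⟨0, h⟩).eval 0)⁻¹ ∈ O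
  unit_d : ((M.d : K))⁻¹ ∈ O

/-- **VAL** (RX4): a valuation ring of `K` with residue field algebraic over `𝔽_p`, `p ∤ m`, in
which the nonzero elements of a given finite set are units.  (A maximal ideal of the finitely
generated ring `ℤ[I, I⁻¹, 1/m]`, Nullstellensatz over `ℤ`, then Atiyah-Macdonald 5.21.) -/
def Stmt_VAL : Prop :=
  ∀ (K : Type u) [Field K] [IsAlgClosed K] [CharZero K] (I : Finset K) (m : ℕ), 0 < m →
    ∃ (p : ℕ) (O : ValuationSubring K), p.Prime ∧ ¬ p ∣ m ∧
      (∀ a ∈ I, a ∈ O) ∧ (∀ a ∈ I, a ≠ 0 → a⁻¹ ∈ O) ∧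
      (p : K) ∈ O ∧ ((p : K))⁻¹ ∉ O ∧
      ∀ a ∈ O, ∃ n : ℕ, 0 < n ∧ (a ^ (p ^ n) - a = 0 ∨ (a ^ (p ^ n) - a)⁻¹ ∉ O)

/-- **RES-K**: the residue field of a valuation ring of an algebraically closed field is
algebraically closed. -/
def Stmt_ResK : Prop :=
  ∀ (K : Type u) (k : Type u') [Field K] [IsAlgClosed K] [Field k] (O : ValuationSubring K)
    (res : ↥O →+* k), Function.Surjective res → IsAlgClosed k

/-- **BRANCH-FIN** (RX3): a chart has finitely many branch values. -/
def Stmt_BranchFin : Prop :=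
  ∀ (K : Type u) (F : Type v) [Field K] [Field F] [Algebra K F] [IsAlgClosed K] [CharZero K]
    (x : F), Transcendental K x → Module.Finite K⟮x⟯ F →
    {ρ : K | REDu.H34.IsBranchValue x ρ}.Finite

/-- **GAUSS-EXT** (RX5 + RX6): for a good valuation ring `O` the ring `V = V₀[θ]` (`V₀` the Gauss
valuation ring of `K(w)`) is a valuation ring of `F` of Gauss type; its residue field is
`k(w~)[θ~]`, of degree `d` and separable over `k(w~)` (Eisenstein polynomial of degree prime to
the residue characteristic).  `CharZero K` is needed: then `unit_d` says that `d` is a unit of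
`O` (helper64's test). -/
def Stmt_GaussExt : Prop :=
  ∀ (K : Type u) (F : Type v) [Field K] [Field F] [Algebra K F] [IsAlgClosed K] [CharZero K]
    (M : EisModel K F) (O : ValuationSubring K), M.Good O → O ≠ ⊤ →
    ∃ (k : Type u) (Ft : Type v) (_ : Field k) (_ : Field Ft) (_ : Algebra k Ft)
      (S : REDu.H34.RedSetting K F k Ft) (hw : M.w ∈ S.V) (_ : M.w⁻¹ ∈ S.V),
      S.V.comap (algebraMap K F) = O ∧
      Transcendental k (S.red ⟨M.w, hw⟩) ∧
      Module.Finite k⟮S.red ⟨M.w, hw⟩⟯ Ft ∧
      Module.finrank k⟮S.red ⟨M.w, hw⟩⟯ Ft = M.d ∧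
      Algebra.IsSeparable k⟮S.red ⟨M.w, hw⟩⟯ Ft

/-- **BRIDGE** (RX8a): helper34's `RedSetting` with a conservation law is helper17's
`RedSetup`. -/
def Stmt_Bridge : Prop :=
  ∀ (K : Type u) (F : Type v) (k : Type u') (Ft : Type v') [Field K] [Field F] [Algebra K F]
    [Field k] [Field Ft] [Algebra k Ft]
    (S : REDu.H34.RedSetting K F k Ft) (r : Place K F → Place k Ft), REDu.H79.IsRedAbs S r →
    ∃ S' : RedSetup K F k Ft, S'.V = S.V ∧ S'.r = r ∧
      ∀ (f : F) (hf : f ∈ S.V), S'.rd f = S.red ⟨f, hf⟩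

end Fermat.Agent.S27.Char0
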